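import Fermat.Agent.BadRed.Linear
import Mathlib

/-!
# Polynomial equations with arbitrarily good approximate solutions have exact solutions
-/

set_option autoImplicit false
set_option linter.style.haveILetI false
set_option linter.unusedSectionVars false

noncomputable section

namespace FLTAgent.BadRed

open FLTAgent.Specialization

variable {L k : Type*} [Field L] [Field k] {A : ValuationSubring L} {π : A →+* k}

/-- A common bound for finitely many constants. -/
theorem exists_scalar_bound (hπ : Function.Surjective π) {β : Type*} [Fintype β] (c : β → L) :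
    ∃ s : L, s ≠ 0 ∧ ∀ b, s * c b ∈ A := by
  obtain ⟨s, j, hs, hj⟩ := (Reduction.base_total hπ).exists_scale_family
    (c := Sum.elim (fun _ : Unit => (1 : L)) c) (fun h => one_ne_zero (congrFun h (Sum.inl ())))
  exact ⟨s, left_ne_zero_of_mul_eq_one hj, fun b => hs (Sum.inr b)⟩

variable {F W : Type*} [Field F] [Algebra L F] [AddCommGroup W] [Module k W]

/-- Coefficientwise application of a functional to a polynomial. -/
def coeffFunctional {ι : Type*} (φ : F →ₗ[L] L) (P : MvPolynomial ι F) : MvPolynomial ι L :=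
  ∑ m ∈ P.support, MvPolynomial.monomial m (φ (P.coeff m))

theorem eval_coeffFunctional {ι : Type*} [Fintype ι] (φ : F →ₗ[L] L) (P : MvPolynomial ι F)
    (a : ι → L) :
    MvPolynomial.eval a (coeffFunctional φ P) =
      φ (MvPolynomial.eval (fun i => algebraMap L F (a i)) P) := by
  rw [coeffFunctional, map_sum, MvPolynomial.eval_eq', map_sum]
  refine Finset.sum_congr rfl fun m _ => ?_
  rw [MvPolynomial.eval_monomial, show
    P.coeff m * ∏ i, algebraMap L F (a i) ^ m i = (∏ i, a i ^ m i) • P.coeff m by
      rw [Algebra.smul_def, map_prod, mul_comm]; simp,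
    map_smul, smul_eq_mul, mul_comm, Finsupp.prod_fintype]
  simp

/-- A polynomial map into a finite-dimensional space with approximate zeros has a zero. -/
theorem exists_eval_eq_zero [IsAlgClosed L] {R : LRed π F W} (hO : R.Orth)
    (hπ : Function.Surjective π) {ι : Type*} [Fintype ι] (P : MvPolynomial ι F) (E : Submodule L F)
    [FiniteDimensional L E]
    (hmem : ∀ a : ι → L, MvPolynomial.eval (fun i => algebraMap L F (a i)) P ∈ E)
    (happ : ∀ c : L, c ≠ 0 → ∃ (a : ι → A) (t : L) (y : F), y ∈ E ∧ R.Integral y ∧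
      MvPolynomial.eval (fun i => algebraMap L F (a i)) P = t • y ∧
      ∃ h : c * t ∈ A, π ⟨_, h⟩ = 0) :
    ∃ a : ι → L, MvPolynomial.eval (fun i => algebraMap L F (a i)) P = 0 := by
  classical
  by_contra hno
  simp only [not_exists] at hno
  let b := Module.finBasis L E
  choose φ hφ using fun j => LinearMap.exists_extend (p := E) (b.coord j)
  let I : Ideal (MvPolynomial ι L) := Ideal.span (Set.range fun j => coeffFunctional (φ j) P)
  have htop : I = ⊤ := by
    refine Ideal.radical_eq_top.1 ?_
    rw [← MvPolynomial.vanishingIdeal_zeroLocus_eq_radical (K := L),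
      show MvPolynomial.zeroLocus L I = ∅ from Set.eq_empty_iff_forall_notMem.2 fun a ha => hno a ?_,
      MvPolynomial.vanishingIdeal_empty]
    set y : E := ⟨_, hmem a⟩
    suffices y = 0 from congrArg Subtype.val this
    refine b.forall_coord_eq_zero_iff.1 fun j => ?_
    have h := MvPolynomial.mem_zeroLocus_iff.1 ha _ (Ideal.subset_span ⟨j, rfl⟩)
    rw [MvPolynomial.aeval_eq_eval, eval_coeffFunctional] at h
    rw [← hφ j]
    exact h
  obtain ⟨Q, hQ⟩ := Ideal.mem_span_range_iff_exists_fun.1 ((Ideal.eq_top_iff_one I).1 htop)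
  obtain ⟨s, hs, hsQ⟩ := exists_scalar_bound hπ
    (fun x : (j : Fin (Module.finrank L E)) × (Q j).support => (Q x.1).coeff x.2.1)
  choose r hr hrb using fun j => LRed.exists_bound hO hπ (U := E) (φ j)
  obtain ⟨s₂, hs₂, hs₂r⟩ := exists_scalar_bound hπ fun j => (r j)⁻¹
  set c := s * s₂ with hcdef
  obtain ⟨a, t, y, hy, hyi, hP, hct, hπ0⟩ := happ c⁻¹ (inv_ne_zero (mul_ne_zero hs hs₂))
  have hterm : ∀ j, c * (MvPolynomial.eval (fun i => (a i : L)) (Q j) * φ j y) ∈ A := by
    intro j
    have h1 : s * MvPolynomial.eval (fun i => (a i : L)) (Q j) ∈ A := by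
      rw [MvPolynomial.eval_eq', Finset.mul_sum]
      refine sum_mem fun m hm => ?_
      rw [← mul_assoc]
      exact mul_mem (hsQ ⟨j, ⟨m, hm⟩⟩) (prod_mem fun i _ => pow_mem (a i).2 _)
    convert mul_mem (mul_mem h1 (hs₂r j)) (hrb j y hy hyi) using 1
    have := hr j
    rw [hcdef]
    field_simp
  have h := congrArg (MvPolynomial.eval fun i => (a i : L)) hQ
  simp only [map_sum, map_mul, eval_coeffFunctional, hP, map_smul, smul_eq_mul, map_one] at h
  set T : A := ⟨c⁻¹ * t, hct⟩
  set Sg : A := ∑ j, ⟨_, hterm j⟩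
  have h1 : T * Sg = 1 := Subtype.ext (by
    simp only [Sg, T, MulMemClass.coe_mul, AddSubmonoidClass.coe_finsetSum, OneMemClass.coe_one]
    rw [← h, Finset.mul_sum]
    refine Finset.sum_congr rfl fun j _ => ?_
    have : c ≠ 0 := mul_ne_zero hs hs₂
    field_simp)
  have h2 := congrArg π h1
  rw [map_mul, show π T = 0 from hπ0, zero_mul, map_one] at h2
  exact zero_ne_one h2

end FLTAgent.BadRed
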