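import Fermat.Agent.BadRed.Gluing
import Fermat.Agent.BadRed.Exact

/-!
# Trivial gluing constants give powers
-/

set_option autoImplicit false
set_option linter.style.haveILetI false
set_option linter.unusedSectionVars false

noncomputable section

namespace FLTAgent.BadRed

open AlgebraicCurve FLTAgent.Curves FLTAgent.Specialization Polynomial IntermediateField

variable {L k : Type*} [Field L] [Field k] {A : ValuationSubring L} {π : A →+* k}
  {FC Fb F : Type*} [Field FC] [Field Fb] [Field F] [Algebra L FC]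
  [Algebra k Fb] [Algebra L F] [IsAlgClosed L] [IsFunctionField L FC] [IsFunctionField L F]
  [IsAlgClosed k] [IsFunctionField k Fb] {q : ℕ}

theorem inv_mem_of_map_ne_zero (hπ : Function.Surjective π) {a : A} (h : π a ≠ 0) :
    (a : L)⁻¹ ∈ A := by
  by_contra hn
  exact h (Reduction.map_eq_zero_of_inv_notMem hπ hn)

theorem exists_one_add_pow {R : Type*} [CommRing R] (x : R) (n : ℕ) :
    ∃ z : R, (1 + x) ^ n = 1 + n * x + x ^ 2 * z := by
  induction n with
  | zero => exact ⟨0, by simp⟩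
  | succ n ih =>
      obtain ⟨z, hz⟩ := ih
      exact ⟨z * (1 + x) + n, by rw [pow_succ, hz]; push_cast; ring⟩

namespace Sheet

variable (S : Sheet π FC Fb F q)

/-- Functions integral on both sheets. -/
def intRing : Subring F := S.R₁.O ⊓ S.R₂.O

theorem integral_iff_mem {f : F} : (S.pair 1).Integral f ↔ f ∈ S.intRing := by
  constructor
  · rintro ⟨g, h1, h2⟩
    rw [one_smul] at h2
    exact ⟨h1.mem, h2.mem⟩
  · rintro ⟨h1, h2⟩
    obtain ⟨g₁, hg₁⟩ := S.R₁.exists_res_of_mem h1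
    obtain ⟨g₂, hg₂⟩ := S.R₂.exists_res_of_mem h2
    exact ⟨(g₁, g₂), hg₁, by rwa [one_smul]⟩

theorem algebraMap_mem_intRing (a : A) : algebraMap L F a ∈ S.intRing :=
  ⟨S.R₁.algebraMap_mem a, S.R₂.algebraMap_mem a⟩

variable {S}

theorem small_mul {d d' : L} {t : L} {u e : F} (hu : (S.pair d).Integral u)
    (he : (S.pair d').Small t e) : (S.pair (d * d')).Small t (u * e) := by
  obtain ⟨g, hg⟩ := hu
  obtain ⟨y, ⟨g', hg'⟩, rfl⟩ := he
  exact ⟨u * y, ⟨g * g', S.pair_mul hg hg'⟩, mul_smul_comm t u y⟩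

theorem pow_X_mem (a : ℕ) : S.X ^ a ∈ riemannRochSpace ((a : ℤ) • poleDiv L S.X) :=
  mem_rrSpace_poles.2 ⟨integralWrt_pow (integralWrt_self _) _, fun v _ => by
    refine ordGE_of_le ?_
    rw [ord_pow]⟩

/-- Dividing by a power of the coordinate lowers the bound on the poles. -/
theorem poles_of_pow_mul {a b : ℕ} {φ : Fb} (hφ : φ ∈ S.regular)
    (h : S.MC.xb ^ a * φ ∈ riemannRochSpace (((b + a : ℕ) : ℤ) • poleDiv k S.MC.xb)) :
    φ ∈ riemannRochSpace ((b : ℤ) • poleDiv k S.MC.xb) := by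
  refine mem_rrSpace_poles.2 ⟨hφ, fun v hv => ?_⟩
  rcases eq_or_ne φ 0 with rfl | h0
  · exact ordGE_zero _ _
  have hx0 := pow_ne_zero a S.xb_ne_zero
  have h' := ((mem_rrSpace_poles.1 h).2 v hv).le_ord (mul_ne_zero hx0 h0)
  rw [v.ord_mul hx0 h0, ord_pow] at h'
  push_cast at h'
  exact ordGE_of_le (by linarith)

namespace KData

variable {n : ℕ} (z : S.KData n)

theorem mul_mem_space {u e : F} {a b : ℕ} (hu : u ∈ z.space a)
    (he : e ∈ riemannRochSpace ((b : ℤ) • poleDiv L S.X)) : u * e ∈ z.space (a + b) := by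
  rw [mem_space_iff] at hu ⊢
  intro v
  refine ((hu v).mul (mem_rrSpace.1 he v)).mono (le_of_eq ?_)
  rw [Finsupp.smul_apply, smul_eq_mul]
  push_cast; ring

/-- The inverse of `g`, componentwise. -/
def gInv : Fb × Fb := (z.g.1⁻¹, z.g.2⁻¹)

theorem gInv_mul : z.gInv * z.g = 1 :=
  Prod.ext (inv_mul_cancel₀ z.g₁_ne) (inv_mul_cancel₀ z.g₂_ne)

theorem eq_gInv {w : Fb × Fb} (h : w * z.g = 1) : w = z.gInv := by
  have := congrArg (· * z.gInv) h
  simpa [mul_assoc, mul_comm z.g z.gInv, z.gInv_mul] using this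

/-- The correction factor of Newton's method. -/
def newton (u : F) : F := 1 - (n : L)⁻¹ • (u ^ n * z.f - 1)

theorem newton_step {u : F} {t : A} (ht : π t = 0) (hr : (S.pair z.d).Res u z.gInv)
    (he : (S.pair 1).Small (t : L) (u ^ n * z.f - 1)) :
    (S.pair z.d).Res (u * z.newton u) z.gInv ∧
      (S.pair 1).Small ((t : L) ^ 2) ((u * z.newton u) ^ n * z.f - 1) := by
  have hcA : (n : L)⁻¹ ∈ A := by
    simpa using inv_mem_of_map_ne_zero S.MC.surj (a := (n : A)) (by simpa using z.n_ne)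
  set c : A := ⟨(n : L)⁻¹, hcA⟩
  have hnL : (n : L) ≠ 0 := fun h => z.n_ne (by
    have : (n : A) = 0 := Subtype.ext (by simpa using h)
    simpa using congrArg π this)
  constructor
  · have h0 : (S.pair 1).Res (u ^ n * z.f - 1) 0 := he.res ht
    have h1 : (S.pair 1).Res (z.newton u) 1 := by
      simpa [newton, c] using LRed.res_sub S.pair_one ((S.pair 1).res_smul c h0)
    simpa using S.pair_mul hr h1
  · obtain ⟨y, hy, hey⟩ := he
    rw [S.integral_iff_mem] at hy
    set e := u ^ n * z.f - 1 with hedef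
    have heO : e ∈ S.intRing := by
      rw [hey, Algebra.smul_def]; exact mul_mem (S.algebraMap_mem_intRing t) hy
    set e' : S.intRing := ⟨e, heO⟩
    set c' : S.intRing := ⟨algebraMap L F c, S.algebraMap_mem_intRing c⟩
    have hnc : (n : S.intRing) * c' = 1 := Subtype.ext (by
      simp only [c', MulMemClass.coe_mul, SubringClass.coe_natCast, OneMemClass.coe_one, c]
      rw [← map_natCast (algebraMap L F), ← map_mul, mul_inv_cancel₀ hnL, map_one])
    obtain ⟨Q, hQ⟩ := exists_one_add_pow (-(c' * e')) n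
    have key : (1 + e') * (1 + -(c' * e')) ^ n - 1 = e' ^ 2 * (-1 + (1 + e') * (c' ^ 2 * Q)) := by
      rw [hQ]; linear_combination (-(e') - e' ^ 2) * hnc
    refine ⟨y ^ 2 * ((-1 + (1 + e') * (c' ^ 2 * Q) : S.intRing) : F),
      S.integral_iff_mem.2 (mul_mem (pow_mem hy 2) (SetLike.coe_mem _)), ?_⟩
    have hkey := congrArg (Subring.subtype S.intRing) key
    simp only [map_sub, map_mul, map_pow, map_add, map_neg, map_one, Subring.coe_subtype] at hkey
    rw [mul_pow, show u ^ n * z.newton u ^ n * z.f = (1 + e) * (1 + -(algebraMap L F c * e)) ^ n by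
      simp only [newton, ← hedef, Algebra.smul_def, c]
      rw [hedef]; ring]
    refine hkey.trans ?_
    simp only [e', hey, c']
    push_cast
    rw [← smul_mul_assoc, ← _root_.smul_pow]

theorem res_geom {u b : F} (hu : (S.pair z.d).Res u z.gInv) (hb : (S.pair z.d).Res b z.gInv) :
    (S.pair z.d⁻¹).Res ((∑ i ∈ Finset.range n, u ^ i * b ^ (n - 1 - i)) * z.f)
      ((n : Fb × Fb) * z.g) := by
  have hn := z.pos
  have h := LRed.res_sum (R := S.pair (z.d ^ (n - 1))) (s := Finset.range n)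
    (v := fun i => u ^ i * b ^ (n - 1 - i)) (w := fun _ => z.gInv ^ (n - 1)) fun i hi => by
      have hi' := Finset.mem_range.1 hi
      have := S.pair_mul (S.pair_pow hu i) (S.pair_pow hb (n - 1 - i))
      rwa [← pow_add, ← pow_add, show i + (n - 1 - i) = n - 1 by omega] at this
  have := S.pair_mul h z.res
  obtain ⟨n', rfl⟩ : ∃ n', n = n' + 1 := ⟨n - 1, by omega⟩
  simp only [Nat.add_sub_cancel, Finset.sum_const, Finset.card_range, nsmul_eq_mul] at this ⊢
  rw [pow_succ, ← mul_assoc (z.d ^ n'), ← mul_pow, mul_inv_cancel₀ z.d_ne, one_pow, one_mul,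
    pow_succ z.g n', mul_assoc, ← mul_assoc (z.gInv ^ n'), ← mul_pow, z.gInv_mul, one_pow,
    one_mul] at this
  exact this

/-- Approximate roots with the same reduction are close. -/
theorem small_sub {u b : F} {t : L} (hu : (S.pair z.d).Res u z.gInv)
    (hb : (S.pair z.d).Res b z.gInv) (heu : (S.pair 1).Small t (u ^ n * z.f - 1))
    (heb : (S.pair 1).Small t (b ^ n * z.f - 1)) : (S.pair z.d).Small t (u - b) := by
  have hr := z.res_geom hu hb
  set G := (∑ i ∈ Finset.range n, u ^ i * b ^ (n - 1 - i)) * z.f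
  have hnFb : (n : Fb) ≠ 0 := by
    rw [← map_natCast (algebraMap k Fb)]
    exact (_root_.map_ne_zero _).2 z.n_ne
  have h1 : ((n : Fb × Fb) * z.g).1 ≠ 0 := mul_ne_zero (by simpa using hnFb) z.g₁_ne
  have h2 : ((n : Fb × Fb) * z.g).2 ≠ 0 := mul_ne_zero (by simpa using hnFb) z.g₂_ne
  have hinv : (S.pair z.d).Integral G⁻¹ := ⟨(_, _), hr.1.inv h1, by
    have := hr.2.inv h2
    rwa [Algebra.smul_def, mul_inv, ← map_inv₀, inv_inv, ← Algebra.smul_def] at this⟩
  have h := small_mul hinv (heu.sub heb)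
  rw [mul_one, sub_sub_sub_cancel_right, ← sub_mul, ← geom_sum₂_mul, mul_right_comm,
    inv_mul_cancel_left₀ (hr.1.ne_zero h1)] at h
  exact h

/-- Roots are stable under small changes. -/
theorem small_change {u a : F} {t : A} (ht : π t = 0) (hu : (S.pair z.d).Res u z.gInv)
    (h : (S.pair z.d).Small (t : L) (u - a)) :
    (S.pair z.d).Res a z.gInv ∧ (S.pair 1).Small (t : L) (u ^ n * z.f - a ^ n * z.f) := by
  have ha : (S.pair z.d).Res a z.gInv := by
    have := LRed.res_sub hu (h.res ht)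
    simpa using this
  refine ⟨ha, ?_⟩
  have := small_mul ⟨_, z.res_geom hu ha⟩ h
  rw [inv_mul_cancel₀ z.d_ne, mul_right_comm, geom_sum₂_mul, sub_mul] at this
  exact this

variable (hS : S.Good) (N : S.Nodes)
include hS

theorem truncate_hyp (h1 : z.twist N = 1) {m m' M : ℕ} (hm : N.m₀ ≤ m) (hm' : m ≤ m') :
    (S.pair z.d).image (z.space m') ⊓
        (S.pair z.d).image ((z.space (m + M)).map (LinearMap.mulLeft L (S.X ^ M)⁻¹)) ≤
      (S.pair z.d).image (z.space m) := by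
  rintro w ⟨hw, hw'⟩
  have hζ : z.Twist N 1 := h1 ▸ z.twist_spec N
  have h1' : w * z.g ∈ z.normImg m' := Submodule.mem_map_of_mem hw
  rw [z.normImg_eq_twisted hS N hζ (fun _ => one_ne_zero) (hm.trans hm'), mem_twisted] at h1'
  obtain ⟨⟨ht1, ht2⟩, hglue⟩ := h1'
  obtain ⟨_, ⟨e, he, rfl⟩, hres⟩ := (LRed.mem_image S.MC.surj).1 hw'
  have hX := S.pair_pow S.pair_X M
  have hr := S.pair_mul hX hres
  rw [LinearMap.mulLeft_apply, mul_inv_cancel_left₀
    (pow_ne_zero M (ne_zero_of_transcendental S.transcendental_X)), one_pow, one_mul] at hr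
  obtain ⟨p1, p2⟩ := z.normImg_le_targ (m + M) (z.mem_normImg.2 ⟨e, he, _, hr, rfl⟩)
  have hmem : w * z.g ∈ S.twisted N 1 m := by
    refine S.mem_twisted.2 ⟨⟨poles_of_pow_mul (a := M) (mem_rrSpace_poles.1 ht1).1 ?_,
      poles_of_pow_mul (a := q * M) (mem_rrSpace_poles.1 ht2).1 ?_⟩, hglue⟩
    · simpa [mul_assoc] using p1
    · rw [← Nat.mul_add]
      simpa [mul_assoc, ← pow_mul] using p2
  rw [← z.normImg_eq_twisted hS N hζ (fun _ => one_ne_zero) hm] at hmem
  obtain ⟨w', hw'', he'⟩ := hmem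
  rwa [← z.mul_g_injective he']

/-- Trivial gluing constants give a power. -/
theorem exists_root (h1 : z.twist N = 1) : ∃ h : F, h ^ n = z.f := by
  classical
  have hζ : z.Twist N 1 := h1 ▸ z.twist_spec N
  have hS' := S.MC.surj
  set m := N.m₀ with hm_def
  have hB : rBound k Fb ≤ m := by
    have := N.bound_le; have := Int.self_le_toNat (rBound k Fb); omega
  have htw : z.normImg m = S.rimg m :=
    (z.normImg_eq_twisted hS N hζ (fun _ => one_ne_zero) le_rfl).trans
      (hS.rimg_eq_twisted N le_rfl).symm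
  have hX0 : S.X ≠ 0 := ne_zero_of_transcendental S.transcendental_X
  obtain ⟨u₀, hu₀, w, hw, hwg⟩ := z.mem_normImg.1 (htw.symm ▸ LRed.mem_image_of_res
    (one_mem_rrSpace fun v => by
      simpa using mul_nonneg (Int.natCast_nonneg m) (poleDiv_nonneg (K := L) S.X v))
    S.pair_one : (1 : Fb × Fb) ∈ z.normImg m)
  rw [z.eq_gInv hwg] at hw
  obtain ⟨b₀, hb₀, w', hw', hwg'⟩ := z.mem_normImg.1 (htw.symm ▸ LRed.mem_image_of_res (pow_X_mem m)
    (S.pair_pow S.pair_X m |> fun h => by rwa [one_pow] at h) :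
      (S.MC.xb, S.MC.xb ^ q) ^ m ∈ z.normImg m)
  have hb₀' : (S.pair z.d).Res ((S.X ^ m)⁻¹ * b₀) z.gInv := by
    have hp := S.pair_pow S.pair_X m
    rw [one_pow] at hp
    have hi : (S.pair 1).Res (S.X ^ m)⁻¹ ((S.MC.xb ^ m)⁻¹, ((S.MC.xb ^ q) ^ m)⁻¹) :=
      ⟨hp.1.inv (pow_ne_zero _ S.xb_ne_zero), by
        have h2 := hp.2
        rw [one_smul] at h2 ⊢
        exact h2.inv (pow_ne_zero _ (pow_ne_zero _ S.xb_ne_zero))⟩
    have := S.pair_mul hi hw'
    rw [one_mul] at this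
    convert this using 1
    refine (z.eq_gInv ?_).symm
    rw [mul_assoc, hwg']
    exact Prod.ext (inv_mul_cancel₀ (pow_ne_zero _ S.xb_ne_zero))
      (inv_mul_cancel₀ (pow_ne_zero _ (pow_ne_zero _ S.xb_ne_zero)))
  let Inv : A → Prop := fun t => π t = 0 ∧
    (∃ u ∈ z.space m, (S.pair z.d).Res u z.gInv ∧
      (S.pair 1).Small (t : L) (u ^ n * z.f - 1)) ∧
    ∃ M, m ≤ M ∧ ∃ b, S.X ^ M * b ∈ z.space M ∧ (S.pair z.d).Res b z.gInv ∧
      (S.pair 1).Small (t : L) (b ^ n * z.f - 1)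
  obtain ⟨t₀, ht₀, ht₀'⟩ := S.exists_nonunit
  have hres0 : ∀ {u}, (S.pair z.d).Res u z.gInv → (S.pair 1).Res (u ^ n * z.f - 1) 0 := by
    intro u hu
    have := LRed.res_sub (z.res_pow hu) S.pair_one
    rwa [z.gInv_mul, one_pow, sub_self] at this
  obtain ⟨t, ht, htL, hI⟩ : ∃ t : A, π t = 0 ∧ (t : L) ≠ 0 ∧ Inv t := by
    obtain ⟨t₁, ht₁, ht₁', hs₁⟩ := LRed.exists_small S.orth_one hS' (hres0 hw) ht₀ ht₀'
    obtain ⟨t₂, ht₂, ht₂', hs₂⟩ := LRed.exists_small S.orth_one hS' (hres0 hb₀') ht₀ ht₀'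
    have hmem : S.X ^ m * ((S.X ^ m)⁻¹ * b₀) ∈ z.space m := by
      rwa [mul_inv_cancel_left₀ (pow_ne_zero _ hX0)]
    rcases A.mem_or_inv_mem ((t₁ : L) / t₂) with h | h
    · exact ⟨t₂, ht₂, ht₂', ht₂, ⟨u₀, hu₀, hw, LRed.Small.mono h (by field_simp) hs₁⟩,
        m, le_rfl, _, hmem, hb₀', hs₂⟩
    · rw [inv_div] at h
      exact ⟨t₁, ht₁, ht₁', ht₁, ⟨u₀, hu₀, hw, hs₁⟩,
        m, le_rfl, _, hmem, hb₀', LRed.Small.mono h (by field_simp) hs₂⟩
  have hstep : ∀ s : A, (s : L) ≠ 0 → Inv s → Inv (s ^ 2) := by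
    rintro s hs ⟨hπs, ⟨u, hu, hur, hue⟩, M, hM, b, hb, hbr, hbe⟩
    have hπs2 : π (s ^ 2) = 0 := by rw [map_pow, hπs]; simp
    obtain ⟨hur', hue'⟩ := z.newton_step hπs hur hue
    obtain ⟨hbr', hbe'⟩ := z.newton_step hπs hbr hbe
    have he : ∀ {a : ℕ} {v : F}, v ∈ z.space a → ∀ c : F,
        c ∈ riemannRochSpace (((n * a : ℕ) : ℤ) • poleDiv L S.X) →
        v * (c - (n : L)⁻¹ • (v ^ n * z.f - c)) ∈ z.space ((n + 1) * a) := fun {a v} hv c hc => by
      rw [show (n + 1) * a = a + n * a by ring]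
      exact z.mul_mem_space hv (Submodule.sub_mem _ hc
        (Submodule.smul_mem _ _ (Submodule.sub_mem _ (z.npow_mem hv) hc)))
    have hu' : u * z.newton u ∈ z.space ((n + 1) * m) := he hu 1 (one_mem_rrSpace fun v => by
      simpa using mul_nonneg (Int.natCast_nonneg (n * m)) (poleDiv_nonneg (K := L) S.X v))
    set M' := (n + 1) * M with hM'
    have hb' : S.X ^ M' * (b * z.newton b) ∈ z.space M' := by
      have h := he hb (S.X ^ (n * M)) (pow_X_mem _)
      convert h using 1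
      simp only [newton, hM', Algebra.smul_def, mul_pow, ← pow_mul]
      ring
    set T := (z.space (m + M')).map (LinearMap.mulLeft L (S.X ^ M')⁻¹) with hT
    have hbT : b * z.newton b ∈ T :=
      ⟨_, z.space_mono (by omega) hb', by rw [LinearMap.mulLeft_apply,
        inv_mul_cancel_left₀ (pow_ne_zero _ hX0)]⟩
    have hUT : z.space m ≤ T := fun v hv => ⟨v * S.X ^ M', z.mul_mem_space hv (pow_X_mem _),
      by rw [LinearMap.mulLeft_apply, mul_left_comm, inv_mul_cancel₀ (pow_ne_zero _ hX0), mul_one]⟩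
    have hm' : m ≤ (n + 1) * m := Nat.le_mul_of_pos_left _ (by omega)
    obtain ⟨a, ha, has⟩ := LRed.truncate (S.orth z.d_ne) hS' (z.space_mono hm') hUT
      (z.truncate_hyp hS N h1 le_rfl hm') hu' hbT (t := ((s ^ 2 : A) : L))
      (by push_cast; exact pow_ne_zero _ hs)
      (by push_cast; exact z.small_sub hur' hbr' hue' hbe')
    obtain ⟨har, hae⟩ := z.small_change hπs2 hur' has
    refine ⟨hπs2, ⟨a, ha, har, ?_⟩, M', hM.trans (Nat.le_mul_of_pos_left _ (by omega)),
      _, hb', hbr', by push_cast; exact hbe'⟩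
    have := LRed.Small.sub (by push_cast; exact hue' :
      (S.pair 1).Small ((s ^ 2 : A) : L) ((u * z.newton u) ^ n * z.f - 1)) hae
    rwa [show ∀ p r : F, p - 1 - (p - r) = r - 1 from fun p r => by ring] at this
  have hiter : ∀ j : ℕ, Inv (t ^ 2 ^ j) := fun j => by
    induction j with
    | zero => simpa using hI
    | succ j ih =>
        have := hstep _ (by push_cast; exact pow_ne_zero _ htL) ih
        rwa [← pow_mul, ← pow_succ] at this
  obtain ⟨v, w, hv, hvw, hwi, hvs, -⟩ := LRed.exists_basis (S.orth z.d_ne) hS' (z.space m)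
  let P : MvPolynomial (Fin (Module.finrank L (z.space m))) F :=
    (∑ i, MvPolynomial.C (v i) * MvPolynomial.X i) ^ n * MvPolynomial.C z.f - 1
  have hev : ∀ a : Fin (Module.finrank L (z.space m)) → L,
      MvPolynomial.eval (fun i => algebraMap L F (a i)) P = (∑ i, a i • v i) ^ n * z.f - 1 := by
    intro a
    simp [P, Algebra.smul_def, mul_comm]
  haveI := finiteDimensional_rrSpace (K := L) (((n * m : ℕ) : ℤ) • poleDiv L S.X)
  have h1E : (1 : F) ∈ riemannRochSpace (((n * m : ℕ) : ℤ) • poleDiv L S.X) :=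
    one_mem_rrSpace fun v => by
      simpa using mul_nonneg (Int.natCast_nonneg (n * m)) (poleDiv_nonneg (K := L) S.X v)
  obtain ⟨a, ha⟩ := exists_eval_eq_zero (R := S.pair 1) S.orth_one hS' P
    (riemannRochSpace (((n * m : ℕ) : ℤ) • poleDiv L S.X))
    (fun a => by
      rw [hev]
      exact Submodule.sub_mem _ (z.npow_mem (Submodule.sum_mem _ fun i _ =>
        Submodule.smul_mem _ _ (hv i))) h1E)
    (fun c _ => by
      obtain ⟨j₀, hc, hπc⟩ := S.arch t c ht
      obtain ⟨-, ⟨u, hu, hur, y, hy, hey⟩, -⟩ := hiter j₀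
      obtain ⟨a, rfl⟩ := (Submodule.mem_span_range_iff_exists_fun L).1
        (hvs.symm ▸ hu : u ∈ Submodule.span L (Set.range v))
      have hA : ∀ i, a i ∈ A := fun i => LRed.coord_mem hS' hvw hwi ⟨_, hur⟩ i
      have hle : j₀ ≤ 2 ^ j₀ := (Nat.lt_pow_self (by norm_num)).le
      obtain ⟨r, hr⟩ := Nat.exists_eq_add_of_le hle
      refine ⟨fun i => ⟨a i, hA i⟩, _, y, ?_, hy, (hev a).trans hey, ?_⟩
      · have hy' : y = (((t ^ 2 ^ j₀ : A) : L))⁻¹ • ((∑ i, a i • v i) ^ n * z.f - 1) := by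
          rw [hey, inv_smul_smul₀ (by push_cast; exact pow_ne_zero _ htL)]
        rw [hy']
        exact Submodule.smul_mem _ _ (Submodule.sub_mem _ (z.npow_mem hu) h1E)
      · have heq : c * ((t ^ 2 ^ j₀ : A) : L) = c * (t : L) ^ j₀ * ((t ^ r : A) : L) := by
          push_cast; rw [mul_assoc, ← pow_add, ← hr]
        refine ⟨heq ▸ mul_mem hc (t ^ r).2, ?_⟩
        rw [show (⟨_, heq ▸ mul_mem hc (t ^ r).2⟩ : A) = ⟨_, hc⟩ * t ^ r from Subtype.ext heq,
          map_mul, hπc, zero_mul])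
  rw [hev, sub_eq_zero] at ha
  refine ⟨(∑ i, a i • v i)⁻¹, ?_⟩
  rw [inv_pow]
  exact inv_eq_of_mul_eq_one_right ha

end KData

end Sheet

end FLTAgent.BadRed
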