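import Fermat.Agent.BadRed.Level
import Fermat.Agent.EigenReps.Unramified
import Fermat.Prelude.Def_GaloisRep_LocalConditions

/-!
# Inertia at a prime exactly dividing the level is unipotent in the representation of a Hecke datum

As `σ + σ⁻¹ = 2` on torsion, `2` is a lift of `σ`, so modulo every power of the maximal ideal the
trace is `2` and the determinant is `1`.
-/

set_option autoImplicit false
set_option linter.style.haveILetI false
set_option synthInstance.maxHeartbeats 400000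
set_option maxHeartbeats 1000000

noncomputable section

open Polynomial AlgebraicCurve ModularCurve

namespace FLTAgent.BadRed

open FLTAgent.EigenReps FLTAgent.DetCyclo

local notation "LL" => AlgebraicClosure ℚ
local notation "GG" => (AlgebraicClosure ℚ ≃ₐ[ℚ] AlgebraicClosure ℚ)

/-- Inertia at `q ∥ N` acts unipotently on torsion prime to `q`. -/
theorem inertia_smul_add_inv {N q : ℕ} [NeZero N] (hq : q.Prime) (hqN : q ∣ N) (hq2 : ¬ q ^ 2 ∣ N)
    {A : ValuationSubring LL} (hA : A.LiesOverPrime q) {σ : GG} (hσ : σ ∈ A.inertiaSubgroupIn ℚ)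
    {n : ℕ} (hn : ¬ q ∣ n) {x : JZero N} (hx : n • x = 0) : σ • x + σ⁻¹ • x = x + x := by
  obtain ⟨M, rfl⟩ : ∃ M, N = M * q := ⟨N / q, (Nat.div_mul_cancel hqN).symm⟩
  haveI : NeZero M := ⟨fun h => NeZero.ne (M * q) (by rw [h, zero_mul])⟩
  haveI : Fact q.Prime := ⟨hq⟩
  haveI : NeZero q := ⟨hq.ne_zero⟩
  have hqM : ¬ q ∣ M := fun h => hq2 (by rw [sq]; exact mul_dvd_mul_right h q)
  have hy : n • (σ⁻¹ • x) = 0 := by rw [smul_comm n σ⁻¹ x, hx, smul_zero]
  have h := inertia_smul_smul_torsion hA hqM hσ hn hy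
  rw [smul_inv_smul] at h
  rw [sub_eq_sub_iff_add_eq_add] at h
  exact h

variable {p : ℕ} [Fact p.Prime] {N : ℕ} [NeZero N] {S : Finset ℕ}

/-- Values of the pseudo-character at inertia at a prime exactly dividing the level. -/
theorem pseudoChar_inertia_of_exact (hpS : p ∈ S) (hNS : ∀ q : ℕ, q.Prime → q ∣ N → q ∈ S)
    {R : Type*} [CommRing R] {e : ℕ} (θ : CuspForm.heckeAlgebra N 2 (↑S : Set ℕ) →+* R)
    (he : (p : R) ^ e = 0) {q : ℕ} (hq : q.Prime) (hqN : q ∣ N) (hq2 : ¬ q ^ 2 ∣ N) (hqp : q ≠ p)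
    {A : ValuationSubring LL} (hA : A.LiesOverPrime q) {σ : GG}
    (hσ : σ ∈ A.inertiaSubgroupIn ℚ) :
    (pseudoChar N S p hpS hNS θ he).tr σ = 2 ∧ (pseudoChar N S p hpS hNS θ he).det σ = 1 := by
  set n := level N S p e
  have hqn : ¬ q ∣ p ^ n := fun h =>
    hqp ((Nat.prime_dvd_prime_iff_eq hq Fact.out).1 (hq.dvd_of_dvd_pow h))
  have hcyc : CycloExponent p n σ 1 := fun η hη => by
    rw [pow_one]; exact inertia_fix_root hq hA hqn hη hσ
  have hlift : IsLift N S p n σ 1 2 := ⟨hcyc, fun x => by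
    rw [show (2 : CuspForm.heckeAlgebra N 2 (↑S : Set ℕ)) = 1 + 1 by norm_num, coe_act_add,
      coe_act_one, one_nsmul]
    exact (inertia_smul_add_inv hq hqN hq2 hA hσ hqn ((mem_torsion_iff_nsmul N).1 x.2)).symm⟩
  have h := pseudoChar_of_isLift N S p hpS hNS θ he hlift
  exact ⟨h.1.trans (map_ofNat θ 2), h.2.trans Nat.cast_one⟩

variable {𝒪 : Type} [CommRing 𝒪] [IsDomain 𝒪] [IsDiscreteValuationRing 𝒪]
  [IsAdicComplete (IsLocalRing.maximalIdeal 𝒪) 𝒪]
  {θ : CuspForm.heckeAlgebra N 2 (↑S : Set ℕ) →+* IsLocalRing.ResidueField 𝒪}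
  {T : Type} [CommRing T] [IsLocalRing T] [IsNoetherianRing T]
  [IsAdicComplete (IsLocalRing.maximalIdeal T) T] [Algebra 𝒪 T] [IsLocalHom (algebraMap 𝒪 T)]
  [Module.Finite 𝒪 T] [Module.Free 𝒪 T]

/-- Modulo powers of the maximal ideal the determinant is that of the pseudo-character. -/
theorem mk_det_eq (hpS : p ∈ S) (hNS : ∀ q : ℕ, q.Prime → q ∣ N → q ∈ S)
    (H : CuspForm.HeckeGaloisRepDatum N (↑S : Set ℕ) 𝒪 θ T)
    (hpT : (p : T) ∈ IsLocalRing.maximalIdeal T) (b : Module.Basis (Fin 2) T H.ρ.V) (m : ℕ)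
    (σ : GG) :
    Ideal.Quotient.mk (IsLocalRing.maximalIdeal T ^ m) (Deformation.matOf H.ρ b σ).det =
      (pseudoChar N S p hpS hNS
        ((Ideal.Quotient.mk (IsLocalRing.maximalIdeal T ^ m)).comp H.π)
        (natCast_pow_quotient hpT m)).det σ := by
  set P := pseudoChar N S p hpS hNS
    ((Ideal.Quotient.mk (IsLocalRing.maximalIdeal T ^ m)).comp H.π) (natCast_pow_quotient hpT m)
  set f := Ideal.Quotient.mk (IsLocalRing.maximalIdeal T ^ m)
  obtain ⟨L1, hL1, hP⟩ := exists_pseudoChar_level N S p hpS hNS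
    (f.comp H.π) (natCast_pow_quotient hpT m)
  obtain ⟨L2, hL2, hr⟩ := Deformation.matCts_matOf H.ρ b m
  haveI := hL1
  haveI := hL2
  obtain ⟨ℓ, A, τ, k, hℓ, hℓS, hA, hτ, hσ⟩ :=
    Frobenius.exists_frobenius_pow_eqOn (L1 ⊔ L2) σ S
  have hℓN : ¬ ℓ ∣ N := fun h => hℓS (hNS ℓ hℓ h)
  have hℓS' : ℓ ∉ (↑S : Set ℕ) := hℓS
  obtain ⟨-, hdetτ⟩ := pseudoChar_frobenius N S p hpS hNS (f.comp H.π)
    (natCast_pow_quotient hpT m) hℓ hℓN hℓS' hA hτ
  have hcp : (Deformation.matOf H.ρ b τ).charpoly =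
      X ^ 2 - C (H.π (CuspForm.heckeAlgebra.T hℓ hℓN hℓS')) * X + C ((ℓ : T)) :=
    (LinearMap.charpoly_toMatrix (H.ρ.ρ τ) b).trans (H.charpoly_frob ℓ hℓ hℓN hℓS' A hA τ hτ)
  obtain ⟨-, hd⟩ := EigenReps.trace_det_of_charpoly _ hcp
  set ε := (τ ^ k)⁻¹ * σ
  have hε : ∀ a ∈ L1 ⊔ L2, ε a = a := fun a ha => by
    rw [show ε a = (τ ^ k)⁻¹ (σ a) from rfl, hσ a ha]
    exact (τ ^ k).symm_apply_apply a
  have hσε : σ = τ ^ k * ε := by rw [mul_inv_cancel_left]
  have hε1 : f (Deformation.matOf H.ρ b ε).det = 1 := by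
    have hmap : (Deformation.matOf H.ρ b ε).map f = 1 := by
      ext i j
      have h := hr ε (fun a ha => hε a ((le_sup_right : L2 ≤ L1 ⊔ L2) ha)) i j
      rw [← Ideal.Quotient.eq_zero_iff_mem, Matrix.sub_apply, map_sub, sub_eq_zero] at h
      rw [Matrix.map_apply, h, Matrix.one_apply, Matrix.one_apply]
      split_ifs <;> simp
    rw [RingHom.map_det, show f.mapMatrix (Deformation.matOf H.ρ b ε) = 1 from hmap, Matrix.det_one]
  rw [hσε, map_mul, Matrix.det_mul, map_mul, hε1, mul_one, map_pow, Matrix.det_pow, map_pow, hd,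
    map_mul, map_pow, hdetτ, map_natCast,
    (hP ε fun a ha => hε a ((le_sup_left : L1 ≤ L1 ⊔ L2) ha)).1, mul_one]

/-- Inertia at a prime exactly dividing the level is unipotent. -/
theorem isUnipotentOnInertiaAt_of_exact (hp𝒪 : (p : 𝒪) ∈ IsLocalRing.maximalIdeal 𝒪) (hpS : p ∈ S)
    (hNS : ∀ q : ℕ, q.Prime → q ∣ N → q ∈ S)
    (H : CuspForm.HeckeGaloisRepDatum N (↑S : Set ℕ) 𝒪 θ T)
    (q : ℕ) (hq : q.Prime) (hqp : q ≠ p) (hqN : q ∣ N) (hq2 : ¬ q ^ 2 ∣ N) :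
    H.ρ.IsUnipotentOnInertiaAt q := by
  intro A hA σ hσ
  obtain ⟨b⟩ := Deformation.nonempty_basis H.ρ
  have hpT : (p : T) ∈ IsLocalRing.maximalIdeal T := natCast_mem_maximalIdeal hp𝒪
  have key : ∀ {x y : T}, (∀ m, Ideal.Quotient.mk (IsLocalRing.maximalIdeal T ^ m) x =
      Ideal.Quotient.mk (IsLocalRing.maximalIdeal T ^ m) y) → x = y := fun {x y} h => by
    refine sub_eq_zero.1 (IsHausdorff.haus (inferInstance : IsHausdorff (IsLocalRing.maximalIdeal T) T)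
      _ fun m => ?_)
    rw [SModEq.sub_mem, sub_zero, smul_eq_mul, Ideal.mul_top, ← Ideal.Quotient.eq_zero_iff_mem,
      map_sub, h m, sub_self]
  have ht : (Deformation.matOf H.ρ b σ).trace = 2 := key fun m => by
    rw [mk_trace_eq hpS hNS H hpT b m,
      (pseudoChar_inertia_of_exact hpS hNS _ _ hq hqN hq2 hqp hA hσ).1, map_ofNat]
  have hd : (Deformation.matOf H.ρ b σ).det = 1 := key fun m => by
    rw [mk_det_eq hpS hNS H hpT b m,
      (pseudoChar_inertia_of_exact hpS hNS _ _ hq hqN hq2 hqp hA hσ).2, map_one]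
  rw [← LinearMap.charpoly_toMatrix (H.ρ.ρ σ) b, Matrix.charpoly_fin_two]
  change X ^ 2 - C (Deformation.matOf H.ρ b σ).trace * X + C (Deformation.matOf H.ρ b σ).det = _
  rw [ht, hd, map_one, map_ofNat]
  ring

end FLTAgent.BadRed
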