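import Fermat.Agent.BadRed.Torsion
import Fermat.Agent.Kronecker.Inputs
import Mathlib.RingTheory.Norm.Defs

/-!
# Moving between a level and a multiple of it
-/

set_option autoImplicit false
set_option linter.style.haveILetI false
set_option linter.unusedSectionVars false

noncomputable section

namespace FLTAgent.BadRed

open AlgebraicCurve FLTAgent.Curves FLTAgent.Specialization

/-- Being an `n`-th power up to constants descends along extensions of degree prime to `n`. -/
theorem exists_eq_smul_pow {L F F' : Type*} [Field L] [Field F] [Field F'] [Algebra L F]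
    [Algebra L F'] [Algebra F F'] [IsScalarTower L F F'] [FiniteDimensional F F'] {n : ℕ}
    (hco : Nat.Coprime (Module.finrank F F') n) {u : F} {c : L} {h : F'} (hc : c ≠ 0)
    (he : algebraMap F F' u = c • h ^ n) :
    ∃ (c' : L) (h' : F), c' ≠ 0 ∧ u = c' • h' ^ n := by
  set d := Module.finrank F F'
  have hn := congrArg (Algebra.norm F) he
  rw [Algebra.norm_algebraMap, Algebra.smul_def, map_mul, IsScalarTower.algebraMap_apply L F F',
    Algebra.norm_algebraMap, map_pow] at hn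
  rcases eq_or_ne u 0 with rfl | hu
  · rcases eq_or_ne n 0 with rfl | hn0
    · exfalso
      rw [map_zero, pow_zero, Algebra.smul_def, mul_one] at he
      exact hc ((algebraMap L F').injective (he.symm.trans (map_zero _).symm))
    · exact ⟨1, 0, one_ne_zero, by rw [zero_pow hn0, smul_zero]⟩
  have hbez : (1 : ℤ) = (d : ℤ) * d.gcdA n + (n : ℤ) * d.gcdB n := by
    rw [← Nat.gcd_eq_gcd_ab, hco.gcd_eq_one, Nat.cast_one]
  refine ⟨c ^ ((d : ℤ) * d.gcdA n), Algebra.norm F h ^ d.gcdA n * u ^ d.gcdB n,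
    zpow_ne_zero _ hc, ?_⟩
  rw [Algebra.smul_def, map_zpow₀, zpow_mul, zpow_natCast, mul_pow, ← mul_assoc,
    ← zpow_natCast (_ ^ d.gcdA n) n, ← zpow_mul, mul_comm (d.gcdA n) (n : ℤ),
    zpow_mul (Algebra.norm F h), zpow_natCast, ← mul_zpow, ← hn, ← zpow_natCast u d, ← zpow_mul,
    ← zpow_natCast (u ^ d.gcdB n) n, ← zpow_mul, mul_comm (d.gcdB n) (n : ℤ), ← zpow_add₀ hu,
    ← hbez, zpow_one]

variable {L k : Type*} [Field L] [Field k] {A : ValuationSubring L} {π : A →+* k}
  {FC Fb F : Type*} [Field FC] [Field Fb] [Field F] [Algebra L FC]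
  [Algebra k Fb] [Algebra L F] [IsAlgClosed L] [IsFunctionField L FC] [IsFunctionField L F]
  [IsAlgClosed k] [IsFunctionField k Fb] {q : ℕ}

namespace Sheet

variable (S : Sheet π FC Fb F q)

/-- The powers `(β x) ^ i`, `i ≤ q`, are independent over the field below. -/
theorem linearIndependent_pow :
    letI := algebraAlong S.α
    LinearIndependent FC fun i : Fin (q + 1) => S.β S.MC.x ^ (i : ℕ) := by
  letI := algebraAlong S.α
  rw [Fintype.linearIndependent_iff]
  intro a ha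
  by_contra hne
  obtain ⟨s, j, hs, hj⟩ := S.MC.total.exists_scale_family (c := a) fun h => hne fun z =>
    congrFun h z
  choose c hc using fun z => S.MC.exists_res_of_mem (hs z)
  have ha' : ∑ z, S.α (a z) * S.β S.MC.x ^ (z : ℕ) = 0 := ha
  have e : ∑ z, S.α (s * a z) * S.β S.MC.x ^ (z : ℕ) = 0 := by
    simp only [map_mul, mul_assoc, ← Finset.mul_sum, ha', mul_zero]
  have h₁ := Reduction.Res.sum (R := S.R₁) (s := Finset.univ) fun z _ =>
    (S.α₁ _ _ (hc z)).mul ((S.β₁ _ _ S.MC.x_res).pow (z : ℕ))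
  have h₂ := Reduction.Res.sum (R := S.R₂) (s := Finset.univ) fun z _ =>
    (S.α₂ _ _ (hc z)).mul ((S.β₂ _ _ S.MC.x_res).pow (z : ℕ))
  rw [e] at h₁ h₂
  replace h₁ := h₁.unique S.R₁.res_zero
  replace h₂ := h₂.unique S.R₂.res_zero
  rw [S.V_xb] at h₁
  rw [Fin.sum_univ_castSucc] at h₂
  obtain ⟨q', rfl⟩ : ∃ q', q = q' + 1 := ⟨q - 1, by have := S.one_lt; omega⟩
  have key := S.indepV (Function.update (fun i : Fin (q' + 1) => c i.castSucc) 0
    (c (Fin.castSucc 0) + S.MC.xb * c (Fin.last _))) (by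
      rw [Fin.sum_univ_succ] at h₂ ⊢
      simp only [Function.update_self, Function.update_of_ne (Fin.succ_ne_zero _), map_add,
        map_mul, S.V_xb, Fin.val_zero, pow_zero, one_mul, mul_one, Fin.val_castSucc,
        Fin.castSucc_zero, Fin.val_last, Fin.val_succ] at h₂ ⊢
      have hcomm : ∑ x : Fin q', S.MC.xb ^ ((x : ℕ) + 1) * S.V (c x.succ.castSucc) =
          ∑ x : Fin q', S.V (c x.succ.castSucc) * S.MC.xb ^ ((x : ℕ) + 1) :=
        Finset.sum_congr rfl fun x _ => mul_comm _ _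
      linear_combination h₂ + hcomm)
  have k0 : c (Fin.castSucc 0) + S.MC.xb * c (Fin.last _) = 0 := by
    simpa using congrFun key 0
  have ks : ∀ i : Fin (q' + 1), i ≠ 0 → c i.castSucc = 0 := fun i hi => by
    simpa [Function.update_of_ne hi] using congrFun key i
  rw [Fin.sum_univ_castSucc, Finset.sum_eq_single 0 (fun i _ hi => by rw [ks i hi, zero_mul])
    (by simp)] at h₁
  simp only [Fin.castSucc_zero, Fin.val_zero, pow_zero, mul_one, Fin.val_last, ← pow_mul] at h₁ k0
  have hlast : c (Fin.last _) * (S.MC.xb ^ ((q' + 1) * (q' + 1)) - S.MC.xb) = 0 := by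
    linear_combination h₁ - k0
  rcases mul_eq_zero.1 hlast with hl | hl
  · have h0 : c (Fin.castSucc 0) = 0 := by
      rw [hl, mul_zero, add_zero] at k0
      exact k0
    have hz : ∀ z, c z = 0 := fun z => Fin.lastCases hl (fun i => by
      rcases eq_or_ne i 0 with rfl | hi
      exacts [h0, ks i hi]) z
    exact one_ne_zero (((hj ▸ hc j) : S.MC.Res 1 (c j)).unique S.MC.res_one |>.symm.trans (hz j))
  · have := S.xb_pow_inj (a := (q' + 1) * (q' + 1)) (b := 1) (by rw [pow_one]; exact sub_eq_zero.1 hl)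
    have := S.one_lt
    nlinarith

end Sheet

/-- Norms commute with a change of level: both levels have a basis of powers of `β x`. -/
theorem Sheet.norm_map (S : Sheet π FC Fb F q) {Fb' FC' F' : Type*} [Field FC'] [Field Fb']
    [Field F'] [Algebra L FC'] [Algebra k Fb'] [Algebra L F'] [IsFunctionField L FC']
    [IsFunctionField L F'] [IsFunctionField k Fb'] (S' : Sheet π FC' Fb' F' q)
    (φC : FC →ₐ[L] FC') (φF : F →ₐ[L] F') (hα : ∀ a, φF (S.α a) = S'.α (φC a))
    (hβ : φF (S.β S.MC.x) = S'.β S'.MC.x) (hd : finrankAlong L S.α = q + 1)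
    (hd' : finrankAlong L S'.α = q + 1) (f : F) :
    @Algebra.norm FC' F' _ _ (algebraAlong S'.α) (φF f) =
      φC (@Algebra.norm FC F _ _ (algebraAlong S.α) f) := by
  classical
  letI := algebraAlong S.α
  letI := algebraAlong S'.α
  have hcard : ∀ {m : ℕ}, m = q + 1 → Fintype.card (Fin (q + 1)) = m := fun h => by
    rw [Fintype.card_fin, h]
  let b := basisOfLinearIndependentOfCardEqFinrank (S.linearIndependent_pow) (hcard hd)
  let b' := basisOfLinearIndependentOfCardEqFinrank (S'.linearIndependent_pow) (hcard hd')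
  have hb : ∀ i, φF (b i) = b' i := fun i => by
    simp [b, b', coe_basisOfLinearIndependentOfCardEqFinrank, hβ]
  rw [Algebra.norm_eq_matrix_det b', Algebra.norm_eq_matrix_det b]
  refine Eq.trans ?_ (RingHom.map_det φC.toRingHom _).symm
  congr 1
  ext i j
  rw [RingHom.mapMatrix_apply, Matrix.map_apply, Algebra.leftMulMatrix_eq_repr_mul,
    Algebra.leftMulMatrix_eq_repr_mul]
  have h := congrArg φF (b.sum_repr (f * b j))
  simp only [map_sum, Algebra.smul_def, map_mul] at h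
  rw [hb] at h
  have h2 : φF f * b' j = ∑ l, φC (b.repr (f * b j) l) • b' l := by
    rw [← h]
    exact Finset.sum_congr rfl fun l _ => by
      rw [Algebra.smul_def, hb]
      exact congrArg (· * b' l) (hα _)
  rw [h2, b'.repr_sum_self]
  rfl

theorem dvd_ord_map {F' : Type*} [Field F'] [Algebra L F'] [IsFunctionField L F']
    (φ : F →ₐ[L] F') {n : ℕ} {f : F} (hf : ∀ v : Place L F, (n : ℤ) ∣ v.ord f)
    (v : Place L F') : (n : ℤ) ∣ v.ord (φ f) := by
  rw [Place.ord_restrictAlong φ (Kronecker.isIntegralAlong φ) v f]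
  exact (hf _).mul_left _

/-- Function identities descend along extensions of degree prime to `n`. -/
theorem descend_rel {F' : Type*} [Field F'] [Algebra L F'] [IsFunctionField L F']
    (φ : F →ₐ[L] F') {n : ℕ} (hco : Nat.Coprime (finrankAlong L φ) n) (σ : SemilinearAut L F)
    (σ' : SemilinearAut L F') (hcomm : ∀ z, φ (σ • z) = σ' • φ z) {m : ℕ} {f : F} (hf : f ≠ 0)
    {c : L} {h : F'} (hc : c ≠ 0)
    (hh : σ' • (σ' • φ f / φ f) = c • ((σ' • φ f / φ f) ^ m * h ^ n)) :
    ∃ (c' : L) (h' : F), c' ≠ 0 ∧ σ • (σ • f / f) = c' • ((σ • f / f) ^ m * h' ^ n) := by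
  letI := algebraAlong φ
  haveI := isScalarTower_along φ
  haveI : Module.Finite F F' := Kronecker.finiteAlong φ
  set u := σ • f / f
  have hu : u ^ m ≠ 0 := pow_ne_zero _ (div_ne_zero ((smul_ne_zero_iff_ne σ).2 hf) hf)
  have e2 : φ u = σ' • φ f / φ f := by rw [map_div₀, hcomm]
  have hu' : φ u ^ m ≠ 0 := by rw [← map_pow]; exact (_root_.map_ne_zero φ).2 hu
  obtain ⟨c', h', hc', hh'⟩ := exists_eq_smul_pow (F := F) (F' := F') (u := σ • u / u ^ m)
    hco hc (h := h) (by
    show φ (σ • u / u ^ m) = _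
    rw [map_div₀, map_pow, hcomm, div_eq_iff hu', e2, hh, smul_mul_assoc, mul_comm (h ^ n)])
  exact ⟨c', h', hc', by rw [← mul_smul_comm, ← hh', mul_div_cancel₀ _ hu]⟩

/-- Unipotence, read at a level below the smooth one. -/
theorem Sheet.smul_smul_torsion_below {F₀ : Type*} [Field F₀] [Algebra L F₀]
    [IsFunctionField L F₀] {S : Sheet π FC Fb F q} (hS : S.Good) (P : S.Sym)
    (hb : P.σb = RingHom.id Fb) (φ : F₀ →ₐ[L] F) {n : ℕ} (hn : (n : k) ≠ 0)
    (hco : Nat.Coprime (finrankAlong L φ) n) (σ : SemilinearAut L F₀)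
    (hcomm : ∀ z, φ (σ • z) = P.σ • φ z) {x : Pic0 L F₀} (hx : x ∈ Pic0.torsion L F₀ n) :
    σ • (σ • x) - σ • x = σ • x - x := by
  obtain ⟨D, f, rfl, hf, hD⟩ := exists_torsion_rep hx
  obtain ⟨N⟩ := hS.nonempty_nodes
  obtain ⟨c, h, hc, hh⟩ := P.exists_unipotent hS N hb hn (f := φ f) ((_root_.map_ne_zero φ).2 hf)
    (dvd_ord_map φ fun v => Dvd.intro _ (hD v).symm)
  rw [← pow_one (P.σ • φ f / φ f)] at hh
  obtain ⟨c', h', hc', hh'⟩ := descend_rel φ hco σ P.σ hcomm hf hc (m := 1) (by simpa using hh)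
  simpa using smul_smul_of_eq σ (fun h0 => hn (by rw [h0, Nat.cast_zero])) hf hD hc' hh'

/-- The Frobenius relation, read at a level below the smooth one. -/
theorem Sheet.smul_sq_torsion_below (S : Sheet π FC Fb F q) {FC' Fb' F' : Type*} [Field FC']
    [Field Fb'] [Field F'] [Algebra L FC'] [Algebra k Fb'] [Algebra L F'] [IsFunctionField L FC']
    [IsFunctionField L F'] [IsFunctionField k Fb'] {S' : Sheet π FC' Fb' F' q} (hS' : S'.Good)
    (P : S'.Sym) (hV : ∀ g, S'.V (P.σb g) = g ^ q) (hinj : ∀ x y : Fb', x ^ q = y ^ q → x = y)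
    (hdα : finrankAlong L S.α = q + 1) (hdβ : finrankAlong L S.β = q + 1)
    (hdα' : finrankAlong L S'.α = q + 1) (hdβ' : finrankAlong L S'.β = q + 1)
    (φC : FC →ₐ[L] FC') (φ : F →ₐ[L] F') (hx₁ : φC S.MC.x = S'.MC.x)
    (hcα : ∀ a, φ (S.α a) = S'.α (φC a)) (hcβ : ∀ a, φ (S.β a) = S'.β (φC a))
    {n : ℕ} (hn : (n : k) ≠ 0) (hco : Nat.Coprime (finrankAlong L φ) n) (σ : SemilinearAut L F)
    (hcomm : ∀ z, φ (σ • z) = P.σ • φ z) {D : Divisor.degZero (K := L) (F := F)}
    (hx : Pic0.mk D ∈ Pic0.torsion L F n)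
    (hα : S.α.toRingHom.IsIntegral) (hβ : S.β.toRingHom.IsIntegral)
    (hαD : (Divisor.pushforwardAlong S.α hα (D : Divisor L F)).IsPrincipal)
    (hβD : (Divisor.pushforwardAlong S.β hβ (D : Divisor L F)).IsPrincipal) :
    (σ * σ) • ((σ * σ) • Pic0.mk D) - (σ * σ) • Pic0.mk D =
      (q * q) • ((σ * σ) • Pic0.mk D - Pic0.mk D) := by
  have hn0 : n ≠ 0 := fun h0 => hn (by rw [h0, Nat.cast_zero])
  haveI : HasPrincipalDivisors L F := hasPrincipalDivisors
  obtain ⟨D', f', hD', hf', hD''⟩ := exists_torsion_rep hx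
  obtain ⟨h₀, hh₀, hh₀v⟩ := AddSubgroup.mem_addSubgroupOf.1 (QuotientAddGroup.eq_iff_sub_mem.1 hD')
  set f := f' / h₀ ^ n
  have hf : f ≠ 0 := div_ne_zero hf' (pow_ne_zero _ hh₀)
  have hD : ∀ v : Place L F, v.ord f = (n : ℤ) * (D : Divisor L F) v := fun v => by
    have := hh₀v v
    simp only [AddSubgroupClass.coe_sub, Finsupp.sub_apply] at this
    rw [ord_div v hf' (pow_ne_zero _ hh₀), ord_pow, hD'', ← this]
    ring
  obtain ⟨cα, uα, -, huα, eα⟩ := Sheet.exists_norm_eq hα (Kronecker.finiteAlong S.α)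
    (Kronecker.normFormulaAlong _ _) hf hD hαD
  obtain ⟨cβ, uβ, -, huβ, eβ⟩ := Sheet.exists_norm_eq hβ (Kronecker.finiteAlong S.β)
    (Kronecker.normFormulaAlong _ _) hf hD hβD
  have nα := S.norm_map S' φC φ hcα ((hcβ _).trans (congrArg _ hx₁)) hdα hdα' f
  have nβ := (S.swap hdβ).norm_map (S'.swap hdβ') φC φ hcβ ((hcα _).trans (congrArg _ hx₁))
    hdβ hdβ' f
  obtain ⟨c, h, hc, hh⟩ := P.exists_pow_rel hS' hV hinj hdβ' hn (f := φ f)
    ((_root_.map_ne_zero φ).2 hf) (dvd_ord_map φ fun v => Dvd.intro _ (hD v).symm)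
    ((_root_.map_ne_zero φC).2 huα) ((_root_.map_ne_zero φC).2 huβ)
    (nα.trans ((congrArg φC eα).trans (by rw [map_smul, map_pow])))
    (nβ.trans ((congrArg φC eβ).trans (by rw [map_smul, map_pow])))
  obtain ⟨c', h', hc', hh'⟩ := descend_rel φ hco (σ * σ) P.sq.σ
    (fun z => by rw [mul_smul, hcomm, hcomm]; exact (mul_smul _ _ _).symm) hf hc hh
  exact smul_smul_of_eq _ hn0 hf hD hc' hh'

end FLTAgent.BadRed
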