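import Fermat.Agent.BadRed.Level
import Fermat.Agent.EigenLattice.NewAt

/-!
# Frobenius at `q ∥ M` on the eigen lattice of a newform

A good operator separating the newform from level `M / q` moves torsion classes into the kernel of
both push forwards, where the relation of the special fibre holds.
-/

set_option autoImplicit false
set_option linter.style.haveILetI false
set_option linter.unusedSectionVars false
set_option synthInstance.maxHeartbeats 400000
set_option maxHeartbeats 1000000

noncomputable section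

open CongruenceSubgroup Matrix AlgebraicCurve
open scoped MatrixGroups

namespace FLTAgent.BadRed

open FLTAgent.EigenLattice
open ModularCurve (JZero modularFunctionFieldBar heckeAlphaBar heckeBetaBar)

local notation "QA" => AlgebraicClosure ℚ
local notation "GG" => (AlgebraicClosure ℚ ≃ₐ[ℚ] AlgebraicClosure ℚ)

variable {q M : ℕ} [Fact q.Prime] [NeZero M] [NeZero (M * q)]

/-- `τ² - τ = q²(τ - 1)` for `τ = Frob²` on the eigen vectors of a newform. -/
theorem galO_frobenius_rel (hqM : ¬ q ∣ M) {g : CuspForm (Gamma0 (M * q)) 2} (hg : g.IsNewform)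
    (p : ℕ) [Fact p.Prime] (hqp : q ≠ p) (κ : AlgebraicClosure ℚ →+* ℂ) {O : Type} [CommRing O]
    [IsDomain O] [IsDiscreteValuationRing O] [CharZero O]
    [IsAdicComplete (IsLocalRing.maximalIdeal O) O] (hp : (p : O) ∈ IsLocalRing.maximalIdeal O)
    (F : (CuspForms.eigenChar hg.1).range →+* O) {A : ValuationSubring (AlgebraicClosure ℚ)}
    (hA : A.LiesOverPrime q) {σ : GG} (hσ : A.IsFrobeniusAt σ q) {v : Ix (M * q) → O}
    (hv : v ∈ eigenVec (M * q) (F.comp (CuspForms.eigenChar hg.1).rangeRestrict)) :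
    galO (M * q) p κ O hp (σ * σ) *ᵥ (galO (M * q) p κ O hp (σ * σ) *ᵥ v) -
        galO (M * q) p κ O hp (σ * σ) *ᵥ v =
      ((q * q : ℕ) : O) • (galO (M * q) p κ O hp (σ * σ) *ᵥ v - v) := by
  haveI : NeZero q := ⟨(Fact.out : q.Prime).ne_zero⟩
  have hLM : M ≠ M * q := by
    intro h
    have := Nat.pos_of_ne_zero (NeZero.ne M)
    have := (Fact.out : q.Prime).one_lt
    nlinarith
  obtain ⟨P, hP0, hPne⟩ := exists_separating hg M (dvd_mul_right M q) hLM {p}
  set t := evalGood (M * q) {p} (M * q) P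
  set cst := F ((CuspForms.eigenChar hg.1).rangeRestrict t)
  have hcst : cst ≠ 0 := fun h0 =>
    hPne (congrArg Subtype.val (values_hom_injective _ F (h0.trans (map_zero F).symm)))
  set w := (heckeMx (M * q) t).map (Int.castRingHom O) *ᵥ v
  have hw : w = cst • v := hv t
  set G := galO (M * q) p κ O hp (σ * σ)
  have key : G *ᵥ (G *ᵥ w) - G *ᵥ w = ((q * q : ℕ) : O) • (G *ᵥ w - w) := by
    refine vec_ext (M * q) p O hp fun k f i => ?_
    haveI : NeZero (p ^ k) := ⟨pow_ne_zero _ (Fact.out : p.Prime).ne_zero⟩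
    set c := (torsCoord (N := M * q) κ (p ^ k)).symm fun j => f (v j) with hc
    set d := opAct κ (p ^ k) t c with hd
    have hdw : torsCoord (N := M * q) κ (p ^ k) d = fun j => f (w j) := by
      rw [hd, torsCoord_opAct, hc, AddEquiv.apply_symm_apply]
      funext j
      exact (functional_intMulVec p f _ v j).symm
    have hn : ∀ r : ℕ, r.Prime → r ∣ p ^ k → r ∈ ({p} : Finset ℕ) := fun r hr hd =>
      Finset.mem_singleton.2 ((Nat.prime_dvd_prime_iff_eq hr Fact.out).1 (hr.dvd_of_dvd_pow hd))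
    have hqk : ¬ q ∣ p ^ k := fun h => hqp ((Nat.prime_dvd_prime_iff_eq Fact.out Fact.out).1
      ((Fact.out : q.Prime).dvd_of_dvd_pow h))
    obtain ⟨D, hD⟩ := Pic0.mk_surjective (d : JZero (M * q))
    have htors : p ^ k • Pic0.mk D = 0 := by
      rw [hD]
      have h := Pic0.mem_torsion.1 d.2
      rwa [natCast_zsmul] at h
    have hrel := frobenius_sq_smul_torsion hA hqM hσ hqk htors
      (isPrincipal_of_pushPic_eq_zero M q _ D (by
        rw [hD]
        exact pushPic_opAct_eq_zero κ (p ^ k) (heckeAlphaBar QA M q)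
          (fun τ x => alpha_compat M q τ x) {p} hn P hP0 c))
      (isPrincipal_of_pushPic_eq_zero M q _ D (by
        rw [hD]
        exact pushPic_opAct_eq_zero κ (p ^ k) (heckeBetaBar QA M q)
          (fun τ x => beta_compat M q τ x) {p} hn P hP0 c))
    rw [hD] at hrel
    set R := ModularCurve.JZero.torsionGaloisRep (M * q) (p ^ k) (σ * σ)
    have hR : R (R d) - R d = (q * q) • (R d - d) := Subtype.ext (by
      simp only [AddSubgroupClass.coe_sub, AddSubgroupClass.coe_nsmul]
      rw [ModularCurve.JZero.coe_torsionGaloisRep_apply, ModularCurve.JZero.coe_torsionGaloisRep_apply]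
      exact hrel)
    have h1 := congrArg (torsCoord (N := M * q) κ (p ^ k)) hR
    simp only [map_sub, map_nsmul] at h1
    rw [← galMx_mulVec κ (p ^ k) (σ * σ) (R d), ← galMx_mulVec κ (p ^ k) (σ * σ) d, hdw] at h1
    have e1 : ∀ u : Ix (M * q) → O,
        (fun j => f ((G *ᵥ u) j)) = galMxPow (M * q) p κ k (σ * σ) *ᵥ fun j => f (u j) := fun u =>
      funext fun j => functional_galO (M * q) p κ O hp f (σ * σ) u j
    have h2 := congrFun h1 i
    rw [show galMx (N := M * q) κ (p ^ k) (σ * σ) = galMxPow (M * q) p κ k (σ * σ) from rfl, ← e1,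
      ← e1] at h2
    simp only [Pi.sub_apply, Pi.smul_apply, smul_eq_mul] at h2 ⊢
    rw [map_sub, ← nsmul_eq_mul, map_nsmul, map_sub]
    exact h2
  rw [hw, mulVec_smul, mulVec_smul, ← smul_sub, ← smul_sub, smul_comm ((q * q : ℕ) : O) cst] at key
  exact smul_right_injective (Ix (M * q) → O) hcst key

/-- The Frobenius relation in the representation on the eigen lattice. -/
theorem eigenRep_frobenius_rel {N : ℕ} [NeZero N] {g : CuspForm (Gamma0 N) 2} (hg : g.IsNewform)
    (p : ℕ) [Fact p.Prime] (κ : AlgebraicClosure ℚ →+* ℂ) {O : Type} [CommRing O]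
    [IsDomain O] [IsDiscreteValuationRing O] [CharZero O]
    [IsAdicComplete (IsLocalRing.maximalIdeal O) O] (hp : (p : O) ∈ IsLocalRing.maximalIdeal O)
    (F : (CuspForms.eigenChar hg.1).range →+* O) {q : ℕ} (hq : q.Prime) (hqp : q ≠ p) (hqN : q ∣ N)
    (hq2 : ¬ q ^ 2 ∣ N) {A : ValuationSubring (AlgebraicClosure ℚ)}
    (hA : A.LiesOverPrime q) {σ : GG} (hσ : A.IsFrobeniusAt σ q) :
    let r := (eigenRep N p κ hp (F.comp (CuspForms.eigenChar hg.1).rangeRestrict)).ρ (σ * σ)
    r * r - r = ((q * q : ℕ) : O) • (r - 1) := by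
  intro r
  obtain ⟨M, rfl⟩ : ∃ M, N = M * q := ⟨N / q, (Nat.div_mul_cancel hqN).symm⟩
  haveI : NeZero M := ⟨fun h => NeZero.ne (M * q) (by rw [h, zero_mul])⟩
  haveI : Fact q.Prime := ⟨hq⟩
  have hqM : ¬ q ∣ M := fun h => hq2 (by rw [sq]; exact mul_dvd_mul_right h q)
  refine LinearMap.ext
    fun (v : eigenVec (M * q) (F.comp (CuspForms.eigenChar hg.1).rangeRestrict)) => Subtype.ext ?_
  exact galO_frobenius_rel hqM hg p hqp κ hp F hA hσ (v := (v : Ix (M * q) → O)) v.2

end FLTAgent.BadRed
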