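import Fermat.Agent.BadRed.Criterion
import Fermat.Prelude.Def_AlgebraicCurve_BaseChangeGalois

/-!
# Semilinear automorphisms preserving the two sheets act unipotently, or through Frobenius
-/

set_option autoImplicit false
set_option linter.style.haveILetI false
set_option linter.unusedSectionVars false

noncomputable section

namespace FLTAgent.BadRed

open AlgebraicCurve FLTAgent.Curves FLTAgent.Specialization Polynomial IntermediateField
open AlgebraicCurve.SemilinearAut (baseAut)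

variable {L k : Type*} [Field L] [Field k] {A : ValuationSubring L} {π : A →+* k}
  {FC Fb F : Type*} [Field FC] [Field Fb] [Field F] [Algebra L FC]
  [Algebra k Fb] [Algebra L F] [IsAlgClosed L] [IsFunctionField L FC] [IsFunctionField L F]
  [IsAlgClosed k] [IsFunctionField k Fb] {q : ℕ}

namespace Sheet

variable (S : Sheet π FC Fb F q)

/-- A semilinear automorphism compatible with both reductions and fixing the coordinate. -/
structure Sym where
  σ : SemilinearAut L F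
  σb : Fb →+* Fb
  σX : σ • S.X = S.X
  res₁ : ∀ f g, S.R₁.Res f g → S.R₁.Res (σ • f) (σb g)
  res₂ : ∀ f g, S.R₂.Res f g → S.R₂.Res (σ • f) (σb g)

variable {S}

theorem Nodes.s_pow (N : S.Nodes) (i : Fin N.n) {a : Fb} (ha : a ∈ S.regular) (j : ℕ) :
    N.s i (a ^ j) = N.s i a ^ j := by
  induction j with
  | zero => simpa using N.s_one i
  | succ j ih => rw [pow_succ, N.s_mul i _ _ (pow_mem ha j) ha, ih, pow_succ]

namespace KData

variable {n : ℕ}

/-- The trivial data. -/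
def unit (hn : (n : k) ≠ 0) : S.KData n where
  n_ne := hn
  f := 1
  f_ne := one_ne_zero
  dvd v := by rw [v.ord_one]; exact dvd_zero _
  d := 1
  d_ne := one_ne_zero
  g := 1
  g₁_ne := one_ne_zero
  g₂_ne := one_ne_zero
  res := by rw [inv_one, one_pow, one_pow]; exact S.pair_one

/-- Powers of a set of data. -/
def npow (z : S.KData n) : ℕ → S.KData n
  | 0 => unit z.n_ne
  | j + 1 => (npow z j).mul z

theorem npow_f (z : S.KData n) (j : ℕ) : (z.npow j).f = z.f ^ j := by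
  induction j with
  | zero => rw [pow_zero, npow]; rfl
  | succ j ih => rw [pow_succ, ← ih]; rfl

variable (hS : S.Good) (N : S.Nodes)
include hS

theorem twist_unit (hn : (n : k) ≠ 0) : (unit (S := S) hn).twist N = 1 := by
  refine (unit (S := S) hn).twist_eq hS N fun m φ hφ i => ?_
  obtain ⟨u, hu, w, hw, rfl⟩ := (unit (S := S) hn).mem_normImg.1 hφ
  have hu' : u ∈ riemannRochSpace ((m : ℤ) • poleDiv L S.X) := by
    rw [mem_space_iff] at hu
    refine mem_rrSpace.2 fun v => (hu v).mono (le_of_eq ?_)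
    have hD := (unit (S := S) hn).mul_D v
    rw [show (unit (S := S) hn).f = 1 from rfl, v.ord_one] at hD
    rcases mul_eq_zero.1 hD with h | h
    · exact absurd h (by have := (unit (S := S) hn).pos; omega)
    · rw [h, Finsupp.smul_apply, smul_eq_mul, zero_add]
  change (S.pair 1).Res u w at hw
  rw [show w * (unit (S := S) hn).g = w from mul_one w, Pi.one_apply, one_mul]
  exact (N.compat m w (LRed.mem_image_of_res hu' hw) i).symm

theorem twist_npow (z : S.KData n) (j : ℕ) : (z.npow j).twist N = z.twist N ^ j := by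
  induction j with
  | zero => rw [pow_zero, npow]; exact twist_unit hS N z.n_ne
  | succ j ih => rw [npow, (z.npow j).twist_mul hS N z, ih, pow_succ]

end KData

namespace Sym

variable (P : S.Sym)

theorem poles_smul {a : ℕ} {f : F} (hf : f ∈ riemannRochSpace ((a : ℤ) • poleDiv L S.X)) :
    P.σ • f ∈ riemannRochSpace ((a : ℤ) • poleDiv L S.X) := by
  refine mem_rrSpace.2 fun w => ?_
  rcases eq_or_ne f 0 with rfl | hf0
  · rw [smul_zero]; exact ordGE_zero _ _
  have h := (mem_rrSpace.1 hf (P.σ⁻¹ • w)).le_ord hf0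
  have e1 := SemilinearAut.ord_smul P.σ (P.σ⁻¹ • w) f
  have e2 := SemilinearAut.ord_smul P.σ (P.σ⁻¹ • w) S.X
  rw [smul_inv_smul] at e1 e2
  rw [P.σX] at e2
  rw [Finsupp.smul_apply, smul_eq_mul, poleDiv_apply] at h ⊢
  refine ordGE_of_le ?_
  rwa [e1, e2]

theorem smul_res₂ {c : L} {f : F} {g : Fb} (h : S.R₂.Res (c • f) g) :
    S.R₂.Res (baseAut P.σ c • (P.σ • f)) (P.σb g) := by
  have := P.res₂ _ _ h
  rwa [Algebra.smul_def, smul_mul', SemilinearAut.smul_algebraMap, ← Algebra.smul_def] at this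

theorem smul_res₁ {c : L} {f : F} {g : Fb} (h : S.R₁.Res (c • f) g) :
    S.R₁.Res (baseAut P.σ c • (P.σ • f)) (P.σb g) := by
  have := P.res₁ _ _ h
  rwa [Algebra.smul_def, smul_mul', SemilinearAut.smul_algebraMap, ← Algebra.smul_def] at this

theorem pair_smul {d : L} {f : F} {g : Fb × Fb} (h : (S.pair d).Res f g) :
    (S.pair (baseAut P.σ d)).Res (P.σ • f) (P.σb g.1, P.σb g.2) :=
  ⟨P.res₁ _ _ h.1, P.smul_res₂ h.2⟩

/-- The conjugate data. -/
def mapData {n : ℕ} (z : S.KData n) : S.KData n where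
  n_ne := z.n_ne
  f := P.σ • z.f
  f_ne := (smul_ne_zero_iff_ne P.σ).2 z.f_ne
  dvd v := by
    have e := SemilinearAut.ord_smul P.σ (P.σ⁻¹ • v) z.f
    rw [smul_inv_smul] at e
    rw [e]
    exact z.dvd _
  d := baseAut P.σ z.d
  d_ne := (map_ne_zero (baseAut P.σ)).2 z.d_ne
  g := (P.σb z.g.1, P.σb z.g.2)
  g₁_ne := (map_ne_zero P.σb).2 z.g₁_ne
  g₂_ne := (map_ne_zero P.σb).2 z.g₂_ne
  res := by
    have := P.pair_smul z.res
    simpa [map_pow, map_inv₀] using this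

theorem mem_normImg_mapData {n : ℕ} (z : S.KData n) {m : ℕ} {φ : Fb × Fb}
    (h : φ ∈ z.normImg m) : (P.σb φ.1, P.σb φ.2) ∈ (P.mapData z).normImg m := by
  obtain ⟨u, hu, w, hw, rfl⟩ := z.mem_normImg.1 h
  refine (P.mapData z).mem_normImg.2 ⟨P.σ • u, ?_, _, P.pair_smul hw, ?_⟩
  · refine KData.mem_space_of_pow _ ?_
    have := P.poles_smul (z.npow_mem hu)
    rwa [smul_mul', smul_pow'] at this
  · simp [mapData]

variable (hS : S.Good) (N : S.Nodes)
include hS

/-- How the gluing constants of the conjugate look. -/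
theorem twist_mapData {n : ℕ} (z : S.KData n) {e : ℕ}
    (he : ∀ i a, a ∈ S.regular → P.σb a ∈ S.regular →
      N.s i (P.σb a) = N.s i a ^ e ∧ N.s i (S.V (P.σb a)) = N.s i (S.V a) ^ e) :
    (P.mapData z).twist N = z.twist N ^ e := by
  obtain ⟨m, φ, hφ, h1, h2⟩ := z.exists_unit hS N (z.twist_spec N) (z.twist_ne N)
  have hφ' := P.mem_normImg_mapData z hφ
  have ht := z.normImg_le_targ m hφ
  have ht' := (P.mapData z).normImg_le_targ m hφ'
  funext i
  have h := (P.mapData z).twist_spec N m _ hφ' i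
  rw [(he i _ (mem_rrSpace_poles.1 ht.1).1 (mem_rrSpace_poles.1 ht'.1).1).1,
    (he i _ (mem_rrSpace_poles.1 ht.2).1 (mem_rrSpace_poles.1 ht'.2).1).2, h1, h2, one_pow,
    mul_one] at h
  exact h.symm

/-- The conjugate of a function of the kernel is its `e`-th power up to `n`-th powers. -/
theorem exists_smul_eq {n : ℕ} (z : S.KData n) {e : ℕ}
    (he : ∀ i a, a ∈ S.regular → P.σb a ∈ S.regular →
      N.s i (P.σb a) = N.s i a ^ e ∧ N.s i (S.V (P.σb a)) = N.s i (S.V a) ^ e) :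
    ∃ h : F, P.σ • z.f = z.f ^ e * h ^ n := by
  have htw : ((P.mapData z).mul (z.npow ((n - 1) * e))).twist N = 1 := by
    rw [KData.twist_mul hS, P.twist_mapData hS N z he, KData.twist_npow hS N, ← pow_add,
      show e + (n - 1) * e = n * e by
        conv_rhs => rw [← Nat.sub_add_cancel z.pos]
        ring, pow_mul]
    funext i
    simp [z.twist_pow N i]
  obtain ⟨h, hh⟩ := KData.exists_root _ hS N htw
  refine ⟨h / z.f ^ e, ?_⟩
  change h ^ n = P.σ • z.f * (z.npow ((n - 1) * e)).f at hh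
  rw [KData.npow_f] at hh
  rw [div_pow, hh, ← pow_mul, mul_comm e n,
    show n * e = (n - 1) * e + e by
      conv_lhs => rw [← Nat.sub_add_cancel z.pos]
      ring, pow_add]
  field_simp [z.f_ne]

end Sym

/-- Data attached to a function whose reductions are powers. -/
theorem exists_data {n : ℕ} (hn : (n : k) ≠ 0) {f : F} (hf : f ≠ 0)
    (hdvd : ∀ v : Place L F, (n : ℤ) ∣ v.ord f) {c₁ c₂ : L} {h₁ h₂ : Fb} (h1 : h₁ ≠ 0)
    (h2 : h₂ ≠ 0) (r1 : S.R₁.Res (c₁ • f) (h₁ ^ n)) (r2 : S.R₂.Res (c₂ • f) (h₂ ^ n)) :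
    ∃ z : S.KData n, z.f = c₁ • f := by
  have hne : n ≠ 0 := fun h => hn (by rw [h, Nat.cast_zero])
  have hc1 : c₁ ≠ 0 := by
    rintro rfl
    rw [zero_smul] at r1
    exact pow_ne_zero n h1 (r1.unique S.R₁.res_zero)
  have hc2 : c₂ ≠ 0 := by
    rintro rfl
    rw [zero_smul] at r2
    exact pow_ne_zero n h2 (r2.unique S.R₂.res_zero)
  obtain ⟨d, hd⟩ := IsAlgClosed.exists_pow_nat_eq (c₁ / c₂) (Nat.pos_of_ne_zero hne)
  refine ⟨{
    n_ne := hn
    f := c₁ • f
    f_ne := smul_ne_zero hc1 hf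
    dvd := fun v => by
      rw [Algebra.smul_def, v.ord_mul (by simpa using hc1) hf, ord_algebraMap, zero_add]
      exact hdvd v
    d := d
    d_ne := fun h => div_ne_zero hc1 hc2 (by rw [← hd, h, zero_pow hne])
    g := (h₁, h₂)
    g₁_ne := h1
    g₂_ne := h2
    res := ⟨r1, ?_⟩ }, rfl⟩
  rw [smul_smul, inv_pow, hd, inv_div, div_mul_cancel₀ _ hc1]
  exact r2

namespace Sym

variable (P : S.Sym) (hS : S.Good) (N : S.Nodes)
include hS N

/-- An automorphism trivial on both reductions acts unipotently on torsion. -/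
theorem exists_unipotent (hb : P.σb = RingHom.id Fb) {n : ℕ} (hn : (n : k) ≠ 0) {f : F}
    (hf : f ≠ 0) (hdvd : ∀ v : Place L F, (n : ℤ) ∣ v.ord f) :
    ∃ (c : L) (h : F), c ≠ 0 ∧
      P.σ • (P.σ • f / f) = c • ((P.σ • f / f) * h ^ n) := by
  obtain ⟨c₁, a₁, ha₁, r₁⟩ := S.scaled₁ f hf
  obtain ⟨c₂, a₂, ha₂, r₂⟩ := S.scaled₂ f hf
  have q₁ := (P.smul_res₁ r₁).div r₁ ha₁
  have q₂ := (P.smul_res₂ r₂).div r₂ ha₂
  simp only [hb, RingHom.id_apply, div_self ha₁, div_self ha₂, Algebra.smul_def, ← map_div₀,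
    mul_div_mul_comm] at q₁ q₂
  rw [← Algebra.smul_def, ← one_pow n] at q₁ q₂
  set f₁ := P.σ • f / f
  have hf₁ : f₁ ≠ 0 := div_ne_zero ((smul_ne_zero_iff_ne P.σ).2 hf) hf
  have hdvd₁ : ∀ v : Place L F, (n : ℤ) ∣ v.ord f₁ := fun v => by
    have e := SemilinearAut.ord_smul P.σ (P.σ⁻¹ • v) f
    rw [smul_inv_smul] at e
    rw [ord_div v ((smul_ne_zero_iff_ne P.σ).2 hf) hf, e]
    exact dvd_sub (hdvd _) (hdvd v)
  obtain ⟨z, hz⟩ := exists_data hn hf₁ hdvd₁ one_ne_zero one_ne_zero q₁ q₂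
  obtain ⟨h, hh⟩ := P.exists_smul_eq hS N z (e := 1) fun i a _ _ => by simp [hb]
  set c := baseAut P.σ c₁ / c₁
  have hc : c ≠ 0 := fun h0 => z.f_ne (by rw [hz, h0, zero_smul])
  rw [pow_one, hz, Algebra.smul_def, smul_mul', SemilinearAut.smul_algebraMap] at hh
  refine ⟨(baseAut P.σ c)⁻¹ * c, h, mul_ne_zero (inv_ne_zero ((_root_.map_ne_zero _).2 hc)) hc, ?_⟩
  have hcb : algebraMap L F (baseAut P.σ c) ≠ 0 := by simpa using hc
  rw [Algebra.smul_def, map_mul, map_inv₀]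
  field_simp
  linear_combination hh

end Sym

/-- The square of a symmetry. -/
def Sym.sq (P : S.Sym) : S.Sym where
  σ := P.σ * P.σ
  σb := P.σb.comp P.σb
  σX := by rw [mul_smul, P.σX, P.σX]
  res₁ f g h := by rw [mul_smul]; exact P.res₁ _ _ (P.res₁ _ _ h)
  res₂ f g h := by rw [mul_smul]; exact P.res₂ _ _ (P.res₂ _ _ h)

/-- A Frobenius symmetry acts as `q²` on classes whose two norms are powers. -/
theorem Sym.exists_frobenius (P : S.Sym) (hS : S.Good) (N : S.Nodes)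
    (hV : ∀ g, S.V (P.σb g) = g ^ q) {n : ℕ} (hn : (n : k) ≠ 0) {f : F}
    (hf : f ≠ 0) (hdvd : ∀ v : Place L F, (n : ℤ) ∣ v.ord f) {c₁ c₂ : L} {a₁ a₂ : Fb}
    (ha₁ : a₁ ≠ 0) (ha₂ : a₂ ≠ 0) (r₁ : S.R₁.Res (c₁ • f) a₁) (r₂ : S.R₂.Res (c₂ • f) a₂)
    {h₁ h₂ : Fb} (hn₁ : a₁ * P.σb a₂ = h₁ ^ n) (hn₂ : P.σb a₁ * a₂ = h₂ ^ n) :
    ∃ (c : L) (h : F), c ≠ 0 ∧
      P.sq.σ • (P.sq.σ • f / f) = c • ((P.sq.σ • f / f) ^ (q * q) * h ^ n) := by
  have hne : n ≠ 0 := fun h => hn (by rw [h, Nat.cast_zero])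
  have hb2 : P.σb a₂ ≠ 0 := (map_ne_zero P.σb).2 ha₂
  have hb1 : P.σb a₁ ≠ 0 := (map_ne_zero P.σb).2 ha₁
  have hh₁ : h₁ ≠ 0 := fun h => mul_ne_zero ha₁ hb2 (by rw [hn₁, h, zero_pow hne])
  have hh₂ : h₂ ≠ 0 := fun h => mul_ne_zero hb1 ha₂ (by rw [hn₂, h, zero_pow hne])
  have k₁ : P.sq.σb a₁ / a₁ = (P.σb h₂ / h₁) ^ n := by
    rw [div_pow, ← hn₁, ← map_pow, ← hn₂, map_mul]
    show P.σb (P.σb a₁) / a₁ = _
    field_simp
  have k₂ : P.sq.σb a₂ / a₂ = (P.σb h₁ / h₂) ^ n := by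
    rw [div_pow, ← hn₂, ← map_pow, ← hn₁, map_mul]
    show P.σb (P.σb a₂) / a₂ = _
    field_simp
  have q₁ := (P.sq.smul_res₁ r₁).div r₁ ha₁
  have q₂ := (P.sq.smul_res₂ r₂).div r₂ ha₂
  simp only [k₁, k₂, Algebra.smul_def, mul_div_mul_comm, ← map_div₀] at q₁ q₂
  rw [← Algebra.smul_def] at q₁ q₂
  set f₁ := P.sq.σ • f / f
  have hσf : P.sq.σ • f ≠ 0 := (smul_ne_zero_iff_ne P.sq.σ).2 hf
  have hdvd₁ : ∀ v : Place L F, (n : ℤ) ∣ v.ord f₁ := fun v => by
    have e := SemilinearAut.ord_smul P.sq.σ (P.sq.σ⁻¹ • v) f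
    rw [smul_inv_smul] at e
    rw [ord_div v hσf hf, e]
    exact dvd_sub (hdvd _) (hdvd v)
  obtain ⟨z, hz⟩ := exists_data hn (div_ne_zero hσf hf) hdvd₁
    (div_ne_zero ((map_ne_zero P.σb).2 hh₂) hh₁) (div_ne_zero ((map_ne_zero P.σb).2 hh₁) hh₂) q₁ q₂
  have key : ∀ a, S.V (S.V (P.σb (P.σb a))) = a ^ (q * q) := fun a => by
    rw [hV, map_pow, hV, ← pow_mul]
  obtain ⟨h, hh⟩ := P.sq.exists_smul_eq hS N z (e := q * q) fun i a ha ha' => by
    change P.σb (P.σb a) ∈ S.regular at ha'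
    constructor
    · show N.s i (P.σb (P.σb a)) = _
      rw [← N.s_V i _ ha', key, N.s_pow i ha]
    · show N.s i (S.V (P.σb (P.σb a))) = _
      rw [← N.s_V i _ (S.V_mem_regular ha'), key, map_pow, N.s_pow i (S.V_mem_regular ha)]
  set c := baseAut P.sq.σ c₁ / c₁
  have hc : c ≠ 0 := fun h0 => z.f_ne (by rw [hz, h0, zero_smul])
  rw [hz, Algebra.smul_def, smul_mul', SemilinearAut.smul_algebraMap] at hh
  refine ⟨(baseAut P.sq.σ c)⁻¹ * c ^ (q * q), h,
    mul_ne_zero (inv_ne_zero ((_root_.map_ne_zero _).2 hc)) (pow_ne_zero _ hc), ?_⟩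
  have hcb : algebraMap L F (baseAut P.sq.σ c) ≠ 0 := by simpa using hc
  rw [Algebra.smul_def, map_mul, map_inv₀, map_pow]
  field_simp
  linear_combination hh

end Sheet

end FLTAgent.BadRed
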