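import Fermat.Agent.Specialization.Laurent
import Fermat.Agent.Kronecker.Conjugates

/-!
# Transport of Gauss residues, and the embedding exchanging the two degeneracy maps
-/

set_option autoImplicit false
set_option linter.style.haveILetI false
set_option linter.unusedSectionVars false
set_option synthInstance.maxHeartbeats 400000
set_option maxHeartbeats 1000000

noncomputable section

open AlgebraicCurve ModularCurve IntermediateField

namespace FLTAgent.BadRed

open FLTAgent.Specialization

section Transport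

variable {L k : Type*} [Field L] [Field k] {A : ValuationSubring L} {π : A →+* k}

/-- Gauss residues follow compatible maps of Laurent series. -/
theorem laurentReduction_map {E E' : IntermediateField L (LaurentSeries L)}
    {φA : LaurentSeries A →+* LaurentSeries A} {φL : LaurentSeries L →+* LaurentSeries L}
    {φk : LaurentSeries k →+* LaurentSeries k}
    (hL : ∀ y, φL (coeffMap A.subtype y) = coeffMap A.subtype (φA y))
    (hk : ∀ y, φk (coeffMap π y) = coeffMap π (φA y)) {f : E} {g : LaurentSeries k}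
    (h : (laurentReduction π E).Res f g) {f' : E'} (hf : (f' : LaurentSeries L) = φL f) :
    (laurentReduction π E').Res f' (φk g) := by
  obtain ⟨hm, hg⟩ := h
  obtain ⟨a, b, hab⟩ := exists_gauss π E ⟨f, hm⟩
  have h2 : IsGauss π (f' : LaurentSeries L) (φA a) (φA b) :=
    ⟨by rw [← hk]; exact (map_ne_zero φk).2 hab.1, by
      rw [hf, ← hL, ← hL, ← map_mul]
      exact congrArg φL hab.2⟩
  have hmem : f' ∈ gaussRing π E' := ⟨_, _, h2⟩
  refine ⟨hmem, ?_⟩
  show gaussVal π E' (⟨f', hmem⟩ : gaussRing π E') = φk g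
  rw [gaussVal_eq (f := ⟨f', hmem⟩) h2, ← hg]
  refine Eq.trans ?_ (congrArg φk (gaussVal_eq (f := (⟨f, hm⟩ : gaussRing π E)) hab)).symm
  rw [map_div₀, hk, hk]

/-- A reduction seen through an embedding. -/
def comapReduction {F E Ω : Type*} [Field F] [Field E] [Field Ω] [Algebra L F] [Algebra L E]
    [Algebra k Ω] (φ : F →ₐ[L] E) (R : Reduction π E Ω) : Reduction π F Ω where
  O := R.O.comap φ.toRingHom
  red := R.red.comp ((φ.toRingHom.comp (R.O.comap φ.toRingHom).subtype).codRestrict R.O fun x => x.2)
  algebraMap_mem a := by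
    show φ (algebraMap L F a) ∈ R.O
    rw [φ.commutes]
    exact R.algebraMap_mem a
  red_algebraMap a := by
    refine Eq.trans (congrArg R.red (Subtype.ext ?_)) (R.red_algebraMap a)
    exact φ.commutes a
  inv_mem f hf := by
    show φ (f : F)⁻¹ ∈ R.O
    rw [map_inv₀]
    exact R.inv_mem ⟨φ f, f.2⟩ hf

theorem comapReduction_res {F E Ω : Type*} [Field F] [Field E] [Field Ω] [Algebra L F]
    [Algebra L E] [Algebra k Ω] {φ : F →ₐ[L] E} {R : Reduction π E Ω} {f : F} {g : Ω} :
    (comapReduction φ R).Res f g ↔ R.Res (φ f) g := Iff.rfl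

end Transport

section Swap

local notation "LL" => AlgebraicClosure ℚ

open FLTAgent.Kronecker FLTAgent.ModEq

variable (M q : ℕ) [NeZero M] [Fact q.Prime] [NeZero q] [NeZero (M * q)]

/-- Everything lies in a subfield containing the constants and the generators. -/
theorem mem_of_gens (N : ℕ) [NeZero N] (T : Subfield (modularFunctionFieldBar N))
    (hc : ∀ c : LL, algebraMap LL (modularFunctionFieldBar N) c ∈ T)
    (hj : jEl N ∈ T) (hjN : jNEl N ∈ T) (z : modularFunctionFieldBar N) : z ∈ T := by
  let T' : IntermediateField LL (LaurentSeries LL) :=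
    (T.map (modularFunctionFieldBar N).val.toRingHom).toIntermediateField
      fun c => ⟨_, hc c, (modularFunctionFieldBar N).val.commutes c⟩
  have hle : modularFunctionFieldC LL N ≤ T' := IntermediateField.adjoin_le_iff.2 <| by
    rintro y (rfl | rfl)
    exacts [⟨_, hj, coe_jEl N⟩, ⟨_, hjN, coe_jNEl N⟩]
  obtain ⟨t, ht, htz⟩ := hle (ModEq.modularFunctionFieldBar_eq N ▸ z.2 :
    (z : LaurentSeries LL) ∈ modularFunctionFieldC LL N)
  exact (Subtype.ext htz : t = z) ▸ ht

theorem jEl_eq_alpha : jEl (M * q) = heckeAlphaBar LL M q (jEl M) :=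
  (Subtype.ext (coe_heckeAlphaBar M q _) : heckeAlphaBar LL M q (jEl M) = jEl (M * q)).symm

theorem jNEl_eq_beta : jNEl (M * q) = heckeBetaBar LL M q (jNEl M) := Subtype.ext <| by
  show qExpand LL (M * q) (jqModC LL) = qExpand LL q (qExpand LL M (jqModC LL))
  rw [qExpand_qExpand]
  exact qExpand_congr (mul_comm M q) _

theorem embedding_ext {Ω : Type*} [Field Ω] {ι : LaurentSeries LL →+* Ω}
    {E E' : modularFunctionFieldBar (M * q) →+* Ω}
    (hE : ∀ h, E (heckeAlphaBar LL M q h) = ι (qExpand LL (M * q) (h : LaurentSeries LL)))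
    (hE' : ∀ h, E' (heckeAlphaBar LL M q h) = ι (qExpand LL (M * q) (h : LaurentSeries LL)))
    (hβ : E (heckeBetaBar LL M q (jNEl M)) = E' (heckeBetaBar LL M q (jNEl M))) : E = E' := by
  refine ringHom_ext (M * q) E E' (fun c => ?_) ?_ ?_
  · rw [← (heckeAlphaBar LL M q).commutes c, hE, hE']
  · rw [jEl_eq_alpha, hE, hE']
  · rw [jNEl_eq_beta, hβ]

theorem exists_emb {Ω : Type*} [Field Ω] [IsAlgClosed Ω] (hqM : ¬ q ∣ M)
    (ι : LaurentSeries LL →+* Ω) :
    ∃ E : modularFunctionFieldBar (M * q) →+* Ω,
      (∀ h, E (heckeAlphaBar LL M q h) = ι (qExpand LL (M * q) (h : LaurentSeries LL))) ∧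
      ∀ h, E (heckeBetaBar LL M q h) = ι (qExpand LL M (h : LaurentSeries LL)) := by
  classical
  obtain ⟨ζ, hζ⟩ := exists_isPrimitiveRoot_units (K := LL) (M * q)
    (Nat.cast_ne_zero.2 (NeZero.ne (M * q)))
  obtain ⟨hfin, hdeg⟩ := finrankAlong_alpha M q hqM
  letI := algebraAlong (heckeAlphaBar LL M q)
  haveI : Module.Finite (modularFunctionFieldBar M) (modularFunctionFieldBar (M * q)) := hfin
  letI : Algebra (modularFunctionFieldBar M) Ω :=
    (ι.comp ((qExpand LL (M * q)).comp (modularFunctionFieldBar M).val.toRingHom)).toAlgebra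
  haveI : CharZero (modularFunctionFieldBar M) :=
    charZero_of_injective_algebraMap (algebraMap LL (modularFunctionFieldBar M)).injective
  haveI : Algebra.IsSeparable (modularFunctionFieldBar M) (modularFunctionFieldBar (M * q)) :=
    Algebra.IsSeparable.of_integral _ _
  choose idx hidx using fun E : modularFunctionFieldBar (M * q) →ₐ[modularFunctionFieldBar M] Ω =>
    exists_conjSubst_eq hqM hζ ι E.toRingHom fun h => E.commutes h
  have hinj : Function.Injective idx := fun E E' he =>
    AlgHom.coe_ringHom_injective (embedding_ext M q (ι := ι) (fun h => E.commutes h)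
      (fun h => E'.commutes h) ((hidx E _).trans (he ▸ (hidx E' _).symm)))
  have hbij : Function.Bijective idx := by
    refine (Fintype.bijective_iff_injective_and_card idx).2 ⟨hinj, ?_⟩
    rw [AlgHom.card (modularFunctionFieldBar M) (modularFunctionFieldBar (M * q)) Ω,
      Fintype.card_option, Fintype.card_fin]
    exact hdeg
  obtain ⟨E, hE⟩ := hbij.2 (some ⟨0, (Fact.out : q.Prime).pos⟩)
  refine ⟨E.toRingHom, fun h => E.commutes h, fun h => ?_⟩
  rw [hidx E h, hE]
  show ι (substHom (ζ ^ (0 * M)) M (h : LaurentSeries LL)) = _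
  rw [zero_mul, pow_zero, substHom_one]

theorem exists_lift_emb {Ω : Type*} [Field Ω] (ι : LaurentSeries LL →+* Ω)
    (E : modularFunctionFieldBar (M * q) →+* Ω)
    (hα : ∀ h, E (heckeAlphaBar LL M q h) = ι (qExpand LL (M * q) (h : LaurentSeries LL)))
    (hβ : ∀ h, E (heckeBetaBar LL M q h) = ι (qExpand LL M (h : LaurentSeries LL))) :
    ∃ w : modularFunctionFieldBar (M * q) →ₐ[LL] LaurentSeries LL,
      (∀ h : modularFunctionFieldBar M,
        w (heckeAlphaBar LL M q h) = qExpand LL q (h : LaurentSeries LL)) ∧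
      ∀ h : modularFunctionFieldBar M, w (heckeBetaBar LL M q h) = (h : LaurentSeries LL) := by
  set ρ : LaurentSeries LL →+* Ω := ι.comp (qExpand LL M)
  have hρ : Function.Injective ρ := ρ.injective
  have hconst : ∀ c : LL, E (algebraMap LL (modularFunctionFieldBar (M * q)) c) =
      ρ (algebraMap LL (LaurentSeries LL) c) := fun c => by
    rw [← (heckeBetaBar LL M q).commutes c, hβ]
    rfl
  have hα' : ∀ h : modularFunctionFieldBar M, E (heckeAlphaBar LL M q h) =
      ρ (qExpand LL q (h : LaurentSeries LL)) := fun h => by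
    rw [hα]
    show _ = ι (qExpand LL M _)
    rw [qExpand_qExpand]
  choose w hw using fun z => mem_of_gens (M * q) (ρ.fieldRange.comap E)
    (fun c => ⟨_, (hconst c).symm⟩)
    (by rw [jEl_eq_alpha]; exact ⟨_, (hα' _).symm⟩)
    (by rw [jNEl_eq_beta]; exact ⟨_, (hβ _).symm⟩) z
  refine ⟨{
    toFun := w
    map_one' := hρ (by rw [hw, map_one, map_one])
    map_mul' := fun x y => hρ (by rw [hw, map_mul ρ, hw, hw, map_mul])
    map_zero' := hρ (by rw [hw, map_zero, map_zero])
    map_add' := fun x y => hρ (by rw [hw, map_add ρ, hw, hw, map_add])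
    commutes' := fun c => hρ ((hw _).trans (hconst c)) }, fun h => ?_, fun h => ?_⟩
  · exact hρ ((hw _).trans (hα' h))
  · exact hρ ((hw _).trans (hβ h))

/-- The embedding exchanging the two degeneracy maps. -/
theorem exists_swap (hqM : ¬ q ∣ M) :
    ∃ w : modularFunctionFieldBar (M * q) →ₐ[LL] LaurentSeries LL,
      (∀ h : modularFunctionFieldBar M,
        w (heckeAlphaBar LL M q h) = qExpand LL q (h : LaurentSeries LL)) ∧
      ∀ h : modularFunctionFieldBar M, w (heckeBetaBar LL M q h) = (h : LaurentSeries LL) :=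
  let ⟨E, hα, hβ⟩ := exists_emb M q hqM (algebraMap (LaurentSeries LL) (AlgebraicClosure (LaurentSeries LL)))
  exists_lift_emb M q _ E hα hβ

end Swap

end FLTAgent.BadRed
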