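import Fermat.Agent.Specialization.Riemann

/-!
# Functions without poles off the poles of a coordinate
-/

set_option autoImplicit false
set_option linter.unusedSectionVars false
set_option linter.style.haveILetI false

noncomputable section

namespace FLTAgent.BadRed

open AlgebraicCurve FLTAgent.Curves FLTAgent.Specialization Polynomial IntermediateField

variable {K F : Type*} [Field K] [Field F] [Algebra K F]

theorem integralWrt_trans {x y f : F} (hy : IntegralWrt K x y) (hf : IntegralWrt K y f) :
    IntegralWrt K x f := fun v hv => hf v (by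
  rcases eq_or_ne y 0 with rfl | h
  · simp
  · exact (hy v hv).le_ord h)

theorem integralWrt_mul {x f g : F} (hf : IntegralWrt K x f) (hg : IntegralWrt K x g) :
    IntegralWrt K x (f * g) := fun v hv => by simpa using (hf v hv).mul (hg v hv)

theorem integralWrt_add {x f g : F} (hf : IntegralWrt K x f) (hg : IntegralWrt K x g) :
    IntegralWrt K x (f + g) := fun v hv => (hf v hv).add (hg v hv)

theorem integralWrt_sub {x f g : F} (hf : IntegralWrt K x f) (hg : IntegralWrt K x g) :
    IntegralWrt K x (f - g) := fun v hv => (hf v hv).sub (hg v hv)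

theorem integralWrt_algebraMap (x : F) (c : K) : IntegralWrt K x (algebraMap K F c) :=
  fun v _ => ordGE_algebraMap v c

theorem integralWrt_self (x : F) : IntegralWrt K x x := fun _ hv => ordGE_of_le hv

theorem integralWrt_pow {x f : F} (hf : IntegralWrt K x f) (n : ℕ) : IntegralWrt K x (f ^ n) :=
  fun v hv => by simpa using (hf v hv).pow n

/-- Roots of monic equations with coefficients in `K[x]` have no poles off those of `x`. -/
theorem integralWrt_of_relation {x g : F} {n : ℕ} {p : ℕ → K[X]}
    (h : g ^ n + ∑ i ∈ Finset.range n, aeval x (p i) * g ^ i = 0) : IntegralWrt K x g := by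
  intro v hv
  by_contra hcon
  have hg0 : g ≠ 0 := fun h0 => hcon (Or.inl h0)
  have hneg : v.ord g < 0 := not_le.1 fun h0 => hcon (ordGE_of_le h0)
  have h1 : OrdGE v (((n : ℤ) - 1) * v.ord g) (∑ i ∈ Finset.range n, aeval x (p i) * g ^ i) := by
    refine OrdGE.sum fun i hi => ?_
    have hin : (i : ℤ) + 1 ≤ n := by exact_mod_cast Finset.mem_range.1 hi
    refine ((ordGE_aeval hv (p i)).mul (ordGE_of_le (ord_pow v g i).ge)).mono ?_
    nlinarith
  rw [add_eq_zero_iff_eq_neg] at h
  have h2 : OrdGE v (((n : ℤ) - 1) * v.ord g) (g ^ n) := h ▸ h1.neg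
  have h3 := h2.le_ord (pow_ne_zero _ hg0)
  rw [ord_pow] at h3
  nlinarith

variable [IsAlgClosed K] [IsFunctionField K F]

/-- Functions without poles off those of `x` satisfy monic equations over `K[x]`. -/
theorem exists_relation {x f : F} (hx : Transcendental K x) (hf : IntegralWrt K x f) :
    ∃ (n : ℕ) (p : ℕ → K[X]), f ^ n + ∑ i ∈ Finset.range n, aeval x (p i) * f ^ i = 0 := by
  classical
  haveI := finiteDimensional_adjoin (K := K) hx
  obtain ⟨B⟩ := nonempty_reducedBasis (K := K) hx
  let T : F →ₗ[K⟮x⟯] F := Algebra.lmul K⟮x⟯ F f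
  let φ : K[X] →ₐ[K] K⟮x⟯ := aeval (AdjoinSimple.gen K x)
  have hp : ∀ i j, ∃ p : K[X],
      (LinearMap.toMatrix (B.wBasis hx) (B.wBasis hx) T) i j = φ p := by
    intro i j
    obtain ⟨p, hp⟩ := B.exists_polynomial_coord hx (f := f * B.w j) fun v hv => by
      simpa using (hf v hv).mul (B.integral j v hv)
    refine ⟨p i, Subtype.ext ?_⟩
    rw [LinearMap.toMatrix_apply, ReducedBasis.coe_wBasis]
    have h2 : (φ (p i) : F) = aeval x (p i) := by
      simpa [φ] using (aeval_algHom_apply K⟮x⟯.val (AdjoinSimple.gen K x) (p i)).symm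
    rw [h2, ← hp i]
    rfl
  choose p hp using hp
  set P := (Matrix.of p).charpoly
  have hχ : T.charpoly = P.map φ.toRingHom := by
    rw [← LinearMap.charpoly_toMatrix T (B.wBasis hx),
      show LinearMap.toMatrix (B.wBasis hx) (B.wBasis hx) T = (Matrix.of p).map φ.toRingHom from
        Matrix.ext hp, Matrix.charpoly_map]
  refine ⟨P.natDegree, fun i => P.coeff i, ?_⟩
  have hPm : P.Monic := Matrix.charpoly_monic _
  have hdeg : T.charpoly.natDegree = P.natDegree := by rw [hχ, hPm.natDegree_map]
  have hCH : aeval f T.charpoly = 0 := by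
    have h1 : Algebra.lmul K⟮x⟯ F (aeval f T.charpoly) = 0 := by
      rw [← aeval_algHom_apply]
      exact LinearMap.aeval_self_charpoly T
    simpa using LinearMap.congr_fun h1 1
  rw [aeval_eq_sum_range, Finset.sum_range_succ, hdeg] at hCH
  simp only [IntermediateField.smul_def, smul_eq_mul] at hCH
  have hlc : (T.charpoly.coeff P.natDegree : F) = 1 := by
    rw [← hdeg, (LinearMap.charpoly_monic T).coeff_natDegree]; rfl
  rw [hlc, one_mul, add_comm] at hCH
  convert hCH using 3 with i
  rw [hχ, coeff_map]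
  congr 1
  simpa [φ] using (aeval_algHom_apply K⟮x⟯.val (AdjoinSimple.gen K x) (P.coeff i))

/-- Algebra homomorphisms of function fields preserve the absence of poles. -/
theorem integralWrt_map {F' : Type*} [Field F'] [Algebra K F'] (φ : F →ₐ[K] F') {x f : F}
    (hx : Transcendental K x) (hf : IntegralWrt K x f) : IntegralWrt K (φ x) (φ f) := by
  obtain ⟨n, p, hp⟩ := exists_relation hx hf
  refine integralWrt_of_relation (n := n) (p := p) ?_
  have h := congrArg φ hp
  simp only [map_add, map_pow, map_sum, map_mul, map_zero] at h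
  simp only [aeval_algHom_apply]
  exact h

theorem transcendental_map {F' : Type*} [Field F'] [Algebra K F'] (φ : F →ₐ[K] F') {x : F}
    (hx : Transcendental K x) : Transcendental K (φ x) := fun ⟨p, hp, h⟩ => hx ⟨p, hp,
  φ.toRingHom.injective (show φ (aeval x p) = φ 0 by rw [← aeval_algHom_apply, h, map_zero])⟩

theorem integralWrt_inv_iff {x f : F} (hx : x ≠ 0) {m : ℕ} :
    IntegralWrt K x⁻¹ (f * x⁻¹ ^ m) ↔ ∀ v : Place K F, v.ord x ≤ 0 → OrdGE v (m * v.ord x) f := by
  constructor
  · intro h v hv
    have h1 := (h v (by rw [v.ord_inv]; omega)).mul (ordGE_ord v (x ^ m))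
    rwa [mul_assoc, ← mul_pow, inv_mul_cancel₀ hx, one_pow, mul_one, ord_pow, zero_add] at h1
  · intro h v hv
    rw [v.ord_inv] at hv
    refine ((h v (by omega)).mul (ordGE_ord v (x⁻¹ ^ m))).mono ?_
    rw [ord_pow, v.ord_inv]
    ring_nf
    rfl

/-- Membership in the spaces `L(m · poles)` through the two affine charts. -/
theorem mem_poles_iff {x f : F} (hx : x ≠ 0) {m : ℕ} :
    f ∈ riemannRochSpace ((m : ℤ) • poleDiv K x) ↔
      IntegralWrt K x f ∧ IntegralWrt K x⁻¹ (f * x⁻¹ ^ m) := by
  rw [mem_rrSpace_poles, integralWrt_inv_iff hx]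
  refine and_congr_right fun hf => ⟨fun h v hv => ?_, fun h v hv => h v hv.le⟩
  rcases hv.lt_or_eq with h0 | h0
  · exact h v h0
  · simpa [h0] using hf v h0.ge

end FLTAgent.BadRed
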