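import Fermat.Agent.BadRed.Norm
import Fermat.Agent.Specialization.Laurent

/-!
# Residues of two sheeted reductions lie in the function field below
-/

set_option autoImplicit false
set_option linter.style.haveILetI false
set_option linter.unusedSectionVars false

noncomputable section

namespace FLTAgent.BadRed

open AlgebraicCurve FLTAgent.Curves FLTAgent.Specialization Polynomial IntermediateField

variable {L k : Type*} [Field L] [Field k] {A : ValuationSubring L} {π : A →+* k}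
  {FC F Ω : Type*} [Field FC] [Field F] [Field Ω] [Algebra L FC] [Algebra L F] [Algebra k Ω]
  [IsAlgClosed L] [IsFunctionField L FC] [IsFunctionField L F] [IsAlgClosed k]
  {Fb : IntermediateField k Ω} [IsFunctionField k Fb] {q : ℕ}

/-- The hypotheses on a pair of reductions into an ambient field. -/
structure PreSheet (π : A →+* k) (FC F : Type*) [Field FC] [Field F] [Algebra L FC] [Algebra L F]
    (Fb : IntermediateField k Ω) (q : ℕ) where
  MC : Model π FC Fb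
  α : FC →ₐ[L] F
  β : FC →ₐ[L] F
  Q₁ : Reduction π F Ω
  Q₂ : Reduction π F Ω
  V : Fb →ₐ[k] Fb
  α₁ : ∀ f g, MC.Res f g → Q₁.Res (α f) (g : Ω)
  α₂ : ∀ f g, MC.Res f g → Q₂.Res (α f) (V g : Ω)
  β₁ : ∀ f g, MC.Res f g → Q₁.Res (β f) (V g : Ω)
  β₂ : ∀ f g, MC.Res f g → Q₂.Res (β f) (g : Ω)
  V_xb : V MC.xb = MC.xb ^ q
  one_lt : 1 < q
  indepV : ∀ c : Fin q → Fb, ∑ i : Fin q, MC.xb ^ (i : ℕ) * V (c i) = 0 → c = 0
  degree : finrankAlong L α = q + 1
  arch : ∀ (t : A) (c : L), π t = 0 →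
    ∃ (N : ℕ) (h : c * (t : L) ^ N ∈ A), π ⟨_, h⟩ = 0
  exists_nonunit : ∃ t : A, π t = 0 ∧ (t : L) ≠ 0

namespace PreSheet

variable (S : PreSheet π FC F Fb q)

theorem exists_idem : ∃ e : F, S.Q₁.Res e 1 ∧ S.Q₂.Res e 0 := by
  have hx := S.MC.x_res
  have hinj : ∀ a b : ℕ, S.MC.xb ^ a = S.MC.xb ^ b → a = b := fun a b h => by
    by_contra hne
    refine S.MC.transcendental ⟨(Polynomial.X : k[X]) ^ a - Polynomial.X ^ b, fun h0 => hne ?_,
      by simp [h]⟩
    simpa using congrArg Polynomial.natDegree (sub_eq_zero.mp h0)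
  have b₁ := S.β₁ _ _ hx
  have b₂ := S.β₂ _ _ hx
  have a₁ := (S.α₁ _ _ hx).pow q
  have a₂ := (S.α₂ _ _ hx).pow q
  rw [S.V_xb, IntermediateField.coe_pow] at b₁ a₂
  set D := S.β S.MC.x - (S.β S.MC.x) ^ q ^ 2
  have hd₁ := b₁.sub (b₁.pow (q ^ 2))
  have hd₂ := b₂.sub (b₂.pow (q ^ 2))
  have hn₁ := b₁.sub a₁
  have hn₂ := b₂.sub a₂
  have hq := S.one_lt
  have h1 : ((S.MC.xb : Ω) ^ q - ((S.MC.xb : Ω) ^ q) ^ q ^ 2) ≠ 0 := by
    rw [sub_ne_zero, ← pow_mul]
    exact fun h => absurd (hinj _ _ (Subtype.ext (by simpa using h))) (by nlinarith)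
  have h2 : ((S.MC.xb : Ω) - (S.MC.xb : Ω) ^ q ^ 2) ≠ 0 := by
    rw [sub_ne_zero]
    intro h
    have := hinj 1 (q ^ 2) (Subtype.ext (by simpa using h))
    nlinarith
  refine ⟨1 - (S.β S.MC.x - (S.α S.MC.x) ^ q) / D, ?_, ?_⟩
  · simpa using S.Q₁.res_one.sub (hn₁.div hd₁ h1)
  · have := S.Q₂.res_one.sub (hn₂.div hd₂ h2)
    rwa [← pow_mul (S.MC.xb : Ω) q q, ← sq, div_self h2, sub_self] at this

/-- Coefficients of residues with respect to a separated family. -/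
def comb (c : Unit ⊕ Fin q → Fb) : Fb × Fb :=
  (c (Sum.inl ()), ∑ i : Fin q, S.MC.xb ^ (i : ℕ) * S.V (c (Sum.inr i)))

theorem comb_eq_zero {c : Unit ⊕ Fin q → Fb} (h : S.comb c = 0) : c = 0 := by
  have h2 := S.indepV (fun i => c (Sum.inr i)) (congrArg Prod.snd h)
  funext z
  rcases z with ⟨⟨⟩⟩ | i
  exacts [congrArg Prod.fst h, congrFun h2 i]

/-- The residues on both sheets lie in the field below. -/
theorem res_mem {f : F} {g : Ω} : (S.Q₁.Res f g → g ∈ Fb) ∧ (S.Q₂.Res f g → g ∈ Fb) := by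
  classical
  obtain ⟨e, he₁, he₂⟩ := S.exists_idem
  have hf₁ : S.Q₁.Res (1 - e) 0 := by simpa using S.Q₁.res_one.sub he₁
  have hf₂ : S.Q₂.Res (1 - e) 1 := by simpa using S.Q₂.res_one.sub he₂
  set v : Unit ⊕ Fin q → F :=
    Sum.elim (fun _ => e) fun i => S.β S.MC.x ^ (i : ℕ) * (1 - e)
  have hcomb : ∀ {a : Unit ⊕ Fin q → FC} {c : Unit ⊕ Fin q → Fb},
      (∀ z, S.MC.Res (a z) (c z)) →
      S.Q₁.Res (∑ z, S.α (a z) * v z) ((S.comb c).1 : Ω) ∧
        S.Q₂.Res (∑ z, S.α (a z) * v z) ((S.comb c).2 : Ω) := by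
    intro a c hac
    constructor
    · have h := Reduction.Res.sum (R := S.Q₁) (s := Finset.univ)
        (a := fun z => S.α (a z) * v z)
        (b := Sum.elim (fun _ => (c (Sum.inl ()) : Ω)) fun _ => 0) fun z _ => by
          rcases z with ⟨⟨⟩⟩ | i
          · simpa [v] using (S.α₁ _ _ (hac _)).mul he₁
          · simpa [v] using (S.α₁ _ _ (hac (Sum.inr i))).mul (((S.β₁ _ _ S.MC.x_res).pow i).mul hf₁)
      convert h using 1
      simp [comb, Fintype.sum_sum_type]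
    · have h := Reduction.Res.sum (R := S.Q₂) (s := Finset.univ)
        (a := fun z => S.α (a z) * v z)
        (b := Sum.elim (fun _ => (0 : Ω))
          fun i => (S.MC.xb : Ω) ^ (i : ℕ) * (S.V (c (Sum.inr i)) : Ω)) fun z _ => by
          rcases z with ⟨⟨⟩⟩ | i
          · simpa [v] using (S.α₂ _ _ (hac _)).mul he₂
          · simpa [v, mul_comm] using
              (S.α₂ _ _ (hac (Sum.inr i))).mul (((S.β₂ _ _ S.MC.x_res).pow i).mul hf₂)
      convert h using 1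
      simp [comb, Fintype.sum_sum_type]
  have hscale : ∀ {a : Unit ⊕ Fin q → FC}, a ≠ 0 → ∃ s c, (∀ z, S.MC.Res (s * a z) (c z)) ∧
      S.comb c ≠ 0 ∧ S.Q₁.Res (S.α s * ∑ z, S.α (a z) * v z) ((S.comb c).1 : Ω) ∧
      S.Q₂.Res (S.α s * ∑ z, S.α (a z) * v z) ((S.comb c).2 : Ω) := by
    intro a ha
    obtain ⟨s, j, hs, hj⟩ := S.MC.total.exists_scale_family ha
    choose c hc using fun z => S.MC.exists_res_of_mem (hs z)
    refine ⟨s, c, hc, fun h0 => ?_, ?_⟩
    · have h1 : S.MC.Res (s * a j) 1 := by rw [hj]; exact S.MC.res_one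
      exact one_ne_zero ((h1.unique (hc j)).trans (congrFun (S.comb_eq_zero h0) j))
    · rw [Finset.mul_sum]
      simpa only [map_mul, mul_assoc] using hcomb hc
  have hcoord : ∀ {a : Unit ⊕ Fin q → FC} {g₁ g₂ : Ω},
      S.Q₁.Res (∑ z, S.α (a z) * v z) g₁ → S.Q₂.Res (∑ z, S.α (a z) * v z) g₂ →
      ∀ z, a z ∈ S.MC.O := by
    intro a g₁ g₂ h₁ h₂ z
    by_cases ha : a = 0
    · simp [ha, zero_mem]
    obtain ⟨s, c, hc, hne, r₁, r₂⟩ := hscale ha
    by_cases hs : S.MC.Res s 0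
    · refine absurd (Prod.ext (Subtype.ext ?_) (Subtype.ext ?_)) hne
      · have h := (S.α₁ _ _ hs).mul h₁
        simp only [ZeroMemClass.coe_zero, zero_mul] at h
        simpa using r₁.unique h
      · have h := (S.α₂ _ _ hs).mul h₂
        simp only [map_zero, ZeroMemClass.coe_zero, zero_mul] at h
        simpa using r₂.unique h
    · have hs' := S.MC.total.inv_mem_of_not_res hs
      have hs0 : s ≠ 0 := fun h0 => hs (h0 ▸ S.MC.res_zero)
      rw [show a z = s⁻¹ * (s * a z) from (inv_mul_cancel_left₀ hs0 _).symm]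
      exact mul_mem hs' (hc z).mem
  -- spanning
  letI := algebraAlong S.α
  haveI := isScalarTower_along S.α
  haveI : Module.Finite FC F := Kronecker.moduleFinite_of_functionField L
  have hli : LinearIndependent FC v := by
    rw [Fintype.linearIndependent_iff]
    intro a ha
    by_contra hne
    obtain ⟨s, c, -, hc, r₁, r₂⟩ := hscale (a := a) fun h => hne fun z => congrFun h z
    have ha' : ∑ z, S.α (a z) * v z = 0 := ha
    rw [ha', mul_zero] at r₁ r₂
    exact hc (Prod.ext (Subtype.ext (by simpa using r₁.unique S.Q₁.res_zero))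
      (Subtype.ext (by simpa using r₂.unique S.Q₂.res_zero)))
  have hsp : ∀ y : F, ∃ a : Unit ⊕ Fin q → FC, ∑ z, S.α (a z) * v z = y := by
    intro y
    have h := hli.span_eq_top_of_card_eq_finrank (by
      rw [show Module.finrank FC F = q + 1 from S.degree]; simp [add_comm])
    exact (Submodule.mem_span_range_iff_exists_fun FC).1 (h.symm ▸ Submodule.mem_top)
  have hmem : ∀ {y : F} {g₁ g₂ : Ω}, S.Q₁.Res y g₁ → S.Q₂.Res y g₂ → g₁ ∈ Fb ∧ g₂ ∈ Fb := by
    intro y g₁ g₂ h₁ h₂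
    obtain ⟨a, rfl⟩ := hsp y
    choose c hc using fun z => S.MC.exists_res_of_mem (hcoord h₁ h₂ z)
    rw [h₁.unique (hcomb hc).1, h₂.unique (hcomb hc).2]
    exact ⟨SetLike.coe_mem _, SetLike.coe_mem _⟩
  -- `e (1 - e)` is small
  obtain ⟨a, ha⟩ := hsp (e * (1 - e))
  have hp₁ : S.Q₁.Res (e * (1 - e)) 0 := by simpa using he₁.mul hf₁
  have hp₂ : S.Q₂.Res (e * (1 - e)) 0 := by simpa using he₂.mul hf₂
  choose c hc using fun z => S.MC.exists_res_of_mem (hcoord (ha.symm ▸ hp₁) (ha.symm ▸ hp₂) z)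
  have hc0 : c = 0 := S.comb_eq_zero (Prod.ext
    (Subtype.ext (((hcomb hc).1.unique (ha.symm ▸ hp₁)).trans (ZeroMemClass.coe_zero _).symm))
    (Subtype.ext (((hcomb hc).2.unique (ha.symm ▸ hp₂)).trans (ZeroMemClass.coe_zero _).symm)))
  obtain ⟨t₀, ht₀, ht₀'⟩ := S.exists_nonunit
  have hsmall : ∀ z, ∃ t : A, π t = 0 ∧ (t : L) ≠ 0 ∧ (t : L)⁻¹ • a z ∈ S.MC.O := by
    intro z
    rcases eq_or_ne (a z) 0 with h0 | h0
    · exact ⟨t₀, ht₀, ht₀', by rw [h0, smul_zero]; exact zero_mem _⟩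
    obtain ⟨s, g', hg', hsg⟩ := S.MC.scaled _ h0
    have hz : S.MC.Res (a z) 0 := by simpa [hc0] using hc z
    have hsA : s ∉ A := fun hm => hg' (hsg.unique (by simpa using hz.smul ⟨s, hm⟩))
    have hs0 : s ≠ 0 := fun h => hsA (h ▸ A.zero_mem)
    exact ⟨⟨s⁻¹, (A.mem_or_inv_mem s).resolve_left hsA⟩,
      Reduction.map_eq_zero_of_inv_notMem S.MC.surj (by simpa using hsA), inv_ne_zero hs0,
      by simpa using hsg.mem⟩
  obtain ⟨t, ht, ht', hta⟩ : ∃ t : A, π t = 0 ∧ (t : L) ≠ 0 ∧ ∀ z, (t : L)⁻¹ • a z ∈ S.MC.O := by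
    choose T hT hT' hTa using hsmall
    obtain ⟨i, -, hi, hmax⟩ := (Reduction.base_total S.MC.surj).exists_max Finset.univ
      (fun z => (T z : L)) ⟨Sum.inl (), Finset.mem_univ _, hT' _⟩
    refine ⟨T i, hT i, hi, fun z => ?_⟩
    have := (S.MC.res_algebraMap ⟨_, hmax z (Finset.mem_univ z)⟩).mem
    have h2 := mul_mem this (hTa z)
    rw [← Algebra.smul_def, smul_smul, div_mul_eq_mul_div, mul_inv_cancel₀ (hT' z), one_div] at h2
    exact h2
  choose c' hc' using fun z => S.MC.exists_res_of_mem (hta z)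
  obtain ⟨hy₁, hy₂⟩ := hcomb hc'
  set y := ∑ z, S.α ((t : L)⁻¹ • a z) * v z
  have hy : e * (1 - e) = (t : L) • y := by
    rw [← ha, Finset.smul_sum]
    refine Finset.sum_congr rfl fun z _ => ?_
    rw [map_smul, smul_mul_assoc, smul_smul, mul_inv_cancel₀ ht', one_smul]
  have key : ∀ (R : Reduction π F Ω) (p b : F) (w : Ω), R.Res b 1 → R.Res y w →
      p * b = (t : L) • y → ∀ s : L, ∃ N, s • p ^ N ∈ R.O := by
    intro R p b w hb hw hpb s
    obtain ⟨N, hN, -⟩ := S.arch t s ht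
    refine ⟨N, ?_⟩
    have hp : p = (t : L) • (y * b⁻¹) := by
      rw [← smul_mul_assoc, ← hpb, mul_assoc, mul_inv_cancel₀ (hb.ne_zero one_ne_zero), mul_one]
    rw [hp, _root_.smul_pow, smul_smul]
    exact (((hw.mul (hb.inv one_ne_zero)).pow N).smul ⟨_, hN⟩).mem
  have hbdd : ∀ y : F, ∃ s : L, s ≠ 0 ∧ s • y ∈ S.Q₁.O ∧ s • y ∈ S.Q₂.O := by
    intro y
    obtain ⟨a, rfl⟩ := hsp y
    by_cases ha0 : a = 0
    · exact ⟨1, one_ne_zero, by simp [ha0, zero_mem], by simp [ha0, zero_mem]⟩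
    have hex : ∀ z, ∃ s : L, s ≠ 0 ∧ s • a z ∈ S.MC.O := fun z => by
      rcases eq_or_ne (a z) 0 with h0 | h0
      · exact ⟨1, one_ne_zero, by rw [h0, smul_zero]; exact zero_mem _⟩
      obtain ⟨s, g', hg', hsg⟩ := S.MC.scaled _ h0
      exact ⟨s, fun h => hg' (hsg.unique (by rw [h, zero_smul]; exact S.MC.res_zero)), hsg.mem⟩
    choose T hT hTa using hex
    obtain ⟨b, hb, hbT⟩ := exists_scalar_bound S.MC.surj fun z => (T z)⁻¹
    have hall : ∀ z, b • a z ∈ S.MC.O := fun z => by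
      have h2 := mul_mem (S.MC.res_algebraMap ⟨_, hbT z⟩).mem (hTa z)
      rw [← Algebra.smul_def, smul_smul, mul_assoc, inv_mul_cancel₀ (hT z), mul_one] at h2
      exact h2
    choose c hc using fun z => S.MC.exists_res_of_mem (hall z)
    have he : b • ∑ z, S.α (a z) * v z = ∑ z, S.α (b • a z) * v z := by
      simp only [Finset.smul_sum, map_smul, smul_mul_assoc]
    exact ⟨b, hb, he ▸ (hcomb hc).1.mem, he ▸ (hcomb hc).2.mem⟩
  obtain ⟨s, hs, hs₁, hs₂⟩ := hbdd f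
  constructor
  · intro h
    obtain ⟨N, hN⟩ := key S.Q₂ e (1 - e) _ hf₂ hy₂ hy s⁻¹
    have h1 : S.Q₁.Res (f * e ^ N) g := by simpa using h.mul (he₁.pow N)
    have h2 := mul_mem hs₂ hN
    rw [smul_mul_smul_comm, mul_inv_cancel₀ hs, one_smul] at h2
    obtain ⟨g₂, hg₂⟩ := S.Q₂.exists_res_of_mem h2
    exact (hmem h1 hg₂).1
  · intro h
    obtain ⟨N, hN⟩ := key S.Q₁ (1 - e) e _ he₁ hy₁ (by rw [mul_comm]; exact hy) s⁻¹
    have h1 : S.Q₂.Res (f * (1 - e) ^ N) g := by simpa using h.mul (hf₂.pow N)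
    have h2 := mul_mem hs₁ hN
    rw [smul_mul_smul_comm, mul_inv_cancel₀ hs, one_smul] at h2
    obtain ⟨g₁, hg₁⟩ := S.Q₁.exists_res_of_mem h2
    exact (hmem hg₁ h1).2

/-- The sheets attached to a pair of reductions into an ambient field. -/
def sheet : Sheet π FC Fb F q where
  MC := S.MC
  α := S.α
  β := S.β
  R₁ := S.Q₁.codRestrict Fb fun _ _ h => S.res_mem.1 h
  R₂ := S.Q₂.codRestrict Fb fun _ _ h => S.res_mem.2 h
  V := S.V
  α₁ f g h := (Reduction.codRestrict_res (h := fun _ _ h => S.res_mem.1 h)).2 (S.α₁ f g h)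
  α₂ f g h := (Reduction.codRestrict_res (h := fun _ _ h => S.res_mem.2 h)).2 (S.α₂ f g h)
  β₁ f g h := (Reduction.codRestrict_res (h := fun _ _ h => S.res_mem.1 h)).2 (S.β₁ f g h)
  β₂ f g h := (Reduction.codRestrict_res (h := fun _ _ h => S.res_mem.2 h)).2 (S.β₂ f g h)
  V_xb := S.V_xb
  one_lt := S.one_lt
  indepV := S.indepV
  finrank_eq := by
    letI := algebraAlong S.α
    haveI := isScalarTower_along S.α
    have h := Kronecker.finrank_adjoin_algebraMap (K := L) (F := FC) (F' := F) S.MC.x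
    change Module.finrank L⟮S.α S.MC.x⟯ F = _ at h
    rw [h, show Module.finrank FC F = q + 1 from S.degree, mul_comm]
  arch := S.arch
  exists_nonunit := S.exists_nonunit

theorem sheet_res₁ {f : F} {g : Fb} : S.sheet.R₁.Res f g ↔ S.Q₁.Res f (g : Ω) :=
  Reduction.codRestrict_res (h := fun _ _ h => S.res_mem.1 h)

theorem sheet_res₂ {f : F} {g : Fb} : S.sheet.R₂.Res f g ↔ S.Q₂.Res f (g : Ω) :=
  Reduction.codRestrict_res (h := fun _ _ h => S.res_mem.2 h)

end PreSheet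

end FLTAgent.BadRed
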