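import Fermat.Agent.BadRed.Symmetry
import Fermat.Agent.BadRed.Descent
import Fermat.Agent.GoodModel.Final

/-!
# Torsion of `J₀(Mq)` under inertia and Frobenius at `q`

A multiple `M₂` of `M` carries a smooth model at `q`, and the index of `Mq` in `M₂q` is a power of
`q`, so identities between functions descend up to `n`-th powers for `n` prime to `q`.
-/

set_option autoImplicit false
set_option linter.style.haveILetI false
set_option linter.unusedSectionVars false
set_option synthInstance.maxHeartbeats 400000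
set_option maxHeartbeats 1000000

noncomputable section

open AlgebraicCurve ModularCurve IntermediateField IsLocalRing

namespace FLTAgent.BadRed

open FLTAgent.Curves FLTAgent.Specialization

local notation "QA" => AlgebraicClosure ℚ
local notation "GG" => (AlgebraicClosure ℚ ≃ₐ[ℚ] AlgebraicClosure ℚ)

variable {M q : ℕ} [NeZero M] [Fact q.Prime] [NeZero q] [NeZero (M * q)]
  {M₂ : ℕ} [NeZero M₂] [NeZero (M₂ * q)]

theorem coprime_finrankAlong (h12 : M ∣ M₂) {e n : ℕ}
    (he : dedekindPsi (M₂ * q) = dedekindPsi (M * q) * q ^ e) (hn : ¬ q ∣ n) :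
    Nat.Coprime (finrankAlong QA
      (IntermediateField.inclusion (X0Bar_mono (Nat.mul_dvd_mul_right h12 q)))) n := by
  obtain ⟨h1, -⟩ := finrank_tower QA (M * q) (laurentBaseChange_full_eq _)
    (laurentBaseChange_full_eq (M₂ * q)) (Nat.cast_ne_zero.2 (NeZero.ne _))
    (Nat.cast_ne_zero.2 (NeZero.ne _)) (X0Bar_mono (Nat.mul_dvd_mul_right h12 q))
  have h2 : finrankAlong QA (IntermediateField.inclusion (X0Bar_mono (Nat.mul_dvd_mul_right h12 q))) =
      q ^ e := Nat.eq_of_mul_eq_mul_left (dedekindPsi_pos (M * q)) (h1.trans he)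
  rw [h2]
  exact Nat.Coprime.pow_left e ((Nat.Prime.coprime_iff_not_dvd Fact.out).2 hn)

theorem inclusion_galois (h12 : M ∣ M₂) (τ : GG) (z : X0Bar (M * q)) :
    IntermediateField.inclusion (X0Bar_mono (Nat.mul_dvd_mul_right h12 q))
        (arithmeticGalois (modularFunctionFieldFull (M * q)) τ • z) =
      arithmeticGalois (modularFunctionFieldFull (M₂ * q)) τ •
        IntermediateField.inclusion (X0Bar_mono (Nat.mul_dvd_mul_right h12 q)) z :=
  Subtype.ext <| by
    rw [IntermediateField.coe_inclusion, coe_arithmeticGalois_smul, coe_arithmeticGalois_smul,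
      IntermediateField.coe_inclusion]

omit [Fact q.Prime] [NeZero q] [NeZero (M * q)] [NeZero (M₂ * q)] in
theorem inclusion_jEl (h12 : M ∣ M₂) :
    IntermediateField.inclusion (X0Bar_mono h12) (Kronecker.jEl M) = Kronecker.jEl M₂ :=
  Subtype.ext <| by rw [IntermediateField.coe_inclusion, Kronecker.coe_jEl, Kronecker.coe_jEl]

omit [Fact q.Prime] in
theorem inclusion_alpha (h12 : M ∣ M₂) (a : X0Bar M) :
    IntermediateField.inclusion (X0Bar_mono (Nat.mul_dvd_mul_right h12 q))
        (heckeAlphaBar QA M q a) =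
      heckeAlphaBar QA M₂ q (IntermediateField.inclusion (X0Bar_mono h12) a) :=
  Subtype.ext <| by
    rw [IntermediateField.coe_inclusion, coe_heckeAlphaBar, coe_heckeAlphaBar,
      IntermediateField.coe_inclusion]

omit [Fact q.Prime] in
theorem inclusion_beta (h12 : M ∣ M₂) (a : X0Bar M) :
    IntermediateField.inclusion (X0Bar_mono (Nat.mul_dvd_mul_right h12 q))
        (heckeBetaBar QA M q a) =
      heckeBetaBar QA M₂ q (IntermediateField.inclusion (X0Bar_mono h12) a) :=
  Subtype.ext <| by
    rw [IntermediateField.coe_inclusion, coe_heckeBetaBar, coe_heckeBetaBar,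
      IntermediateField.coe_inclusion]

section Levels

variable {A : ValuationSubring QA} (hA : A.LiesOverPrime q) (hqM : ¬ q ∣ M)

include hA hqM in
/-- A multiple of the level with a smooth model and index a power of `q`. -/
theorem exists_smooth_level [IsAlgClosed (ResidueField A)] [CharP (ResidueField A) q] :
    ∃ (M₂ e : ℕ) (_ : NeZero M₂) (_ : IsFunctionField (ResidueField A)
      (modularFunctionFieldFullC (ResidueField A) M₂)) (hM₂ : ¬ q ∣ M₂), M ∣ M₂ ∧
      dedekindPsi (M₂ * q) = dedekindPsi (M * q) * q ^ e ∧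
      (modularModel (π := residue A) residue_surjective M₂
        (natCast_ne_zero hM₂ (ResidueField A))).Smooth := by
  have hl : q.Prime := Fact.out
  obtain ⟨N₂, N', h12, h23, hN', haux, ⟨d, hd, hdl⟩, ⟨e, he⟩, -⟩ := exists_levels hl hqM
  haveI : NeZero N' := ⟨fun h => hN' (h ▸ dvd_zero q)⟩
  haveI : NeZero N₂ := ⟨fun h => NeZero.ne N' (by simpa [h] using h23)⟩
  have hN₂ : ¬ q ∣ N₂ := fun h => hN' (h.trans h23)
  haveI := isFunctionField_full (ResidueField A) N₂ rfl (natCast_ne_zero hN₂ _)
  haveI := isFunctionField_full (ResidueField A) N' rfl (natCast_ne_zero hN' _)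
  refine ⟨N₂, e, inferInstance, inferInstance, hN₂, h12, ?_, smooth_of_dvd residue_surjective
    (natCast_ne_zero hN₂ _) h23 (natCast_ne_zero hN' _) hd (fun h => hdl ((CharP.cast_eq_zero_iff _ q d).1 h))
      (GoodModel.goodLevel hA N' haux hN')⟩
  rw [ModEq.dedekindPsi_mul_prime_of_not_dvd hl hN₂, ModEq.dedekindPsi_mul_prime_of_not_dvd hl hqM,
    he, mul_assoc]

include hA hqM in
/-- **Inertia at `q` is unipotent** on torsion of `J₀(Mq)` of order prime to `q`. -/
theorem inertia_smul_smul_torsion {g : GG} (hg : g ∈ A.inertiaSubgroupIn ℚ) {n : ℕ} (hn : ¬ q ∣ n)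
    {x : JZero (M * q)} (hx : n • x = 0) : g • (g • x) - g • x = g • x - x := by
  haveI : IsAlgClosed (ResidueField A) := FrobTrace.isAlgClosed_residueField A
  haveI := FrobTrace.charP_residueField hA
  obtain ⟨M₂, e, hne₂, hff, hM₂, h12, he, hsm⟩ := exists_smooth_level hA hqM
  haveI : NeZero (M₂ * q) := ⟨Nat.mul_ne_zero (NeZero.ne M₂) (NeZero.ne q)⟩
  obtain ⟨g₀, hg₀, rfl⟩ := hg
  have hn' : (n : ResidueField A) ≠ 0 := fun h => hn ((CharP.cast_eq_zero_iff _ q n).1 h)
  exact Sheet.smul_smul_torsion_below (modularSheet_good hM₂ residue_surjective (rankOne_residue hA) hsm)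
    (symAt hM₂ hA g₀) (symAt_inertia hM₂ hA hg₀)
    (IntermediateField.inclusion (X0Bar_mono (Nat.mul_dvd_mul_right h12 q))) hn'
    (coprime_finrankAlong h12 he hn) (arithmeticGalois (modularFunctionFieldFull (M * q)) (g₀ : GG))
    (inclusion_galois h12 (g₀ : GG)) (Pic0.mem_torsion.2 (by rw [natCast_zsmul]; exact hx))

open Divisor in
include hA hqM in
/-- **Frobenius at `q`**: on torsion killed by both pushforwards, `Fr²` is `q²` on the image of
`Fr² - 1`. -/
theorem frobenius_sq_smul_torsion {σ : GG} (hσ : A.IsFrobeniusAt σ q) {n : ℕ} (hn : ¬ q ∣ n)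
    {D : Divisor.degZero (K := QA) (F := X0Bar (M * q))}
    (hx : n • (Pic0.mk D : JZero (M * q)) = 0)
    (hαD : (pushforwardAlong (heckeAlphaBar QA M q) (Kronecker.isIntegralAlong _)
      (D : Divisor QA (X0Bar (M * q)))).IsPrincipal)
    (hβD : (pushforwardAlong (heckeBetaBar QA M q) (Kronecker.isIntegralAlong _)
      (D : Divisor QA (X0Bar (M * q)))).IsPrincipal) :
    (σ * σ) • ((σ * σ) • (Pic0.mk D : JZero (M * q))) - (σ * σ) • (Pic0.mk D : JZero (M * q)) =
      (q * q) • ((σ * σ) • (Pic0.mk D : JZero (M * q)) - Pic0.mk D) := by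
  haveI : IsAlgClosed (ResidueField A) := FrobTrace.isAlgClosed_residueField A
  haveI := FrobTrace.charP_residueField hA
  haveI := isFunctionField_full (ResidueField A) M rfl (natCast_ne_zero hqM _)
  obtain ⟨M₂, e, hne₂, hff, hM₂, h12, he, hsm⟩ := exists_smooth_level hA hqM
  haveI : NeZero (M₂ * q) := ⟨Nat.mul_ne_zero (NeZero.ne M₂) (NeZero.ne q)⟩
  have hn' : (n : ResidueField A) ≠ 0 := fun h => hn ((CharP.cast_eq_zero_iff _ q n).1 h)
  rw [galois_smul_pic0_def, galois_smul_pic0_def, map_mul]
  exact Sheet.smul_sq_torsion_below (modularSheet hqM residue_surjective (rankOne_residue hA))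
    (modularSheet_good hM₂ residue_surjective (rankOne_residue hA) hsm)
    (symAt hM₂ hA ⟨σ, hσ.mem_decompositionSubgroup⟩)
    (fun y => symAt_frobenius hM₂ hA (fun z => hσ.smul_residue_eq z) y)
    (pow_injective_fullC M₂ q)
    (Kronecker.finrankAlong_alpha M q hqM).2 (finrankAlong_beta hqM)
    (Kronecker.finrankAlong_alpha M₂ q hM₂).2 (finrankAlong_beta hM₂)
    (IntermediateField.inclusion (X0Bar_mono h12))
    (IntermediateField.inclusion (X0Bar_mono (Nat.mul_dvd_mul_right h12 q)))
    (((congrArg _ (modelX_eq residue_surjective (natCast_ne_zero hqM _))).trans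
      (inclusion_jEl h12)).trans (modelX_eq residue_surjective (natCast_ne_zero hM₂ _)).symm)
    (inclusion_alpha h12) (inclusion_beta h12) hn' (coprime_finrankAlong h12 he hn)
    (arithmeticGalois (modularFunctionFieldFull (M * q)) σ) (inclusion_galois h12 σ)
    (Pic0.mem_torsion.2 (by rw [natCast_zsmul]; exact hx)) _ _ hαD hβD

end Levels

end FLTAgent.BadRed
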