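import Fermat.Agent.Specialization.Lattice

/-!
# Linear reductions

A partial semilinear map `E → W` along a residue map `π : A → k`, with the linear algebra of
families whose images are independent.
-/

set_option autoImplicit false

noncomputable section

set_option linter.style.haveILetI false

namespace FLTAgent.BadRed

open FLTAgent.Specialization

variable {L k : Type*} [Field L] [Field k] {A : ValuationSubring L}

/-- A linear reduction along `π`. -/
structure LRed (π : A →+* k) (E W : Type*) [AddCommGroup E] [Module L E] [AddCommGroup W]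
    [Module k W] where
  Res : E → W → Prop
  unique : ∀ {e w w'}, Res e w → Res e w' → w = w'
  res_zero : Res 0 0
  res_add : ∀ {e e' w w'}, Res e w → Res e' w' → Res (e + e') (w + w')
  res_smul : ∀ (a : A) {e w}, Res e w → Res ((a : L) • e) (π a • w)

namespace LRed

variable {π : A →+* k} {E W : Type*} [AddCommGroup E] [Module L E] [AddCommGroup W] [Module k W]
  (R : LRed π E W)

/-- The elements with a reduction. -/
def Integral (e : E) : Prop := ∃ g, R.Res e g

/-- Congruence to zero modulo `t`. -/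
def Small (t : L) (e : E) : Prop := ∃ y, R.Integral y ∧ e = t • y

variable {R}

theorem res_neg {e : E} {w : W} (h : R.Res e w) : R.Res (-e) (-w) := by
  have := R.res_smul (-1) h
  simpa using this

theorem res_sub {e e' : E} {w w' : W} (h : R.Res e w) (h' : R.Res e' w') :
    R.Res (e - e') (w - w') := by
  rw [sub_eq_add_neg, sub_eq_add_neg]
  exact R.res_add h (res_neg h')

theorem res_sum {ι : Type*} {s : Finset ι} {v : ι → E} {w : ι → W}
    (h : ∀ i ∈ s, R.Res (v i) (w i)) : R.Res (∑ i ∈ s, v i) (∑ i ∈ s, w i) := by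
  classical
  induction s using Finset.induction with
  | empty => simpa using R.res_zero
  | insert a s ha ih =>
      rw [Finset.sum_insert ha, Finset.sum_insert ha]
      exact R.res_add (h a (Finset.mem_insert_self a s))
        (ih fun i hi => h i (Finset.mem_insert_of_mem hi))

theorem res_comb {ι : Type*} {s : Finset ι} {v : ι → E} {w : ι → W}
    (h : ∀ i ∈ s, R.Res (v i) (w i)) (c : ι → A) :
    R.Res (∑ i ∈ s, (c i : L) • v i) (∑ i ∈ s, π (c i) • w i) :=
  res_sum fun i hi => R.res_smul (c i) (h i hi)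

theorem Small.mono {t t' : L} {e : E} {a : L} (ha : a ∈ A) (ht : t = t' * a) (h : R.Small t e) :
    R.Small t' e := by
  obtain ⟨y, ⟨g, hg⟩, rfl⟩ := h
  exact ⟨a • y, ⟨_, R.res_smul ⟨a, ha⟩ hg⟩, by rw [ht, mul_smul]⟩

theorem Small.add {t : L} {e e' : E} (h : R.Small t e) (h' : R.Small t e') :
    R.Small t (e + e') := by
  obtain ⟨y, ⟨g, hg⟩, rfl⟩ := h
  obtain ⟨y', ⟨g', hg'⟩, rfl⟩ := h'
  exact ⟨y + y', ⟨_, R.res_add hg hg'⟩, (smul_add t y y').symm⟩

theorem Small.neg {t : L} {e : E} (h : R.Small t e) : R.Small t (-e) := by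
  obtain ⟨y, ⟨g, hg⟩, rfl⟩ := h
  exact ⟨-y, ⟨_, res_neg hg⟩, (smul_neg t y).symm⟩

theorem Small.sub {t : L} {e e' : E} (h : R.Small t e) (h' : R.Small t e') :
    R.Small t (e - e') := sub_eq_add_neg e e' ▸ h.add h'.neg

theorem Small.res {t : A} (ht : π t = 0) {e : E} (h : R.Small (t : L) e) : R.Res e 0 := by
  obtain ⟨y, ⟨g, hg⟩, rfl⟩ := h
  simpa [ht] using R.res_smul t hg

section Family

variable (hπ : Function.Surjective π) {ι : Type*} [Fintype ι] {v : ι → E} {w : ι → W}
  (hvw : ∀ i, R.Res (v i) (w i)) (hw : LinearIndependent k w)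

include hπ hvw hw

theorem coord_mem {a : ι → L} (h : R.Integral (∑ i, a i • v i)) (i : ι) : a i ∈ A := by
  by_cases ha : a = 0
  · simp [ha]
  by_contra hi
  obtain ⟨s, j, hs, hj⟩ := (Reduction.base_total hπ).exists_scale_family ha
  have hs' : ∀ l, s * a l ∈ A := hs
  have hs0 : s ≠ 0 := left_ne_zero_of_mul_eq_one hj
  have hsinv : s⁻¹ ∉ A := fun h0 => hi (by
    have := mul_mem h0 (hs' i)
    rwa [← mul_assoc, inv_mul_cancel₀ hs0, one_mul] at this)
  have hsA : s ∈ A := (A.mem_or_inv_mem s).resolve_right hsinv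
  have hπs : π ⟨s, hsA⟩ = 0 := Reduction.map_eq_zero_of_inv_notMem hπ hsinv
  obtain ⟨g, hg⟩ := h
  have h1 := R.res_smul ⟨s, hsA⟩ hg
  rw [hπs, zero_smul, Finset.smul_sum] at h1
  simp only [smul_smul] at h1
  have h2 := res_comb (R := R) (s := Finset.univ) (fun l _ => hvw l) fun l => ⟨s * a l, hs' l⟩
  have h3 := Fintype.linearIndependent_iff.1 hw _ (R.unique h2 h1) j
  rw [show (⟨s * a j, hs' j⟩ : A) = 1 from Subtype.ext hj, map_one] at h3
  exact one_ne_zero h3

theorem coord_res {a : ι → L} {g : W} (h : R.Res (∑ i, a i • v i) g) :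
    ∃ c : ι → A, (∀ i, (c i : L) = a i) ∧ g = ∑ i, π (c i) • w i :=
  ⟨fun i => ⟨a i, coord_mem hπ hvw hw ⟨g, h⟩ i⟩, fun _ => rfl,
    R.unique h (res_comb (s := Finset.univ) (fun l _ => hvw l)
      fun i => ⟨a i, coord_mem hπ hvw hw ⟨g, h⟩ i⟩)⟩

theorem linearIndependent_of_res : LinearIndependent L v := by
  rw [Fintype.linearIndependent_iff]
  intro a ha
  by_contra hne
  push Not at hne
  obtain ⟨s, j, hs, hj⟩ :=
    (Reduction.base_total hπ).exists_scale_family (c := a) (Function.ne_iff.2 hne)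
  have h2 := res_comb (R := R) (s := Finset.univ) (fun l _ => hvw l) fun l => ⟨s * a l, hs l⟩
  simp only [← smul_smul, ← Finset.smul_sum, ha, smul_zero] at h2
  have h3 := Fintype.linearIndependent_iff.1 hw _ (R.unique h2 R.res_zero) j
  rw [show (⟨s * a j, hs j⟩ : A) = 1 from Subtype.ext hj, map_one] at h3
  exact one_ne_zero h3

end Family

variable (R) in
/-- The reduction of a subspace. -/
def image (U : Submodule L E) : Submodule k W := Submodule.span k {g | ∃ e ∈ U, R.Res e g}

theorem mem_image_of_res {U : Submodule L E} {e : E} {g : W} (he : e ∈ U) (h : R.Res e g) :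
    g ∈ R.image U := Submodule.subset_span ⟨e, he, h⟩

theorem image_mono {U U' : Submodule L E} (h : U ≤ U') : R.image U ≤ R.image U' :=
  Submodule.span_mono fun _ ⟨e, he, hr⟩ => ⟨e, h he, hr⟩

theorem image_le {U : Submodule L E} {V : Submodule k W}
    (h : ∀ e g, e ∈ U → R.Res e g → g ∈ V) : R.image U ≤ V :=
  Submodule.span_le.2 fun g ⟨e, he, hr⟩ => h e g he hr

theorem mem_image (hπ : Function.Surjective π) {U : Submodule L E} {g : W} :
    g ∈ R.image U ↔ ∃ e ∈ U, R.Res e g := by
  refine ⟨fun hg => ?_, fun ⟨e, he, h⟩ => mem_image_of_res he h⟩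
  refine Submodule.span_induction (fun g hg => hg) ⟨0, U.zero_mem, R.res_zero⟩
    (fun g g' _ _ ⟨e, he, h⟩ ⟨e', he', h'⟩ => ⟨e + e', U.add_mem he he', R.res_add h h'⟩)
    (fun c g _ ⟨e, he, h⟩ => ?_) hg
  obtain ⟨a, rfl⟩ := hπ c
  exact ⟨(a : L) • e, U.smul_mem _ he, R.res_smul a h⟩

theorem card_le_finrank (hπ : Function.Surjective π) {U : Submodule L E} [FiniteDimensional L U]
    {ι : Type*} [Fintype ι] {v : ι → E} {w : ι → W} (hv : ∀ i, v i ∈ U)
    (hvw : ∀ i, R.Res (v i) (w i)) (hw : LinearIndependent k w) :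
    Fintype.card ι ≤ Module.finrank L U := by
  have h : LinearIndependent L fun i => (⟨v i, hv i⟩ : U) :=
    LinearIndependent.of_comp U.subtype (linearIndependent_of_res hπ hvw hw)
  exact h.fintype_card_le_finrank

variable (R) in
/-- Every finite-dimensional subspace has a basis with independent reductions. -/
def Orth : Prop :=
  ∀ U : Submodule L E, FiniteDimensional L U →
    ∃ (v : Fin (Module.finrank L U) → E) (w : Fin (Module.finrank L U) → W),
      (∀ i, v i ∈ U) ∧ (∀ i, R.Res (v i) (w i)) ∧ LinearIndependent k w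

section Orth

variable (hO : R.Orth) (hπ : Function.Surjective π)

include hπ in
theorem span_eq_of_card {U : Submodule L E} [FiniteDimensional L U] {ι : Type*} [Fintype ι]
    {v : ι → E} {w : ι → W} (hv : ∀ i, v i ∈ U) (hvw : ∀ i, R.Res (v i) (w i))
    (hw : LinearIndependent k w) (hc : Module.finrank L U = Fintype.card ι) :
    Submodule.span L (Set.range v) = U := by
  refine Submodule.eq_of_le_of_finrank_le
    (Submodule.span_le.2 (by rintro _ ⟨i, rfl⟩; exact hv i)) ?_
  rw [finrank_span_eq_card (linearIndependent_of_res hπ hvw hw), hc]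

include hO hπ

/-- An orthonormal basis. -/
theorem exists_basis (U : Submodule L E) [FiniteDimensional L U] :
    ∃ (v : Fin (Module.finrank L U) → E) (w : Fin (Module.finrank L U) → W),
      (∀ i, v i ∈ U) ∧ (∀ i, R.Res (v i) (w i)) ∧ LinearIndependent k w ∧
      Submodule.span L (Set.range v) = U ∧ R.image U = Submodule.span k (Set.range w) := by
  obtain ⟨v, w, hv, hvw, hw⟩ := hO U inferInstance
  have hsp := span_eq_of_card hπ hv hvw hw (Fintype.card_fin _).symm
  refine ⟨v, w, hv, hvw, hw, hsp, le_antisymm (image_le fun e g he h => ?_)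
    (Submodule.span_le.2 (by rintro _ ⟨i, rfl⟩; exact mem_image_of_res (hv i) (hvw i)))⟩
  obtain ⟨a, rfl⟩ := (Submodule.mem_span_range_iff_exists_fun L).1 (hsp ▸ he)
  obtain ⟨c, -, rfl⟩ := coord_res hπ hvw hw h
  exact Submodule.sum_mem _ fun i _ => Submodule.smul_mem _ _ (Submodule.subset_span ⟨i, rfl⟩)

theorem finrank_image (U : Submodule L E) [FiniteDimensional L U] :
    Module.finrank k (R.image U) = Module.finrank L U := by
  obtain ⟨v, w, -, -, hw, -, him⟩ := exists_basis hO hπ U
  rw [him, finrank_span_eq_card hw, Fintype.card_fin]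

theorem finiteDimensional_image (U : Submodule L E) [FiniteDimensional L U] :
    FiniteDimensional k (R.image U) := by
  obtain ⟨v, w, -, -, -, -, him⟩ := exists_basis hO hπ U
  rw [him]
  exact FiniteDimensional.span_of_finite k (Set.finite_range w)

/-- Every nonzero element has a multiple with nonzero reduction. -/
theorem exists_scale {e : E} (he : e ≠ 0) : ∃ (c : L) (g : W), g ≠ 0 ∧ R.Res (c • e) g := by
  obtain ⟨v, w, hv, hvw, hw, -, -⟩ := exists_basis hO hπ (L ∙ e)
  have h1 : Module.finrank L (L ∙ e) = 1 := finrank_span_singleton he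
  let i : Fin (Module.finrank L (L ∙ e)) := ⟨0, by omega⟩
  obtain ⟨c, hc⟩ := Submodule.mem_span_singleton.1 (hv i)
  exact ⟨c, w i, hw.ne_zero i, by rw [hc]; exact hvw i⟩

/-- An element reducing to zero is small. -/
theorem exists_small {e : E} (h : R.Res e 0) {t₀ : A} (ht₀ : π t₀ = 0) (ht₀' : (t₀ : L) ≠ 0) :
    ∃ t : A, π t = 0 ∧ (t : L) ≠ 0 ∧ R.Small (t : L) e := by
  rcases eq_or_ne e 0 with rfl | he
  · exact ⟨t₀, ht₀, ht₀', 0, ⟨0, R.res_zero⟩, (smul_zero _).symm⟩
  obtain ⟨c, g, hg, hc⟩ := exists_scale hO hπ he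
  have hcA : c ∉ A := fun hcA => hg (R.unique hc (by simpa using R.res_smul ⟨c, hcA⟩ h))
  have hc0 : c ≠ 0 := fun h0 => hcA (h0 ▸ A.zero_mem)
  refine ⟨⟨c⁻¹, (A.mem_or_inv_mem c).resolve_left hcA⟩,
    Reduction.map_eq_zero_of_inv_notMem hπ (by simpa using hcA), inv_ne_zero hc0,
    c • e, ⟨g, hc⟩, ?_⟩
  rw [smul_smul, inv_mul_cancel₀ hc0, one_smul]

/-- Truncation: modulo `t`, a congruence into a space whose reduction meets that of `U'` only in
that of `U` pushes elements of `U'` into `U`. -/
theorem truncate {U U' T : Submodule L E} [FiniteDimensional L U'] [FiniteDimensional L T]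
    (hUU' : U ≤ U') (hUT : U ≤ T) (hcap : R.image U' ⊓ R.image T ≤ R.image U)
    {e e' : E} (he : e ∈ U') (he' : e' ∈ T) {t : L} (ht : t ≠ 0) (h : R.Small t (e - e')) :
    ∃ a ∈ U, R.Small t (e - a) := by
  classical
  haveI : FiniteDimensional L U := Submodule.finiteDimensional_of_le hUU'
  haveI := finiteDimensional_image hO hπ U
  haveI := finiteDimensional_image hO hπ U'
  obtain ⟨v₁, w₁, hv₁, hvw₁, hw₁, hsp₁, him₁⟩ := exists_basis hO hπ U
  obtain ⟨z, zb, hz, hzw, hzb, hspz, himz⟩ := exists_basis hO hπ T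
  obtain ⟨Q, hQ⟩ := exists_isCompl (R.image U)
  set C : Submodule k W := Q ⊓ R.image U'
  haveI : FiniteDimensional k C := Submodule.finiteDimensional_of_le inf_le_right
  let b := Module.finBasis k C
  choose v₂ hv₂ hvw₂ using fun i => (mem_image hπ).1 (b i).2.2
  have hdisj : Disjoint (R.image U) C := hQ.disjoint.mono_right inf_le_left
  have hsup : R.image U ⊔ C = R.image U' := by
    rw [← sup_inf_assoc_of_le Q (image_mono hUU'), hQ.sup_eq_top, top_inf_eq]
  have hbind : LinearIndependent k fun i => (b i : W) :=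
    b.linearIndependent.map' C.subtype (Submodule.ker_subtype _)
  have hind₁ : LinearIndependent k (Sum.elim w₁ fun i => (b i : W)) := by
    refine hw₁.sum_type hbind ?_
    rw [← him₁]
    exact hdisj.mono_right (Submodule.span_le.2 (by rintro _ ⟨i, rfl⟩; exact (b i).2))
  have hvw12 : ∀ i, R.Res (Sum.elim v₁ v₂ i) (Sum.elim w₁ (fun i => (b i : W)) i) := by
    rintro (i | i)
    exacts [hvw₁ i, hvw₂ i]
  have hspan : Submodule.span L (Set.range (Sum.elim v₁ v₂)) = U' := by
    refine span_eq_of_card hπ (fun i => ?_) hvw12 hind₁ ?_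
    · rcases i with i | i
      exacts [hUU' (hv₁ i), hv₂ i]
    · have := Submodule.finrank_sup_add_finrank_inf_eq (R.image U) C
      rw [hsup, hdisj.eq_bot, finrank_bot, finrank_image hO hπ, finrank_image hO hπ] at this
      simp only [Fintype.card_sum, Fintype.card_fin]
      omega
  rw [← hspan, Set.Sum.elim_range, Submodule.span_union, hsp₁] at he
  obtain ⟨a, ha, h₂, hh₂, rfl⟩ := Submodule.mem_sup.1 he
  obtain ⟨c, rfl⟩ := (Submodule.mem_span_range_iff_exists_fun L).1 hh₂
  obtain ⟨d, hd⟩ := (Submodule.mem_span_range_iff_exists_fun L).1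
    (hspz.symm ▸ T.sub_mem (hUT ha) he' : a - e' ∈ Submodule.span L (Set.range z))
  have hind : LinearIndependent k (Sum.elim (fun i => (b i : W)) zb) := by
    refine hbind.sum_type hzb ?_
    rw [← himz]
    refine Disjoint.mono_left (Submodule.span_le.2 (by rintro _ ⟨i, rfl⟩; exact (b i).2)) ?_
    exact disjoint_iff_inf_le.2 fun x ⟨hxC, hxT⟩ =>
      hdisj.le_bot ⟨hcap ⟨hxC.2, hxT⟩, hxC⟩
  have hvw : ∀ i, R.Res (Sum.elim v₂ z i) (Sum.elim (fun i => (b i : W)) zb i) := by
    rintro (i | i)
    exacts [hvw₂ i, hzw i]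
  obtain ⟨y, hy, hty⟩ := h
  have hsum : ∑ i, (t⁻¹ * Sum.elim c d i) • Sum.elim v₂ z i = y := by
    simp only [mul_smul, ← Finset.smul_sum, Fintype.sum_sum_type, Sum.elim_inl, Sum.elim_inr]
    rw [hd, show ∑ i, c i • v₂ i + (a - e') = a + ∑ i, c i • v₂ i - e' by abel, hty, smul_smul,
      inv_mul_cancel₀ ht, one_smul]
  have hmem : ∀ i, t⁻¹ * c i ∈ A := fun i => coord_mem hπ hvw hind
    (a := fun i => t⁻¹ * Sum.elim c d i) (by rw [hsum]; exact hy) (Sum.inl i)
  refine ⟨a, ha, ∑ i, (t⁻¹ * c i) • v₂ i,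
    ⟨_, res_comb (fun i _ => hvw₂ i) fun i => ⟨t⁻¹ * c i, hmem i⟩⟩, ?_⟩
  rw [add_sub_cancel_left, Finset.smul_sum]
  exact Finset.sum_congr rfl fun i _ => by rw [smul_smul, ← mul_assoc, mul_inv_cancel₀ ht, one_mul]

/-- A functional on a finite-dimensional subspace is bounded. -/
theorem exists_bound {U : Submodule L E} [FiniteDimensional L U] (φ : E →ₗ[L] L) :
    ∃ s : L, s ≠ 0 ∧ ∀ y ∈ U, R.Integral y → s * φ y ∈ A := by
  classical
  obtain ⟨v, w, -, hvw, hw, hsp, -⟩ := exists_basis hO hπ U
  obtain ⟨s, j, hs, hj⟩ := (Reduction.base_total hπ).exists_scale_family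
    (c := Sum.elim (fun _ : Unit => (1 : L)) fun i => φ (v i))
    (fun h => one_ne_zero (congrFun h (Sum.inl ())))
  refine ⟨s, left_ne_zero_of_mul_eq_one hj, fun y hy hint => ?_⟩
  obtain ⟨a, rfl⟩ := (Submodule.mem_span_range_iff_exists_fun L).1 (hsp ▸ hy)
  rw [map_sum, Finset.mul_sum]
  refine sum_mem fun i _ => ?_
  rw [map_smul, smul_eq_mul, mul_left_comm]
  exact mul_mem (coord_mem hπ hvw hw hint i) (hs (Sum.inr i))

end Orth

/-- A subspace of the span of a family with independent reductions has an orthonormal basis. -/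
theorem exists_orth_of_le (hπ : Function.Surjective π) {ι : Type*} [Fintype ι] {v : ι → E}
    {w : ι → W} (hvw : ∀ i, R.Res (v i) (w i)) (hw : LinearIndependent k w) {U : Submodule L E}
    (hU : U ≤ Submodule.span L (Set.range v)) :
    ∃ (u : Fin (Module.finrank L U) → E) (z : Fin (Module.finrank L U) → W),
      (∀ i, u i ∈ U) ∧ (∀ i, R.Res (u i) (z i)) ∧ LinearIndependent k z := by
  classical
  have hv := linearIndependent_of_res hπ hvw hw
  set Φ := Fintype.linearCombination L v
  have hΦ : Function.Injective Φ := linearIndependent_iff_injective_fintypeLinearCombination.1 hv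
  have hn : Module.finrank L (U.comap Φ) = Module.finrank L U := by
    rw [(Submodule.equivMapOfInjective _ hΦ (U.comap Φ)).finrank_eq, Submodule.map_comap_eq,
      inf_eq_right.2 (by rwa [Fintype.range_linearCombination])]
  obtain ⟨u, hu, hind⟩ := exists_primitive_family hπ (U.comap Φ)
  refine ⟨fun i => Φ fun j => (u (Fin.cast hn.symm i) j : L),
    fun i => ∑ j, π (u (Fin.cast hn.symm i) j) • w j, fun i => hu _, fun i => ?_, ?_⟩
  · simp only [Φ, Fintype.linearCombination_apply]
    exact res_comb (fun j _ => hvw j) _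
  · exact (hind.map' (Fintype.linearCombination k w) (LinearMap.ker_eq_bot.2
      (linearIndependent_iff_injective_fintypeLinearCombination.1 hw))).comp _
      (Fin.cast_injective _)

end LRed

end FLTAgent.BadRed
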