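import Fermat.Agent.ModEq.Bar
import Fermat.Agent.ModEq.Triples

/-!
# The degree in `X` of the coefficients of the modular polynomial of prime level
-/

set_option autoImplicit false

set_option linter.style.haveILetI false

noncomputable section

namespace FLTAgent.BadRed

open ModularCurve FLTAgent.ModEq Polynomial

local notation "LL" => AlgebraicClosure ℚ

theorem geOrd_coeff_prod {K ι : Type*} [CommRing K] (s : Finset ι) (r : ι → LaurentSeries K)
    {c : ℕ} (hr : ∀ t ∈ s, GeOrd (r t) (-(c : ℤ))) (i : ℕ) :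
    GeOrd ((∏ t ∈ s, (X - C (r t))).coeff i) (-((c : ℤ) * (s.card - i : ℕ))) := by
  classical
  induction s using Finset.induction generalizing i with
  | empty =>
    rw [Finset.prod_empty, coeff_one]
    split_ifs
    · exact geOrd_one.mono (by simp)
    · exact geOrd_zero _
  | @insert t s ht ih =>
    rw [Finset.prod_insert ht, Finset.card_insert_of_notMem ht]
    have hr' : ∀ u ∈ s, GeOrd (r u) (-(c : ℤ)) := fun u hu => hr u (Finset.mem_insert_of_mem hu)
    have hneg : ∀ {f : LaurentSeries K} {a : ℤ}, GeOrd f a → GeOrd (-f) a := fun h k hk => by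
      simp [h k hk]
    have h2 : ∀ j, GeOrd (-(r t * (∏ u ∈ s, (X - C (r u))).coeff j))
        (-((c : ℤ) * (s.card + 1 - j : ℕ))) := fun j => by
      rcases le_or_gt j s.card with hj | hj
      · refine hneg (((hr t (Finset.mem_insert_self t s)).mul (ih hr' j)).mono ?_)
        rw [show s.card + 1 - j = s.card - j + 1 by omega, Nat.cast_add, Nat.cast_one, mul_add,
          mul_one, neg_add, add_comm]
      · have hd : (∏ u ∈ s, (X - C (r u))).natDegree ≤ s.card :=
          (natDegree_prod_le _ _).trans (by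
            refine le_trans (Finset.sum_le_sum fun u _ => natDegree_X_sub_C_le (r u)) ?_
            simp)
        rw [coeff_eq_zero_of_natDegree_lt (by omega), mul_zero, neg_zero]
        exact geOrd_zero _
    cases i with
    | zero =>
      rw [sub_mul, coeff_sub, coeff_X_mul_zero, coeff_C_mul, zero_sub]
      exact h2 0
    | succ j =>
      rw [sub_mul, coeff_sub, coeff_X_mul, coeff_C_mul, sub_eq_add_neg]
      refine GeOrd.add ?_ (h2 (j + 1))
      rw [show s.card + 1 - (j + 1) = s.card - j by omega]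
      exact ih hr' j

variable {q : ℕ} [Fact q.Prime] [NeZero q]

theorem card_primTriples_prime (P : ModularPolynomialData q) (ζ : LLˣ) (hζ : IsPrimitiveRoot ζ q) :
    (primTriples q).card = q + 1 := by
  have h := congrArg natDegree (map_evalAt_modularPolynomial hζ dvd_rfl P)
  rw [P.monic.natDegree_map, P.natDegree_eq, natDegree_prod_of_monic _ _ fun t _ => monic_X_sub_C _]
    at h
  simp only [natDegree_X_sub_C, Finset.sum_const, smul_eq_mul, mul_one] at h
  have h1 : ¬ q ∣ 1 := fun hd => (Fact.out : q.Prime).ne_one (Nat.dvd_one.1 hd)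
  have h2 := ModEq.dedekindPsi_mul_prime_of_not_dvd (Fact.out : q.Prime) h1
  have h3 : dedekindPsi 1 = 1 := by simp [dedekindPsi, Finset.filter_singleton]
  rw [one_mul, h3, mul_one] at h2
  rw [← h, h2]

/-- The coefficient of `Y ^ i` in `Φ_q(X, Y)` has `X`-degree at most `q (q + 1 - i)`. -/
theorem natDegree_coeff_le (P : ModularPolynomialData q) (i : ℕ) :
    (P.Φ.coeff i).natDegree ≤ q * (q + 1 - i) := by
  have hq : q.Prime := Fact.out
  rcases eq_or_ne (P.Φ.coeff i) 0 with h0 | h0
  · simp [h0]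
  obtain ⟨ζ, hζ⟩ := exists_isPrimitiveRoot_units (K := LL) q (Nat.cast_ne_zero.2 hq.ne_zero)
  have hroot : ∀ t ∈ primTriples q, GeOrd (tSer ζ q t) (-((q * q : ℕ) : ℤ)) := by
    rintro ⟨a, b, d⟩ ht
    have hp := mem_primTriples.1 ht
    rw [tSer_def]
    have ha : a ∣ q := ⟨d, hp.1.symm⟩
    have hd : d ∣ q := ⟨a, by rw [← hp.1, mul_comm]⟩
    haveI : NeZero (a * (q / d)) := ⟨Nat.mul_ne_zero hp.pos.1.ne'
      (Nat.div_pos (Nat.le_of_dvd hq.pos hd) hp.pos.2).ne'⟩
    refine (geOrd_jAt _ _).mono ?_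
    rw [neg_le_neg_iff, Int.ofNat_le]
    exact Nat.mul_le_mul (Nat.le_of_dvd hq.pos ha) (Nat.div_le_self q d)
  have hb := geOrd_coeff_prod (primTriples q) (tSer ζ q) hroot i
  rw [← map_evalAt_modularPolynomial hζ dvd_rfl P, coeff_map, card_primTriples_prime P ζ hζ] at hb
  have hc := eval_jAt_coeff (HahnSeries.C.comp (Int.castRingHom LL)) (fun c => geOrd_C _)
    (P.Φ.coeff i) (1 : LLˣ) q
  have he : evalAt (jAt (1 : LLˣ) q) (P.Φ.coeff i) =
      (P.Φ.coeff i).eval₂ (HahnSeries.C.comp (Int.castRingHom LL)) (jAt (1 : LLˣ) q) := by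
    rw [evalAt_apply]
    congr 1
  by_contra hlt
  rw [← he, hb _ (neg_lt_neg (by
    rw [← Nat.cast_mul, ← Nat.cast_mul, Int.ofNat_lt]
    nlinarith [not_le.1 hlt, hq.pos]))] at hc
  rw [RingHom.comp_apply, HahnSeries.C_apply, HahnSeries.coeff_single_same] at hc
  simp only [inv_one, one_pow, Units.val_one, mul_one] at hc
  exact h0 (leadingCoeff_eq_zero.1 (Int.cast_eq_zero.1 hc.symm))

end FLTAgent.BadRed
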