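import Fermat.Agent.BadRed.Integral
import Fermat.Agent.Specialization.Divisors

/-!
# Spaces `L(m · poles)`: bounds and leading parts
-/

set_option autoImplicit false
set_option linter.unusedSectionVars false
set_option linter.style.haveILetI false

noncomputable section

namespace FLTAgent.BadRed

open AlgebraicCurve FLTAgent.Curves FLTAgent.Specialization Polynomial IntermediateField

variable {K F : Type*} [Field K] [Field F] [Algebra K F] [IsAlgClosed K] [IsFunctionField K F]
  {x : F} (hx : Transcendental K x)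

theorem poles_mono {m m' : ℕ} (h : m ≤ m') :
    riemannRochSpace ((m : ℤ) • poleDiv K x) ≤ riemannRochSpace ((m' : ℤ) • poleDiv K x) := by
  refine rrSpace_le fun v => ?_
  simp only [Finsupp.smul_apply, smul_eq_mul]
  exact mul_le_mul_of_nonneg_right (by exact_mod_cast h) (poleDiv_nonneg x v)

theorem exists_mem_poles {f : F} (hf : IntegralWrt K x f) :
    ∃ m : ℕ, f ∈ riemannRochSpace ((m : ℤ) • poleDiv K x) := by
  refine ⟨∑ v ∈ (finite_poles (K := K) f).toFinset, (v.ord f).natAbs,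
    mem_rrSpace_poles.2 ⟨hf, fun v hv => ?_⟩⟩
  by_cases h : v.ord f < 0
  · refine ordGE_of_le ?_
    have h1 : (v.ord f).natAbs ≤ ∑ w ∈ (finite_poles (K := K) f).toFinset, (w.ord f).natAbs :=
      Finset.single_le_sum (f := fun w : Place K F => (w.ord f).natAbs) (fun _ _ => Nat.zero_le _)
        (by simpa using h)
    have h2 : ((v.ord f).natAbs : ℤ) ≤
        ((∑ w ∈ (finite_poles (K := K) f).toFinset, (w.ord f).natAbs : ℕ) : ℤ) := by
      exact_mod_cast h1
    nlinarith [Int.ofNat_natAbs_of_nonpos h.le]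
  · refine ordGE_of_le ?_
    nlinarith [Int.natCast_nonneg (∑ w ∈ (finite_poles (K := K) f).toFinset, (w.ord f).natAbs)]

include hx

theorem degree_poles_eq (m : ℕ) :
    Divisor.degree ((m : ℤ) • poleDiv K x) = (m : ℤ) * Module.finrank K⟮x⟯ F := by
  rw [map_zsmul, degree_poleDiv hx, smul_eq_mul]

theorem finrank_pos' : 0 < Module.finrank K⟮x⟯ F := by
  haveI := finiteDimensional_adjoin (K := K) hx
  exact Module.finrank_pos

theorem le_degree_poles {m : ℕ} {c : ℤ} (h : c ≤ m) :
    c ≤ Divisor.degree ((m : ℤ) • poleDiv K x) := by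
  rw [degree_poles_eq hx]
  have := finrank_pos' (K := K) hx
  nlinarith

theorem ell_poles {m : ℕ} (h : rBound K F ≤ m) :
    (Module.finrank K (riemannRochSpace ((m : ℤ) • poleDiv K x)) : ℤ) =
      (m : ℤ) * Module.finrank K⟮x⟯ F + 1 - rGenus K F := by
  have h1 := ell_eq (K := K) (F := F) (G := (m : ℤ) • poleDiv K x) (le_degree_poles hx h)
  rw [degree_poles_eq hx] at h1
  exact h1

/-- Leading parts: multiples of `x ^ a` and functions with smaller poles fill `L(m · poles)`. -/
theorem poles_le_sup {M n d : ℕ} (hd : d ≤ n) (hn : rBound K F ≤ ((n - d : ℕ) : ℤ)) :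
    riemannRochSpace (((M + n : ℕ) : ℤ) • poleDiv K x) ≤
      (riemannRochSpace ((n : ℤ) • poleDiv K x)).map (LinearMap.mulLeft K (x ^ M)) ⊔
        riemannRochSpace (((M + n - d : ℕ) : ℤ) • poleDiv K x) := by
  have hx0 : x ^ M ≠ 0 := pow_ne_zero _ (ne_zero_of_transcendental hx)
  set S₁ := (riemannRochSpace ((n : ℤ) • poleDiv K x)).map (LinearMap.mulLeft K (x ^ M))
  set S₂ := riemannRochSpace (((M + n - d : ℕ) : ℤ) • poleDiv K x)
  have h1 : S₁ ≤ riemannRochSpace (((M + n : ℕ) : ℤ) • poleDiv K x) := by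
    rintro _ ⟨φ, hφ, rfl⟩
    obtain ⟨hφ1, hφ2⟩ := mem_rrSpace_poles.1 hφ
    refine mem_rrSpace_poles.2 ⟨integralWrt_mul (integralWrt_pow (integralWrt_self x) M) hφ1,
      fun v hv => ?_⟩
    refine ((ordGE_ord v (x ^ M)).mul (hφ2 v hv)).mono ?_
    rw [ord_pow]; push_cast; ring_nf; rfl
  have h2 : S₂ ≤ riemannRochSpace (((M + n : ℕ) : ℤ) • poleDiv K x) := poles_mono (by omega)
  have hinf : S₁ ⊓ S₂ ≤
      (riemannRochSpace (((n - d : ℕ) : ℤ) • poleDiv K x)).map (LinearMap.mulLeft K (x ^ M)) := by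
    rintro _ ⟨⟨φ, hφ, rfl⟩, hf⟩
    refine ⟨φ, mem_rrSpace_poles.2 ⟨(mem_rrSpace_poles.1 hφ).1, fun v hv => ?_⟩, rfl⟩
    have h3 := (ordGE_ord v (x ^ M)⁻¹).mul ((mem_rrSpace_poles.1 hf).2 v hv)
    rw [LinearMap.mulLeft_apply, inv_mul_cancel_left₀ hx0, v.ord_inv, ord_pow] at h3
    refine h3.mono (le_of_eq ?_)
    rw [show M + n - d = M + (n - d) by omega]
    push_cast; ring
  have hinj : Function.Injective (LinearMap.mulLeft K (x ^ M)) := mul_right_injective₀ hx0
  have hsum := Submodule.finrank_sup_add_finrank_inf_eq S₁ S₂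
  have hle := Submodule.finrank_mono hinf
  rw [← (Submodule.equivMapOfInjective _ hinj _).finrank_eq] at hle
  have hS₁ : Module.finrank K S₁ = Module.finrank K (riemannRochSpace ((n : ℤ) • poleDiv K x)) :=
    (Submodule.equivMapOfInjective _ hinj _).finrank_eq.symm
  refine (Submodule.eq_of_le_of_finrank_le (sup_le h1 h2) ?_).ge
  have e1 := ell_poles (K := K) hx (m := n) (by omega)
  have e2 := ell_poles (K := K) hx (m := M + n - d) (by omega)
  have e3 := ell_poles (K := K) hx (m := n - d) hn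
  have e4 := ell_poles (K := K) hx (m := M + n) (by omega)
  rw [← Nat.cast_le (α := ℤ)]
  have e5 : (Module.finrank K ↥(S₁ ⊔ S₂) : ℤ) + Module.finrank K ↥(S₁ ⊓ S₂) =
      Module.finrank K S₁ + Module.finrank K S₂ := by exact_mod_cast hsum
  have e6 : ((M + n - d : ℕ) : ℤ) = (M : ℤ) + n - d := by omega
  have e7 : ((n - d : ℕ) : ℤ) = (n : ℤ) - d := by omega
  replace e2 := e2.trans (show _ = ((M : ℤ) + n - d) * Module.finrank K⟮x⟯ F + 1 - rGenus K F by
    rw [e6])
  replace e3 := e3.trans (show _ = ((n : ℤ) - d) * Module.finrank K⟮x⟯ F + 1 - rGenus K F by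
    rw [e7])
  replace e4 := e4.trans (show _ = ((M : ℤ) + n) * Module.finrank K⟮x⟯ F + 1 - rGenus K F by
    rw [Nat.cast_add])
  have hle' : (Module.finrank K ↥(S₁ ⊓ S₂) : ℤ) ≤
      Module.finrank K (riemannRochSpace (((n - d : ℕ) : ℤ) • poleDiv K x)) := by
    exact_mod_cast hle
  rw [hS₁] at e5
  simp only [S₂] at e5 hle' ⊢
  linarith

end FLTAgent.BadRed
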