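import Fermat.Agent.BadRed.Sheet
import Fermat.Agent.BadRed.Poles

/-!
# The reductions of integral functions fill the leading parts on both sheets
-/

set_option autoImplicit false
set_option linter.style.haveILetI false
set_option linter.unusedSectionVars false

noncomputable section

namespace FLTAgent.BadRed

open AlgebraicCurve FLTAgent.Curves FLTAgent.Specialization Polynomial IntermediateField

variable {L k : Type*} [Field L] [Field k] {A : ValuationSubring L} {π : A →+* k}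
  {FC Fb F : Type*} [Field FC] [Field Fb] [Field F] [Algebra L FC]
  [Algebra k Fb] [Algebra L F] [IsAlgClosed L] [IsFunctionField L FC] [IsFunctionField L F]
  [IsAlgClosed k] [IsFunctionField k Fb] {q : ℕ}

namespace Sheet

variable (S : Sheet π FC Fb F q)

/-- What is needed at the cusps and from the model below. -/
structure Good : Prop where
  smooth : S.MC.Smooth
  β_int : IntegralWrt L S.X (S.β S.MC.x)
  β_le : InftyBound L S.X q (S.β S.MC.x)
  β_pole : ∀ v : Place L F, v.ord S.X < 0 → v.ord (S.β S.MC.x) < 0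
  exists_poly : ∃ p : A[X], p.Monic ∧ 0 < p.natDegree ∧
    IntegralWrt L S.X (aeval S.X (p.map A.subtype) / S.β S.MC.x)
  exists_root : ∀ φ, ∃ ψ, S.V φ = ψ ^ q

/-- The target of the reductions of `L(m · poles)`. -/
def targ (m : ℕ) : Submodule k (Fb × Fb) :=
  (riemannRochSpace ((m : ℤ) • poleDiv k S.MC.xb)).prod
    (riemannRochSpace (((q * m : ℕ) : ℤ) • poleDiv k S.MC.xb))

/-- The reductions of `L(m · poles)`. -/
def rimg (m : ℕ) : Submodule k (Fb × Fb) :=
  (S.pair 1).image (riemannRochSpace ((m : ℤ) • poleDiv L S.X))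

theorem rimg_le_targ (m : ℕ) : S.rimg m ≤ S.targ m :=
  LRed.image_le fun _ _ hf h => S.res_mem_poles hf h

theorem rimg_mono {m m' : ℕ} (h : m ≤ m') : S.rimg m ≤ S.rimg m' :=
  LRed.image_mono (poles_mono h)

theorem targ_mono {m m' : ℕ} (h : m ≤ m') : S.targ m ≤ S.targ m' :=
  Submodule.prod_mono (poles_mono h) (poles_mono (Nat.mul_le_mul_left q h))

theorem rimg_mul {a b : ℕ} {g g' : Fb × Fb} (hg : g ∈ S.rimg a) (hg' : g' ∈ S.rimg b) :
    g * g' ∈ S.rimg (a + b) := by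
  obtain ⟨f, hf, h⟩ := (LRed.mem_image S.MC.surj).1 hg
  obtain ⟨f', hf', h'⟩ := (LRed.mem_image S.MC.surj).1 hg'
  refine LRed.mem_image_of_res ?_ (show (S.pair 1).Res (f * f') (g * g') by
    simpa using S.pair_mul h h')
  have := mem_rrSpace_mul hf hf'
  rw [← add_smul] at this
  exact_mod_cast this

theorem α_mem_poles {f : FC} {m : ℕ}
    (hf : f ∈ riemannRochSpace ((m : ℤ) • poleDiv L S.MC.x)) :
    S.α f ∈ riemannRochSpace ((m : ℤ) • poleDiv L S.X) := by
  have hx := S.MC.transcendental_x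
  rw [mem_poles_iff (ne_zero_of_transcendental hx)] at hf
  rw [mem_poles_iff (ne_zero_of_transcendental S.transcendental_X)]
  refine ⟨integralWrt_map S.α hx hf.1, ?_⟩
  have h := integralWrt_map S.α (transcendental_inv hx) hf.2
  simpa [Sheet.X] using h

variable {S} (hS : S.Good)
include hS

theorem Good.β_ord {f : FC} {m : ℕ} (hf : f ∈ riemannRochSpace ((m : ℤ) • poleDiv L S.MC.x))
    {v : Place L F} (hv : v.ord S.X < 0) :
    OrdGE v ((m : ℤ) * v.ord (S.β S.MC.x)) (S.β f) := by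
  have hx := S.MC.transcendental_x
  have hx0 := ne_zero_of_transcendental hx
  rw [mem_poles_iff hx0] at hf
  have h := integralWrt_map S.β (transcendental_inv hx) hf.2
  rw [map_inv₀, map_mul, map_pow, map_inv₀,
    integralWrt_inv_iff ((map_ne_zero S.β).2 hx0)] at h
  exact h v (hS.β_pole v hv).le

theorem Good.β_mem_poles {f : FC} {m : ℕ}
    (hf : f ∈ riemannRochSpace ((m : ℤ) • poleDiv L S.MC.x)) :
    S.β f ∈ riemannRochSpace (((q * m : ℕ) : ℤ) • poleDiv L S.X) := by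
  rw [mem_rrSpace_poles]
  refine ⟨integralWrt_trans hS.β_int (integralWrt_map S.β S.MC.transcendental_x
    (mem_rrSpace_poles.1 hf).1), fun v hv => (hS.β_ord hf hv).mono ?_⟩
  have h := (hS.β_le v hv).le_ord ((map_ne_zero S.β).2
    (ne_zero_of_transcendental S.MC.transcendental_x))
  push_cast
  nlinarith [Int.natCast_nonneg m]

/-- Functions on the curve below give elements on both sheets. -/
theorem Good.exists_lift : ∃ m₀ : ℕ, ∀ (m : ℕ), m₀ ≤ m → ∀ g : Fb,
    g ∈ riemannRochSpace ((m : ℤ) • poleDiv k S.MC.xb) →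
      (g, S.V g) ∈ S.rimg m ∧ (S.V g, g) ∈ S.rimg (q * m) := by
  obtain ⟨m₀, h⟩ := hS.smooth.image_poles
  refine ⟨m₀, fun m hm g hg => ?_⟩
  rw [← h m hm] at hg
  obtain ⟨f, hf, hr⟩ := (Reduction.mem_image S.MC.surj).1 hg
  exact ⟨LRed.mem_image_of_res (S.α_mem_poles hf) (S.pair_α hr),
    LRed.mem_image_of_res (hS.β_mem_poles hf) (S.pair_β hr)⟩

/-- Leading parts on the first sheet. -/
theorem Good.fill_fst : ∃ m₁ : ℕ, ∀ m : ℕ, m₁ ≤ m → ∀ a : Fb,
    a ∈ riemannRochSpace ((m : ℤ) • poleDiv k S.MC.xb) →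
      (a, (0 : Fb)) ∈ S.rimg m ⊔ S.targ (m - 1) := by
  obtain ⟨m₀, hlift⟩ := hS.exists_lift
  have hxC := S.MC.transcendental_x
  have hxb : (S.MC.xb : Fb) ∈ riemannRochSpace (((1 : ℕ) : ℤ) • poleDiv k S.MC.xb) :=
    mem_rrSpace_poles.2 ⟨integralWrt_self _, fun v _ => ordGE_of_le (by simp)⟩
  have hx : S.MC.x ∈ riemannRochSpace (((1 : ℕ) : ℤ) • poleDiv L S.MC.x) :=
    mem_rrSpace_poles.2 ⟨integralWrt_self _, fun v _ => ordGE_of_le (by simp)⟩
  refine ⟨q + m₀ + (rBound k Fb).toNat + 2, fun m hm a ha => ?_⟩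
  obtain ⟨n, rfl⟩ := Nat.exists_eq_add_of_le (show q ≤ m by omega)
  obtain ⟨_, ⟨φ, hφ, rfl⟩, low, hlow, rfl⟩ := Submodule.mem_sup.1
    (poles_le_sup (K := k) S.MC.transcendental (M := q) (n := n) (d := 1) (by omega)
      (by have := Int.self_le_toNat (rBound k Fb); omega) ha)
  rw [LinearMap.mulLeft_apply]
  have hb : (S.V S.MC.xb, S.MC.xb) ∈ S.rimg (q * 1) :=
    LRed.mem_image_of_res (hS.β_mem_poles hx) (S.pair_β S.MC.x_res)
  have hp := S.rimg_mul hb (hlift n (by omega) φ hφ).1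
  rw [Prod.mk_mul_mk, mul_one, S.V_xb] at hp
  have hV := (S.rimg_le_targ n (hlift n (by omega) φ hφ).1).2
  have hlow2 : S.MC.xb * S.V φ ∈
      riemannRochSpace (((q * (q + n - 1) : ℕ) : ℤ) • poleDiv k S.MC.xb) := by
    have := mem_rrSpace_mul hxb hV
    rw [← add_smul] at this
    refine poles_mono (K := k) (m := 1 + q * n) ?_ (by exact_mod_cast this)
    have hq := S.one_lt
    have h1 : q + n - 1 = (q - 1) + n := by omega
    rw [h1, Nat.mul_add]
    have : 1 ≤ q * (q - 1) := Nat.one_le_iff_ne_zero.2 (Nat.mul_ne_zero (by omega) (by omega))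
    omega
  refine Submodule.mem_sup.2 ⟨_, hp, (low, -(S.MC.xb * S.V φ)),
    ⟨hlow, neg_mem hlow2⟩, Prod.ext rfl (by simp)⟩

/-- Leading parts on both sheets. -/
theorem Good.fill : ∃ m₁ : ℕ, ∀ m : ℕ, m₁ ≤ m →
    S.targ m ≤ S.rimg m ⊔ S.targ (m - 1) := by
  obtain ⟨m₀, hlift⟩ := hS.smooth.image_poles
  obtain ⟨m₁, hfst⟩ := hS.fill_fst
  obtain ⟨p, hpm, hpd, hpint⟩ := hS.exists_poly
  set d := p.natDegree
  set k₀ := m₀ + q + (rBound k Fb).toNat + 1 with hk₀
  refine ⟨max m₁ (d * k₀ + k₀ + 1), fun m hm => ?_⟩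
  obtain ⟨a₀, ha₀⟩ := Nat.exists_eq_add_of_le (show d * k₀ ≤ m by omega)
  have hq := S.one_lt
  have hk₀le : k₀ ≤ q * m := by nlinarith [le_max_right m₁ (d * k₀ + k₀ + 1)]
  obtain ⟨M, hM⟩ := Nat.exists_eq_add_of_le hk₀le
  rintro ⟨a, b⟩ ⟨ha, hb⟩
  simp only at ha hb
  rw [hM, add_comm] at hb
  obtain ⟨_, ⟨ψ, hψ, rfl⟩, low, hlow, rfl⟩ := Submodule.mem_sup.1
    (poles_le_sup (K := k) S.MC.transcendental (M := M) (n := k₀) (d := q) (by omega)
      (by have := Int.self_le_toNat (rBound k Fb); omega) hb)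
  rw [LinearMap.mulLeft_apply]
  obtain ⟨f, hf, hr⟩ := (Reduction.mem_image S.MC.surj).1
    ((hlift k₀ (by omega)).symm ▸ hψ :
      ψ ∈ S.MC.image (riemannRochSpace ((k₀ : ℤ) • poleDiv L S.MC.x)))
  set P : F := aeval S.X (p.map A.subtype)
  set pb := p.map π
  have hP1 : S.R₁.Res P (aeval S.MC.xb pb) := Reduction.res_aeval S.pair_X.1 p
  have hP2 : S.R₂.Res P (aeval (S.MC.xb ^ q) pb) :=
    Reduction.res_aeval (by simpa using S.pair_X.2) p
  have hβ := S.pair_β S.MC.x_res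
  rw [S.V_xb, pair_res, one_smul] at hβ
  have hK : (S.pair 1).Res (P / S.β S.MC.x)
      (aeval S.MC.xb pb / S.MC.xb ^ q, aeval (S.MC.xb ^ q) pb / S.MC.xb) :=
    ⟨hP1.div hβ.1 (pow_ne_zero _ S.xb_ne_zero),
      by rw [one_smul]; exact hP2.div hβ.2 S.xb_ne_zero⟩
  set J := S.X ^ a₀ * ((P / S.β S.MC.x) ^ k₀ * S.β f)
  set g : Fb × Fb := (S.MC.xb, S.MC.xb ^ q) ^ a₀ *
    ((aeval S.MC.xb pb / S.MC.xb ^ q, aeval (S.MC.xb ^ q) pb / S.MC.xb) ^ k₀ * (S.V ψ, ψ))
  have hJg : (S.pair 1).Res J g := by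
    have := S.pair_mul (S.pair_pow S.pair_X a₀)
      (S.pair_mul (S.pair_pow hK k₀) (S.pair_β hr))
    rwa [one_pow, one_pow, one_mul, one_mul] at this
  have hpA : (p.map A.subtype).Monic := hpm.map _
  have hβx0 : S.β S.MC.x ≠ 0 := (map_ne_zero S.β).2
    (ne_zero_of_transcendental S.MC.transcendental_x)
  have hJ : J ∈ riemannRochSpace ((m : ℤ) • poleDiv L S.X) := by
    refine mem_rrSpace_poles.2 ⟨integralWrt_mul (integralWrt_pow (integralWrt_self _) _)
      (integralWrt_mul (integralWrt_pow hpint _) (mem_rrSpace_poles.1 (hS.β_mem_poles hf)).1),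
      fun v hv => ?_⟩
    obtain ⟨hdeg, hP0⟩ := ord_aeval_of_neg hv hpA.ne_zero
    rw [hpm.natDegree_map] at hdeg
    refine ((ordGE_ord v (S.X ^ a₀)).mul
      ((ordGE_ord v ((P / S.β S.MC.x) ^ k₀)).mul (hS.β_ord hf hv))).mono (le_of_eq ?_)
    rw [ord_pow, ord_pow, ord_div v hP0 hβx0, hdeg, ha₀]
    push_cast
    ring
  have hgR : g ∈ S.rimg m := LRed.mem_image_of_res hJ hJg
  have hgt := S.rimg_le_targ m hgR
  -- the second component agrees with `b` up to smaller poles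
  set P₂ : k[X] := (pb.comp (Polynomial.X ^ q)) ^ k₀ - Polynomial.X ^ (q * d * k₀)
  have hP₂ : P₂.natDegree ≤ q * d * k₀ - q := by
    have hpk : (pb ^ k₀).Monic := (hpm.map π).pow k₀
    have hnd : (pb ^ k₀).natDegree = d * k₀ := by
      rw [Polynomial.natDegree_pow, hpm.natDegree_map, mul_comm]
    have hexp : P₂ = (pb ^ k₀ - Polynomial.X ^ (d * k₀)).comp (Polynomial.X ^ q) := by
      simp only [P₂]
      rw [Polynomial.sub_comp, Polynomial.pow_comp, Polynomial.pow_comp, Polynomial.X_comp,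
        ← pow_mul, mul_assoc]
    rw [hexp, Polynomial.natDegree_comp, Polynomial.natDegree_X_pow]
    have hlt : (pb ^ k₀ - Polynomial.X ^ (d * k₀)).natDegree ≤ d * k₀ - 1 := by
      rw [Polynomial.natDegree_le_iff_coeff_eq_zero]
      intro N hN
      rw [Polynomial.coeff_sub, Polynomial.coeff_X_pow]
      rcases lt_or_eq_of_le (show d * k₀ ≤ N by omega) with h | h
      · rw [Polynomial.coeff_eq_zero_of_natDegree_lt (by omega), if_neg (by omega), sub_zero]
      · rw [if_pos h.symm, ← h, ← hnd, hpk.coeff_natDegree, sub_self]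
    refine (Nat.mul_le_mul_right q hlt).trans ?_
    rw [Nat.sub_mul, one_mul, show d * k₀ * q = q * d * k₀ by ring]
  have hxb0 := S.xb_ne_zero
  have hexpo : q * a₀ + q * d * k₀ = M + k₀ := by
    have hm2 : q * m = q * a₀ + q * d * k₀ := by rw [ha₀]; ring
    omega
  have hdiff : g.2 - S.MC.xb ^ M * ψ =
      ψ * (S.MC.xb ^ (q * a₀) / S.MC.xb ^ k₀ * aeval S.MC.xb P₂) := by
    have hev : aeval S.MC.xb P₂ =
        aeval (S.MC.xb ^ q) pb ^ k₀ - S.MC.xb ^ (q * d * k₀) := by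
      simp [P₂, Polynomial.aeval_comp]
    rw [hev]
    simp only [g, Prod.snd_mul, Prod.pow_snd, div_pow, ← pow_mul]
    field_simp
    have hpid : S.MC.xb ^ (q * a₀) * S.MC.xb ^ (q * d * k₀) = S.MC.xb ^ M * S.MC.xb ^ k₀ := by
      rw [← pow_add, ← pow_add, hexpo]
    rw [← sub_eq_zero]
    linear_combination ψ * hpid
  have hgint : IntegralWrt k S.MC.xb g.2 := (mem_rrSpace_poles.1 hgt.2).1
  have hdiffmem : g.2 - S.MC.xb ^ M * ψ ∈
      riemannRochSpace (((q * (m - 1) : ℕ) : ℤ) • poleDiv k S.MC.xb) := by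
    refine mem_rrSpace_poles.2 ⟨integralWrt_sub hgint (integralWrt_mul
      (integralWrt_pow (integralWrt_self _) _) (mem_rrSpace_poles.1 hψ).1), fun v hv => ?_⟩
    rw [hdiff]
    rcases eq_or_ne P₂ 0 with h0 | h0
    · exact Or.inl (by simp [h0])
    obtain ⟨hd2, hne⟩ := ord_aeval_of_neg hv h0
    refine (((mem_rrSpace_poles.1 hψ).2 v hv).mul
      ((ordGE_ord v (S.MC.xb ^ (q * a₀) / S.MC.xb ^ k₀)).mul (ordGE_ord v _))).mono ?_
    rw [ord_div v (pow_ne_zero _ hxb0) (pow_ne_zero _ hxb0), ord_pow, ord_pow, hd2]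
    have h1 : (P₂.natDegree : ℤ) + q ≤ q * d * k₀ := by
      have hle : q ≤ q * d * k₀ := by
        rw [mul_assoc]; exact Nat.le_mul_of_pos_right _ (Nat.mul_pos hpd (by omega))
      have : P₂.natDegree + q ≤ q * d * k₀ := by omega
      exact_mod_cast this
    have h2 : ((q * (m - 1) : ℕ) : ℤ) = (q : ℤ) * a₀ + q * d * k₀ - q := by
      rw [Nat.cast_mul, Nat.cast_sub (by omega), ha₀]
      push_cast; ring
    rw [h2]
    push_cast
    nlinarith
  have hrest : (a - g.1, (0 : Fb)) ∈ S.rimg m ⊔ S.targ (m - 1) :=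
    hfst m (le_trans (le_max_left _ _) hm) _ (Submodule.sub_mem _ ha hgt.1)
  have hlow' : ((0 : Fb), low - (g.2 - S.MC.xb ^ M * ψ)) ∈ S.targ (m - 1) := by
    refine ⟨Submodule.zero_mem _, Submodule.sub_mem _ (poles_mono (le_of_eq ?_) hlow) hdiffmem⟩
    rw [Nat.mul_sub, mul_one, hM, add_comm]
  have := Submodule.add_mem _ (Submodule.add_mem _ (Submodule.mem_sup_left hgR) hrest)
    (Submodule.mem_sup_right hlow')
  convert this using 1
  exact Prod.ext (by simp) (by simp; ring)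

end Sheet

end FLTAgent.BadRed
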