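import Fermat.Agent.BadRed.Landing
import Fermat.Agent.BadRed.Gauss
import Fermat.Agent.BadRed.PhiBound
import Fermat.Agent.BadRed.Top
import Fermat.Agent.Specialization.Modular
import Fermat.Agent.Kronecker.Congruence
import Fermat.Agent.Kronecker.Inputs

/-!
# The two sheeted reduction of `X₀(Mq)` at `q`
-/

set_option autoImplicit false
set_option linter.style.haveILetI false
set_option linter.unusedSectionVars false
set_option synthInstance.maxHeartbeats 400000
set_option maxHeartbeats 1000000

noncomputable section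

open AlgebraicCurve ModularCurve IntermediateField

namespace FLTAgent.BadRed

open FLTAgent.Curves FLTAgent.Specialization FLTAgent.ModEq

section Special

variable (k : Type*) [Field k] (M q : ℕ) [Fact q.Prime] [NeZero q] [CharP k q]

theorem qExpand_gen (d : ℕ) [NeZero d] :
    qExpand k q (qExpand k d (jqModC k)) = qExpand k d (jqModC k) ^ q := by
  rw [Kronecker.laurent_pow_char q, coeffMap_gen (frobenius k q) d]

variable {k}

theorem qExpand_mem_fullC {x : LaurentSeries k} (hx : x ∈ modularFunctionFieldFullC k M) :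
    qExpand k q x ∈ modularFunctionFieldFullC k M := by
  induction hx using IntermediateField.adjoin_induction with
  | mem y hy =>
    obtain ⟨d, hd, hdN, rfl⟩ := hy
    rw [qExpand_gen]
    exact pow_mem (jqModCd_mem_full k M hdN) q
  | algebraMap c =>
    rw [Kronecker.qExpand_algebraMap]
    exact (modularFunctionFieldFullC k M).algebraMap_mem _
  | add x y _ _ hx hy => simpa using add_mem hx hy
  | inv x _ hx => simpa using inv_mem hx
  | mul x y _ _ hx hy => simpa using mul_mem hx hy

variable (k)

/-- The inseparable endomorphism of degree `q` of the special fibre. -/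
def specialV : modularFunctionFieldFullC k M →ₐ[k] modularFunctionFieldFullC k M :=
  ((({ qExpand k q with commutes' := Kronecker.qExpand_algebraMap q } :
    LaurentSeries k →ₐ[k] LaurentSeries k)).comp (modularFunctionFieldFullC k M).val).codRestrict
    (modularFunctionFieldFullC k M).toSubalgebra fun x => qExpand_mem_fullC M q x.2

variable {k}

theorem coe_specialV (x : modularFunctionFieldFullC k M) :
    (specialV k M q x : LaurentSeries k) = qExpand k q (x : LaurentSeries k) := rfl

theorem specialV_coeffMap (g : modularFunctionFieldFullC k M) :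
    specialV k M q ⟨coeffMap (frobenius k q) (g : LaurentSeries k),
      Kronecker.coeffMap_mem_fullC _ g.2⟩ = g ^ q :=
  Subtype.ext <| by
    rw [coe_specialV, IntermediateField.coe_pow, Kronecker.laurent_pow_char q]

theorem exists_root_specialV [IsAlgClosed k] (φ : modularFunctionFieldFullC k M) :
    ∃ ψ, specialV k M q φ = ψ ^ q := by
  refine ⟨⟨coeffMap (frobeniusEquiv k q).symm.toRingHom (φ : LaurentSeries k),
    Kronecker.coeffMap_mem_fullC _ φ.2⟩, Subtype.ext ?_⟩
  rw [coe_specialV, IntermediateField.coe_pow, Kronecker.laurent_pow_char q]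
  congr 1
  ext n
  simp

theorem pow_injective_fullC (x y : modularFunctionFieldFullC k M) (h : x ^ q = y ^ q) : x = y := by
  haveI : CharP (modularFunctionFieldFullC k M) q :=
    charP_of_injective_algebraMap (algebraMap k (modularFunctionFieldFullC k M)).injective q
  exact frobenius_inj _ q h

theorem indepV_special [NeZero M] (c : Fin q → modularFunctionFieldFullC k M)
    (h : ∑ i : Fin q, (⟨jqModC k, jqModC_mem_full k M⟩ : modularFunctionFieldFullC k M) ^ (i : ℕ) *
      specialV k M q (c i) = 0) : c = 0 := by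
  classical
  have h' := congrArg (modularFunctionFieldFullC k M).val h
  simp only [map_sum, map_mul, map_pow, map_zero] at h'
  change ∑ i : Fin q, jqModC k ^ (i : ℕ) * qExpand k q (c i : LaurentSeries k) = 0 at h'
  by_contra hne
  set f : Fin q → LaurentSeries k := fun i => (c i : LaurentSeries k)
  set S := Finset.univ.filter fun i : Fin q => f i ≠ 0
  have hS : S.Nonempty := by
    obtain ⟨i, hi⟩ := Function.ne_iff.1 hne
    exact ⟨i, Finset.mem_filter.2 ⟨Finset.mem_univ _, fun h0 => hi (Subtype.ext h0)⟩⟩
  obtain ⟨i, hi, hmin⟩ := S.exists_min_image (fun i => (q : ℤ) * (f i).order - (i : ℕ)) hS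
  have hg : ∀ l : Fin q, GeOrd (qExpand k q (f l)) ((q : ℤ) * (f l).order) := fun l m hm => by
    by_cases hd : (q : ℤ) ∣ m
    · obtain ⟨e, rfl⟩ := hd
      rw [qExpand_coeff_mul]
      refine HahnSeries.coeff_eq_zero_of_lt_order ?_
      nlinarith [(Fact.out : q.Prime).pos]
    · exact qExpand_coeff_of_not_dvd q _ hd
  have hj : ∀ l : ℕ, GeOrd (jqModC k ^ l) (-(l : ℤ)) := fun l => by
    simpa [jAt_one_one] using geOrd_jAt_pow (1 : kˣ) 1 l
  have key := congrArg (fun z : LaurentSeries k => z.coeff (-(i : ℕ) + (q : ℤ) * (f i).order)) h'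
  simp only [HahnSeries.coeff_sum, HahnSeries.coeff_zero] at key
  rw [Finset.sum_eq_single i] at key
  · rw [(hj i).coeff_mul_add (hg i), qExpand_coeff_mul] at key
    have h1 : (jqModC k ^ (i : ℕ)).coeff (-((i : ℕ) : ℤ)) = 1 := by
      simpa [jAt_one_one] using jAt_pow_coeff (1 : kˣ) 1 (i : ℕ)
    rw [h1, one_mul, HahnSeries.coeff_order_eq_zero] at key
    exact (Finset.mem_filter.1 hi).2 key
  · intro l _ hl
    by_cases h0 : f l = 0
    · simp [show (c l : LaurentSeries k) = 0 from h0]
    refine (hj l).mul (hg l) _ ?_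
    refine lt_of_le_of_ne (by linarith [hmin l (Finset.mem_filter.2 ⟨Finset.mem_univ _, h0⟩)])
      fun he => hl (Fin.ext ?_)
    have h1 : (q : ℤ) ∣ ((l : ℕ) : ℤ) - (i : ℕ) := ⟨(f l).order - (f i).order, by linarith⟩
    have h2 : |((l : ℕ) : ℤ) - (i : ℕ)| < q := by
      rw [abs_lt]; constructor <;> omega
    have h3 := Int.eq_zero_of_abs_lt_dvd h1 h2
    omega
  · simp

end Special

section Bar

local notation "QA" => AlgebraicClosure ℚ

variable (M q : ℕ) [NeZero M] [Fact q.Prime] [NeZero q] [NeZero (M * q)]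

theorem exists_swapEnd (hqM : ¬ q ∣ M) :
    ∃ W : X0Bar (M * q) →ₐ[QA] X0Bar (M * q), ∀ h : X0Bar M,
      W (heckeAlphaBar QA M q h) = heckeBetaBar QA M q h ∧
        W (heckeBetaBar QA M q h) = heckeAlphaBar QA M q h := by
  obtain ⟨w, hα, hβ⟩ := exists_swap M q hqM
  have hmem : ∀ z, w z ∈ X0Bar (M * q) := fun z =>
    mem_of_gens (M * q) ((X0Bar (M * q)).toSubfield.comap w.toRingHom)
      (fun c => by
        show w _ ∈ X0Bar (M * q)
        rw [w.commutes]
        exact IntermediateField.algebraMap_mem _ c)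
      (by
        show w _ ∈ X0Bar (M * q)
        rw [jEl_eq_alpha, hα]
        exact (heckeBetaBar QA M q (Kronecker.jEl M)).2)
      (by
        show w _ ∈ X0Bar (M * q)
        rw [jNEl_eq_beta, hβ]
        exact X0Bar_mono (dvd_mul_right M q) (Kronecker.jNEl M).2) z
  refine ⟨w.codRestrict (X0Bar (M * q)).toSubalgebra hmem, fun h => ⟨?_, ?_⟩⟩
  · exact Subtype.ext (hα h)
  · exact Subtype.ext ((hβ h).trans (coe_heckeAlphaBar M q h).symm)

variable {M q} (hqM : ¬ q ∣ M)

/-- The involution exchanging the two degeneracy maps. -/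
def swapEnd : X0Bar (M * q) →ₐ[QA] X0Bar (M * q) := (exists_swapEnd M q hqM).choose

theorem swapEnd_alpha (h : X0Bar M) :
    swapEnd hqM (heckeAlphaBar QA M q h) = heckeBetaBar QA M q h :=
  ((exists_swapEnd M q hqM).choose_spec h).1

theorem swapEnd_beta (h : X0Bar M) :
    swapEnd hqM (heckeBetaBar QA M q h) = heckeAlphaBar QA M q h :=
  ((exists_swapEnd M q hqM).choose_spec h).2

theorem swapEnd_swapEnd (z : X0Bar (M * q)) : swapEnd hqM (swapEnd hqM z) = z := by
  refine congrArg (fun f : X0Bar (M * q) →+* X0Bar (M * q) => f z) (Kronecker.ringHom_ext (M * q)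
    ((swapEnd hqM).toRingHom.comp (swapEnd hqM).toRingHom) (RingHom.id _) (fun c => ?_) ?_ ?_)
  · show swapEnd hqM (swapEnd hqM _) = _
    rw [AlgHom.commutes, AlgHom.commutes]
    rfl
  · show swapEnd hqM (swapEnd hqM _) = _
    rw [jEl_eq_alpha, swapEnd_alpha, swapEnd_beta]
    rfl
  · show swapEnd hqM (swapEnd hqM _) = _
    rw [jNEl_eq_beta, swapEnd_beta, swapEnd_alpha]
    rfl

include hqM in
theorem finrankAlong_beta : finrankAlong QA (heckeBetaBar QA M q) = q + 1 := by
  rw [← (Kronecker.finrankAlong_alpha M q hqM).2]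
  let e : X0Bar (M * q) ≃+* X0Bar (M * q) :=
    { swapEnd hqM with
      invFun := swapEnd hqM
      left_inv := swapEnd_swapEnd hqM
      right_inv := swapEnd_swapEnd hqM }
  exact @Algebra.finrank_eq_of_equiv_equiv (X0Bar M) (X0Bar (M * q)) _ _
    (algebraAlong (heckeBetaBar QA M q)) (X0Bar M) (X0Bar (M * q)) _ _
    (algebraAlong (heckeAlphaBar QA M q)) (RingEquiv.refl _) e
    (RingHom.ext fun x => (swapEnd_beta hqM x).symm)

theorem modularRel : ((modularPolynomialData q).Φ.map
    (evalAt (heckeAlphaBar QA M q (Kronecker.jEl M)))).eval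
      (heckeBetaBar QA M q (Kronecker.jEl M)) = 0 := by
  refine (X0Bar (M * q)).val.toRingHom.injective ?_
  rw [map_zero, Kronecker.evalRel_map]
  show (_ : Polynomial (LaurentSeries QA)).eval _ = 0
  exact eval_modularPolynomial QA (modularPolynomialData q)

include hqM in
theorem modularRel_swap : ((modularPolynomialData q).Φ.map
    (evalAt (heckeBetaBar QA M q (Kronecker.jEl M)))).eval
      (heckeAlphaBar QA M q (Kronecker.jEl M)) = 0 := by
  have h := congrArg (swapEnd hqM).toRingHom (modularRel (M := M) (q := q))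
  rw [Kronecker.evalRel_map, map_zero] at h
  simpa [swapEnd_alpha, swapEnd_beta] using h

theorem modelX_eq {A : ValuationSubring QA} {k : Type*} [Field k] [IsAlgClosed k] {π : A →+* k}
    (hπ : Function.Surjective π) (hM : (M : k) ≠ 0) :
    (modularModel hπ M hM).x = Kronecker.jEl M := Subtype.ext (coeffMap_jqModC _)

section Sheets

variable {A : ValuationSubring QA} {k : Type*} [Field k] [IsAlgClosed k] {π : A →+* k}
  (hπ : Function.Surjective π) (hA : RankOne π) [CharP k q]
  [IsFunctionField k (modularFunctionFieldFullC k M)]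

include hqM in
theorem natCast_ne_zero (k : Type*) [Field k] [CharP k q] : (M : k) ≠ 0 := fun h =>
  hqM ((CharP.cast_eq_zero_iff k q M).1 h)

theorem res_alpha {f : X0Bar M} {g : LaurentSeries k}
    (h : (laurentReduction π (X0Bar M)).Res f g) :
    (laurentReduction π (X0Bar (M * q))).Res (heckeAlphaBar QA M q f) g := by
  have h' := laurentReduction_compat (X0Bar_mono (dvd_mul_right M q)) h
  rwa [show (⟨(f : LaurentSeries QA), X0Bar_mono (dvd_mul_right M q) f.2⟩ : X0Bar (M * q)) =
    heckeAlphaBar QA M q f from Subtype.ext (coe_heckeAlphaBar M q f).symm] at h'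

theorem res_beta {f : X0Bar M} {g : LaurentSeries k}
    (h : (laurentReduction π (X0Bar M)).Res f g) :
    (laurentReduction π (X0Bar (M * q))).Res (heckeBetaBar QA M q f) (qExpand k q g) :=
  laurentReduction_map (φA := qExpand A q) (φL := qExpand QA q)
    (fun y => (coeffMap_qExpand A.subtype q y).symm)
    (fun y => (coeffMap_qExpand π q y).symm) h rfl

/-- The reductions into the series field. -/
def modularPre : PreSheet π (X0Bar M) (X0Bar (M * q)) (modularFunctionFieldFullC k M) q where
  MC := modularModel hπ M (natCast_ne_zero hqM k)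
  α := heckeAlphaBar QA M q
  β := heckeBetaBar QA M q
  Q₁ := laurentReduction π (X0Bar (M * q))
  Q₂ := comapReduction (swapEnd hqM) (laurentReduction π (X0Bar (M * q)))
  V := specialV k M q
  α₁ _ _ h := res_alpha ((modularModel_res hπ M _).1 h)
  α₂ f g h := by
    rw [comapReduction_res, swapEnd_alpha]
    exact res_beta ((modularModel_res hπ M _).1 h)
  β₁ _ _ h := res_beta ((modularModel_res hπ M _).1 h)
  β₂ f g h := by
    rw [comapReduction_res, swapEnd_beta]
    exact res_alpha ((modularModel_res hπ M _).1 h)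
  V_xb := Subtype.ext <| by
    rw [coe_specialV, IntermediateField.coe_pow]
    show qExpand k q (jqModC k) = jqModC k ^ q
    rw [Kronecker.laurent_pow_char q, coeffMap_jqModC]
  one_lt := (Fact.out : q.Prime).one_lt
  indepV c h := indepV_special M q c h
  degree := (Kronecker.finrankAlong_alpha M q hqM).2
  arch t c ht := by
    rcases eq_or_ne (t : QA) 0 with h0 | h0
    · refine ⟨1, by simp [h0, A.zero_mem], ?_⟩
      rw [← map_zero π]
      congr 1
      exact Subtype.ext (by simp [h0])
    rcases eq_or_ne c 0 with hc | hc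
    · refine ⟨0, by simp [hc, A.zero_mem], ?_⟩
      rw [← map_zero π]
      congr 1
      exact Subtype.ext (by simp [hc])
    obtain ⟨N, hN⟩ := hA t c⁻¹ ht (fun e => h0 (by rw [e]; rfl)) (inv_ne_zero hc)
    have hmem : c * (t : QA) ^ N ∈ A := by
      have := (A.mem_or_inv_mem (c⁻¹ / (t : QA) ^ N)).resolve_left hN
      rwa [inv_div, div_inv_eq_mul, mul_comm] at this
    refine ⟨N, hmem, Reduction.map_eq_zero_of_inv_notMem hπ ?_⟩
    simpa [mul_inv_rev, div_eq_mul_inv, mul_comm] using hN
  exists_nonunit := ⟨(q : A), by rw [map_natCast, CharP.cast_eq_zero],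
    Nat.cast_ne_zero.2 (Fact.out : q.Prime).ne_zero⟩

/-- The two sheets of the reduction of `X₀(Mq)` at `q`. -/
def modularSheet : Sheet π (X0Bar M) (modularFunctionFieldFullC k M) (X0Bar (M * q)) q :=
  (modularPre hqM hπ hA).sheet

open Polynomial in
/-- The sheets satisfy all hypotheses as soon as the level `M` model is smooth. -/
theorem modularSheet_good (hsm : (modularModel hπ M (natCast_ne_zero hqM k)).Smooth) :
    (modularSheet hqM hπ hA).Good := by
  set X := heckeAlphaBar QA M q (Kronecker.jEl M)
  set Y := heckeBetaBar QA M q (Kronecker.jEl M)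
  have hX : (modularSheet hqM hπ hA).X = X :=
    congrArg (heckeAlphaBar QA M q) (modelX_eq hπ (natCast_ne_zero hqM k))
  have hY : (modularSheet hqM hπ hA).β (modularSheet hqM hπ hA).MC.x = Y :=
    congrArg (heckeBetaBar QA M q) (modelX_eq hπ (natCast_ne_zero hqM k))
  set P := modularPolynomialData q
  set n := P.Φ.natDegree
  have hn : n = q + 1 := by
    obtain ⟨ζ, hζ⟩ := exists_isPrimitiveRoot_units (K := QA) q
      (Nat.cast_ne_zero.2 (Fact.out : q.Prime).ne_zero)
    have h := congrArg natDegree (map_evalAt_modularPolynomial hζ dvd_rfl P)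
    rw [P.monic.natDegree_map, natDegree_prod_of_monic _ _ fun t _ => monic_X_sub_C _] at h
    simp only [natDegree_X_sub_C, Finset.sum_const, smul_eq_mul, mul_one] at h
    rw [← card_primTriples_prime P ζ hζ]
    exact h
  have hev : ∀ (x : X0Bar (M * q)) (a : ℤ[X]),
      evalAt x a = aeval x (a.map (Int.castRingHom QA)) := fun x a => by
    rw [evalAt_apply, aeval_def, eval₂_map]
    congr 1
    exact RingHom.ext_int _ _
  have hrel : ∀ x y : X0Bar (M * q), (P.Φ.map (evalAt x)).eval y = 0 →
      y ^ n + ∑ i ∈ Finset.range n,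
        aeval x ((P.Φ.coeff i).map (Int.castRingHom QA)) * y ^ i = 0 := fun x y h => by
    rw [eval_eq_sum_range, P.monic.natDegree_map, Finset.sum_range_succ] at h
    simp only [coeff_map, hev] at h
    rw [show P.Φ.coeff n = 1 from P.monic.coeff_natDegree, Polynomial.map_one, map_one, one_mul,
      add_comm] at h
    exact h
  have hXY := hrel X Y modularRel
  have hYX := hrel Y X (modularRel_swap hqM)
  have hint : IntegralWrt QA X Y := integralWrt_of_relation hXY
  have hint' : IntegralWrt QA Y X := integralWrt_of_relation hYX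
  refine ⟨hsm, by rw [hX, hY]; exact hint, ?_, ?_, ?_, fun φ => exists_root_specialV M q φ⟩
  · rw [hX, hY]
    intro v hv
    by_contra hcon
    have hY0 : Y ≠ 0 := fun h0 => hcon (Or.inl h0)
    have hlt : v.ord Y < (q : ℤ) * v.ord X := not_le.1 fun h0 => hcon (ordGE_of_le h0)
    have h1 : OrdGE v ((n : ℤ) * v.ord Y + 1)
        (∑ i ∈ Finset.range n, aeval X ((P.Φ.coeff i).map (Int.castRingHom QA)) * Y ^ i) := by
      refine OrdGE.sum fun i hi => ?_
      have hin : i < n := Finset.mem_range.1 hi
      set a := (P.Φ.coeff i).map (Int.castRingHom QA)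
      have hd : (a.natDegree : ℤ) ≤ (q : ℤ) * ((n : ℤ) - i) := by
        have := (natDegree_map_le).trans (natDegree_coeff_le P i) (a := a.natDegree)
        rw [hn]
        have h2 : ((q * (q + 1 - i) : ℕ) : ℤ) = (q : ℤ) * (((q + 1 : ℕ) : ℤ) - i) := by
          rw [Nat.cast_mul, Nat.cast_sub (by omega)]
        calc (a.natDegree : ℤ) ≤ ((q * (q + 1 - i) : ℕ) : ℤ) := by exact_mod_cast this
          _ = _ := h2
      have ha : OrdGE v ((a.natDegree : ℤ) * v.ord X) (aeval X a) := by
        rcases eq_or_ne a 0 with h0 | h0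
        · exact Or.inl (by rw [h0, map_zero])
        · exact ordGE_of_le (ord_aeval_of_neg hv h0).1.ge
      refine (ha.mul (ordGE_of_le (ord_pow v Y i).ge)).mono ?_
      have hpos : (1 : ℤ) ≤ (n : ℤ) - i := by omega
      have h2 : ((n : ℤ) - i) * (v.ord Y + 1) ≤ ((n : ℤ) - i) * ((q : ℤ) * v.ord X) :=
        mul_le_mul_of_nonneg_left (by omega) (by omega)
      have h3 : ((q : ℤ) * ((n : ℤ) - i)) * v.ord X ≤ (a.natDegree : ℤ) * v.ord X :=
        mul_le_mul_of_nonpos_right hd hv.le
      nlinarith
    rw [add_eq_zero_iff_eq_neg] at hXY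
    have h3 := (hXY ▸ h1.neg : OrdGE v _ (Y ^ n)).le_ord (pow_ne_zero _ hY0)
    rw [ord_pow] at h3
    omega
  · rw [hX, hY]
    intro v hv
    by_contra hcon
    have h := hint' v (not_lt.1 hcon)
    exact absurd (h.le_ord fun h0 => by rw [h0] at hv; simp at hv) (not_le.2 hv)
  · rw [hX, hY]
    refine ⟨P.Φ.map ((Int.castRingHom A).comp (evalRingHom 0)), P.monic.map _, ?_, ?_⟩
    · rw [P.monic.natDegree_map]
      show 0 < n
      omega
    set b : ℕ → ℤ[X] := fun i => (P.Φ.coeff i).divX
    have hb : ∀ i, evalAt Y (P.Φ.coeff i) =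
        evalAt Y (b i) * Y + (((P.Φ.coeff i).coeff 0 : ℤ) : X0Bar (M * q)) := fun i => by
      conv_lhs => rw [← divX_mul_X_add (P.Φ.coeff i)]
      rw [map_add, map_mul, evalAt_X, evalAt_apply _ (C _), eval₂_C, eq_intCast]
    have hp : aeval X ((P.Φ.map ((Int.castRingHom A).comp (evalRingHom 0))).map A.subtype) =
        -(∑ i ∈ Finset.range n, evalAt Y (b i) * X ^ i) * Y := by
      have h : (P.Φ.map (evalAt Y)).eval X = 0 := modularRel_swap hqM
      rw [eval_eq_sum_range, P.monic.natDegree_map] at h
      have hc : evalAt Y (b n) = 0 := by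
        rw [show b n = 0 by simp [b, n, P.monic.coeff_natDegree]]
        exact map_zero _
      simp only [coeff_map, hb, add_mul, Finset.sum_add_distrib] at h
      rw [aeval_def, eval₂_map, eval₂_map, eval₂_eq_sum_range]
      simp only [RingHom.comp_apply, coe_evalRingHom, ← coeff_zero_eq_eval_zero, eq_intCast,
        map_intCast]
      refine (eq_neg_of_add_eq_zero_right h).trans ?_
      rw [Finset.sum_range_succ, hc, zero_mul, zero_mul, add_zero, neg_mul, Finset.sum_mul]
      exact congrArg Neg.neg (Finset.sum_congr rfl fun i _ => by ring)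
    have hY0 : Y ≠ 0 := by
      have hj : Transcendental QA (Kronecker.jEl M) :=
        transcendental_coe (transcendental_jq QA)
      exact (_root_.map_ne_zero _).2 (ne_zero_of_transcendental hj)
    rw [hp, mul_div_assoc, div_self hY0, mul_one]
    intro v hv
    refine (OrdGE.sum fun i _ => ?_).neg
    simpa using ((integralWrt_trans hint (hev Y (b i) ▸ integralWrt_aeval Y _)) v hv).mul
      (integralWrt_pow (integralWrt_self X) i v hv)

end Sheets

end Bar

end FLTAgent.BadRed
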