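import Fermat.Agent.BadRed.EigenFrobenius
import Fermat.Agent.EigenLattice.Diagonal
import Fermat.Agent.EigenReps.Unramified

/-!
# The representation of a newform at good primes and at primes exactly dividing the level
-/

set_option autoImplicit false
set_option linter.style.haveILetI false
set_option linter.unusedSectionVars false
set_option synthInstance.maxHeartbeats 400000
set_option maxHeartbeats 1000000

noncomputable section

open CongruenceSubgroup Matrix Polynomial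
open scoped MatrixGroups

namespace FLTAgent.BadRed

open FLTAgent.EigenLattice

local notation "QA" => AlgebraicClosure ℚ
local notation "GG" => (AlgebraicClosure ℚ ≃ₐ[ℚ] AlgebraicClosure ℚ)

section Algebra

variable {O : Type} [CommRing O] [IsDomain O] [CharZero O]

/-- A matrix of determinant `q` killed by `(X² - 1)(X² - q²)` has trace `±(q + 1)`. -/
theorem charpoly_of_rel {q : ℕ} (hq : q ≠ 0) (m : Matrix (Fin 2) (Fin 2) O)
    (hdet : m.det = (q : O))
    (h : (m * m) * (m * m) - m * m = ((q * q : ℕ) : O) • (m * m - 1)) :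
    m.charpoly = X ^ 2 - C ((q : O) + 1) * X + C ((q : O)) ∨
      m.charpoly = X ^ 2 + C ((q : O) + 1) * X + C ((q : O)) := by
  obtain ⟨t, ht⟩ : ∃ t, m.trace = t := ⟨_, rfl⟩
  have hch : m * m = t • m - (q : O) • 1 := by rw [EigenReps.mul_self_fin_two, hdet, ht]
  have h2 : (t ^ 2 - ((q : O) + 1) ^ 2) • (m * m) = 0 := by
    have e : (m * m) * (m * m) = (t ^ 2) • (m * m) - (2 * (q : O) * t) • m + ((q : O) ^ 2) • 1 := by
      conv_lhs => rw [hch]
      simp only [sub_mul, mul_sub, smul_mul_assoc, mul_smul_comm, smul_sub, smul_smul, one_mul,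
        mul_one]
      module
    rw [e] at h
    have e2 : (t ^ 2 - ((q : O) + 1) ^ 2) • (m * m) =
        ((t ^ 2) • (m * m) - (2 * (q : O) * t) • m + ((q : O) ^ 2) • 1 - m * m) -
          ((q * q : ℕ) : O) • (m * m - 1) := by
      rw [Nat.cast_mul, hch]
      module
    rw [e2, h, sub_self]
  have h3 := congrArg Matrix.det h2
  rw [Matrix.det_smul, Matrix.det_mul, hdet, Fintype.card_fin, Matrix.det_zero] at h3
  have h4 : t ^ 2 = ((q : O) + 1) ^ 2 := by
    rcases mul_eq_zero.1 h3 with h3 | h3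
    · exact sub_eq_zero.1 (pow_eq_zero_iff two_ne_zero |>.1 h3)
    · exact absurd h3 (mul_self_ne_zero.2 (Nat.cast_ne_zero.2 hq))
  rw [Matrix.charpoly_fin_two, hdet, ht]
  rcases eq_or_eq_neg_of_sq_eq_sq _ _ h4 with h5 | h5
  · exact Or.inl (by rw [h5])
  · exact Or.inr (by rw [h5, map_neg, neg_mul, sub_neg_eq_add])

end Algebra

section Scalar

variable (p : ℕ) [Fact p.Prime] {O : Type} [CommRing O] [IsDomain O] [IsDiscreteValuationRing O]
  [CharZero O] [IsAdicComplete (IsLocalRing.maximalIdeal O) O]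
  (hp : (p : O) ∈ IsLocalRing.maximalIdeal O)

include hp in
/-- A scalar representation `c` has the companion `diag(c, cyclo / c)`. -/
theorem exists_companion_hom (ρ : GaloisRepAdic O) (hs : ∀ σ, ∃ c : O, ρ.ρ σ = c • 1) :
    ∃ (ρ' : GaloisRepAdic O) (c : GG →* O), (∀ σ, ρ.ρ σ = c σ • 1) ∧
      ∀ σ, LinearMap.charpoly (ρ'.ρ σ) =
        X ^ 2 - C (c σ + cycloO p hp σ * c σ⁻¹) * X + C (cycloO p hp σ) := by
  classical
  choose c hc using hs
  obtain ⟨bs⟩ := FLTAgent.Deformation.nonempty_basis ρ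
  have huniq : ∀ {x y : O}, (x • (1 : Module.End O ρ.V)) = y • 1 → x = y := fun {x y} h => by
    have := congrArg (fun f : Module.End O ρ.V => bs.repr (f (bs 0)) 0) h
    simpa using this
  have hc1 : c 1 = 1 := huniq (by rw [← hc, map_one, one_smul])
  have hcm : ∀ σ τ, c (σ * τ) = c σ * c τ := fun σ τ => huniq (by
    rw [← hc, map_mul, hc, hc, smul_mul_smul_comm, one_mul])
  let a : GG →* O := { toFun := c, map_one' := hc1, map_mul' := hcm }
  let b : GG →* O :=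
    { toFun := fun σ => cycloO p hp σ * c σ⁻¹
      map_one' := by rw [cycloO_one, inv_one, hc1, one_mul]
      map_mul' := fun σ τ => by rw [cycloO_mul, _root_.mul_inv_rev, hcm]; ring }
  have hinv : ∀ σ, c σ * c σ⁻¹ = 1 := fun σ => by rw [← hcm, mul_inv_cancel, hc1]
  have ha : ∀ n, ∃ L : IntermediateField ℚ QA, FiniteDimensional ℚ L ∧
      ∀ σ : GG, (∀ x ∈ L, σ x = x) → a σ - 1 ∈ IsLocalRing.maximalIdeal O ^ n := by
    intro n
    obtain ⟨L, hL, h⟩ := ρ.isAdicContinuous n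
    refine ⟨L, hL, fun σ hσ => ?_⟩
    have h1 := h σ hσ (bs 0)
    rw [hc, LinearMap.smul_apply, Module.End.one_apply,
      show c σ • bs 0 - bs 0 = (c σ - 1) • bs 0 by rw [sub_smul, one_smul]] at h1
    show c σ - 1 ∈ _
    have h3 : ∀ y ∈ (IsLocalRing.maximalIdeal O ^ n) • (⊤ : Submodule O ρ.V),
        bs.coord 0 y ∈ IsLocalRing.maximalIdeal O ^ n := by
      intro y hy
      refine Submodule.smul_induction_on hy (fun r hr z _ => ?_) fun u v hu hv => ?_
      · rw [map_smul, smul_eq_mul]; exact Ideal.mul_mem_right _ _ hr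
      · rw [map_add]; exact add_mem hu hv
    simpa using h3 _ h1
  have hb : ∀ n, ∃ L : IntermediateField ℚ QA, FiniteDimensional ℚ L ∧
      ∀ σ : GG, (∀ x ∈ L, σ x = x) → b σ - 1 ∈ IsLocalRing.maximalIdeal O ^ n := by
    intro n
    obtain ⟨L₁, hL₁, h₁⟩ := ha n
    obtain ⟨L₂, hL₂, h₂⟩ := exists_level_cycloO p hp n
    refine ⟨L₁ ⊔ L₂, inferInstance, fun σ hσ => ?_⟩
    have e1 := h₁ σ⁻¹ fun x hx => by
      rw [show σ⁻¹ = σ.symm from rfl, AlgEquiv.symm_apply_eq,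
        hσ x ((le_sup_left : L₁ ≤ L₁ ⊔ L₂) hx)]
    have e2 := h₂ σ fun x hx => hσ x ((le_sup_right : L₂ ≤ L₁ ⊔ L₂) hx)
    show cycloO p hp σ * c σ⁻¹ - 1 ∈ _
    rw [show cycloO p hp σ * c σ⁻¹ - 1 = cycloO p hp σ * (a σ⁻¹ - 1) + (cycloO p hp σ - 1) by
      show _ = cycloO p hp σ * (c σ⁻¹ - 1) + _
      ring]
    exact add_mem (Ideal.mul_mem_left _ _ e1) e2
  refine ⟨diagRep a b ha hb, a, hc, fun σ => ?_⟩
  rw [charpoly_diagRep]
  show X ^ 2 - C (c σ + cycloO p hp σ * c σ⁻¹) * X + C (c σ * (cycloO p hp σ * c σ⁻¹)) = _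
  rw [show c σ * (cycloO p hp σ * c σ⁻¹) = cycloO p hp σ by
    rw [mul_left_comm, hinv, mul_one]]
  rfl

end Scalar

/-- The representation attached to a newform, at good primes and at primes exactly dividing the
level. -/
theorem newform_rep_local
    {M : ℕ} [NeZero M] {g : CuspForm (CongruenceSubgroup.Gamma0 M) 2} (hg : g.IsNewform)
    (lam : ℕ) [Fact lam.Prime]
    (S : Finset ℕ)
    (O' : Type) [CommRing O'] [IsDomain O'] [IsDiscreteValuationRing O']
    [IsAdicComplete (IsLocalRing.maximalIdeal O') O'] [Finite (IsLocalRing.ResidueField O')]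
    [CharZero O'] (hlamO' : (lam : O') ∈ IsLocalRing.maximalIdeal O')
    (chig : CuspForm.heckeAlgebra M 2 (↑S : Set ℕ) →+* ℂ)
    (hchig : ∀ (ℓ : ℕ) (hℓ : ℓ.Prime) (hℓM : ¬ ℓ ∣ M) (hℓS : ℓ ∉ (↑S : Set ℕ)),
      chig (CuspForm.heckeAlgebra.T hℓ hℓM hℓS) = ModularFormClass.qCoeff g ℓ)
    (iota : chig.range →+* O')
    (hlamS : lam ∈ S) (hMS : ∀ q : ℕ, q.Prime → q ∣ M → q ∈ S) :
    ∃ (O'' : Type) (_ : CommRing O'') (_ : IsDomain O'') (_ : IsDiscreteValuationRing O'')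
      (_ : IsAdicComplete (IsLocalRing.maximalIdeal O'') O'') (_ : Finite (IsLocalRing.ResidueField O''))
      (_ : CharZero O'') (_ : Algebra O' O'') (_ : Module.Finite O' O'') (_ : IsLocalHom (algebraMap O' O'')),
      Function.Injective (algebraMap O' O'') ∧
      ∃ ρ : GaloisRepAdic O'',
        (∀ (ℓ : ℕ) (hℓ : ℓ.Prime) (hℓM : ¬ ℓ ∣ M) (hℓS : ℓ ∉ (↑S : Set ℕ)),
          ∀ A : ValuationSubring (AlgebraicClosure ℚ), A.LiesOverPrime ℓ →
            ∀ σ : AlgebraicClosure ℚ ≃ₐ[ℚ] AlgebraicClosure ℚ, A.IsFrobeniusAt σ ℓ →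
              LinearMap.charpoly (ρ.ρ σ) =
                X ^ 2 - C (algebraMap O' O'' ((iota.comp chig.rangeRestrict) (CuspForm.heckeAlgebra.T hℓ hℓM hℓS))) * X
                  + C ((ℓ : O''))) ∧
        (∀ q : ℕ, q.Prime → q ≠ lam → q ∣ M → ¬ q ^ 2 ∣ M →
          ∀ A : ValuationSubring (AlgebraicClosure ℚ), A.LiesOverPrime q →
            ∀ σ : AlgebraicClosure ℚ ≃ₐ[ℚ] AlgebraicClosure ℚ, A.IsFrobeniusAt σ q →
              LinearMap.charpoly (ρ.ρ σ) = X ^ 2 - C ((q : O'') + 1) * X + C ((q : O'')) ∨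
              LinearMap.charpoly (ρ.ρ σ) = X ^ 2 + C ((q : O'') + 1) * X + C ((q : O''))) := by
  classical
  obtain ⟨O'', i1, i2, i3, i4, i5, i6, i7, i8, i9, hinj, F, hF⟩ :=
    exists_full_character hg.1 (S := (↑S : Set ℕ)) O' hMS chig hchig iota
  set κ : AlgebraicClosure ℚ →+* ℂ := complexEmbedding.toRingHom
  set χ := F.comp (CuspForms.eigenChar hg.1).rangeRestrict with hχ
  have hp : (lam : O'') ∈ IsLocalRing.maximalIdeal O'' := by
    rw [← map_natCast (algebraMap O' O''), IsLocalRing.mem_maximalIdeal]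
    exact fun hu => (IsLocalRing.mem_maximalIdeal _).1 hlamO' (isUnit_of_map_unit _ _ hu)
  set ρ := eigenRep M lam κ hp χ with hρ
  let a : ℕ → O'' := fun ℓ => if h : ℓ.Prime then χ (CuspForms.heckeGen M ℓ h) else 0
  have ha : ∀ (ℓ : ℕ) (hℓ : ℓ.Prime) (hℓM : ¬ ℓ ∣ M) (hℓS : ℓ ∉ (↑S : Set ℕ)),
      a ℓ = algebraMap O' O''
        ((iota.comp chig.rangeRestrict) (CuspForm.heckeAlgebra.T hℓ hℓM hℓS)) := by
    intro ℓ hℓ hℓM hℓS
    simp only [a, dif_pos hℓ]
    exact hF ℓ hℓ hℓM hℓS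
  have hquad : ∀ ℓ : ℕ, ℓ.Prime → ℓ ∉ S → ∀ V : ValuationSubring QA, V.LiesOverPrime ℓ →
      ∀ τ : GG, V.IsFrobeniusAt τ ℓ → ρ.ρ τ * ρ.ρ τ - a ℓ • ρ.ρ τ + (ℓ : O'') • 1 = 0 := by
    intro ℓ hℓ hℓS V hV τ hτ
    simp only [a, dif_pos hℓ]
    exact eigenRep_frobenius M lam κ hp χ hℓ (fun h => hℓS (hMS ℓ hℓ h))
      (fun h => hℓS (h ▸ hlamS)) hV hτ
  have hbad : ∀ q : ℕ, q.Prime → q ≠ lam → q ∣ M → ¬ q ^ 2 ∣ M →
      ∀ A : ValuationSubring QA, A.LiesOverPrime q → ∀ σ : GG, A.IsFrobeniusAt σ q →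
        (ρ.ρ σ * ρ.ρ σ) * (ρ.ρ σ * ρ.ρ σ) - ρ.ρ σ * ρ.ρ σ =
          ((q * q : ℕ) : O'') • (ρ.ρ σ * ρ.ρ σ - 1) := by
    intro q hq hql hqM hq2 A hA σ hσ
    have h := eigenRep_frobenius_rel hg lam κ hp F hq hql hqM hq2 hA hσ
    simp only [map_mul] at h
    exact h
  by_cases hns : ∃ σ, ∀ c : O'', ρ.ρ σ ≠ c • 1
  · refine ⟨O'', i1, i2, i3, i4, i5, i6, i7, i8, i9, hinj, ρ, fun ℓ hℓ hℓM hℓS A hA σ hσ => ?_,
      fun q hq hql hqM hq2 A hA σ hσ => ?_⟩
    · rw [← ha ℓ hℓ hℓM hℓS]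
      exact DetCyclo.charpoly_frobenius lam hp ρ S hlamS a hquad hns hℓ hℓS hA hσ
    · obtain ⟨b⟩ := FLTAgent.Deformation.nonempty_basis ρ
      rw [Frobenius.charpoly_eq_charpoly_matOf ρ b]
      refine charpoly_of_rel hq.ne_zero _ ?_ ?_
      · rw [show (FLTAgent.Deformation.matOf ρ b σ).det = LinearMap.det (ρ.ρ σ) from
          LinearMap.det_toMatrix b _]
        exact DetCyclo.eq_of_forall_sub_mem fun n =>
          DetCyclo.det_sub_mem lam hp ρ S hlamS a hquad hns σ n q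
            (DetCyclo.cycloExponent_frobenius hq hql hA hσ n)
      · have h := congrArg (LinearMap.toMatrixAlgEquiv b) (hbad q hq hql hqM hq2 A hA σ hσ)
        simp only [map_sub, map_mul, map_smul, map_one] at h
        exact h
  · push Not at hns
    obtain ⟨ρ', c, hc, hchar⟩ := exists_companion_hom lam hp ρ hns
    have huniq : ∀ x : O'', x • (1 : Module.End O'' ρ.V) = 0 → x = 0 := fun x h => by
      obtain ⟨bs⟩ := FLTAgent.Deformation.nonempty_basis ρ
      have := congrArg (fun f : Module.End O'' ρ.V => bs.repr (f (bs 0)) 0) h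
      simpa using this
    have hinv : ∀ σ, c σ * c σ⁻¹ = 1 := fun σ => by rw [← map_mul, mul_inv_cancel, map_one]
    refine ⟨O'', i1, i2, i3, i4, i5, i6, i7, i8, i9, hinj, ρ', fun ℓ hℓ hℓM hℓS A hA σ hσ => ?_,
      fun q hq hql hqM hq2 A hA σ hσ => ?_⟩
    · have h1 := hquad ℓ hℓ hℓS A hA σ hσ
      rw [hc, smul_mul_smul_comm, one_mul, smul_smul, ← sub_smul, ← add_smul] at h1
      have h2 := huniq _ h1
      rw [← ha ℓ hℓ hℓM hℓS, hchar, cycloO_frobenius lam hp hℓ (fun h => hℓS (h ▸ hlamS)) hA hσ,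
        show c σ + (ℓ : O'') * c σ⁻¹ = a ℓ by
          linear_combination c σ⁻¹ * h2 - (c σ - a ℓ) * hinv σ]
    · have h1 := hbad q hq hql hqM hq2 A hA σ hσ
      have h2 : (c σ * c σ - 1) * (c σ * c σ - ((q * q : ℕ) : O'')) = 0 := by
        refine huniq _ ?_
        rw [hc] at h1
        simp only [smul_mul_smul_comm, one_mul] at h1
        rw [← sub_eq_zero] at h1
        refine Eq.trans ?_ h1
        module
      rw [hchar, cycloO_frobenius lam hp hq hql hA hσ]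
      rw [Nat.cast_mul] at h2
      have hsq : (c σ + (q : O'') * c σ⁻¹) ^ 2 = ((q : O'') + 1) ^ 2 := by
        have h3 : c σ ≠ 0 := left_ne_zero_of_mul_eq_one (hinv σ)
        refine mul_left_cancel₀ (pow_ne_zero 2 h3) ?_
        linear_combination h2 + (q : O'') * (2 * c σ * c σ + (q : O'') * (c σ * c σ⁻¹ + 1)) * hinv σ
      rcases eq_or_eq_neg_of_sq_eq_sq _ _ hsq with h5 | h5
      · exact Or.inl (by rw [h5])
      · exact Or.inr (by rw [h5, map_neg, neg_mul, sub_neg_eq_add])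

end FLTAgent.BadRed
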