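import Fermat.Agent.BadRed.Top

/-!
# The reductions of integral functions form a fibre product over finitely many reduced points
-/

set_option autoImplicit false
set_option linter.style.haveILetI false
set_option linter.unusedSectionVars false

noncomputable section

namespace FLTAgent.BadRed

open AlgebraicCurve FLTAgent.Curves FLTAgent.Specialization Polynomial IntermediateField

variable {L k : Type*} [Field L] [Field k] {A : ValuationSubring L} {π : A →+* k}
  {FC Fb F : Type*} [Field FC] [Field Fb] [Field F] [Algebra L FC]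
  [Algebra k Fb] [Algebra L F] [IsAlgClosed L] [IsFunctionField L FC] [IsFunctionField L F]
  [IsAlgClosed k] [IsFunctionField k Fb] {q : ℕ}

/-- A finite-dimensional reduced algebra over an algebraically closed field is split. -/
theorem exists_split (B : Type*) [CommRing B] [Algebra k B] [Module.Finite k B] [IsReduced B] :
    ∃ (n : ℕ) (s : Fin n → B →ₐ[k] k),
      (∀ x, (∀ i, s i x = 0) → x = 0) ∧ ∀ c : Fin n → k, ∃ x, ∀ i, s i x = c i := by
  classical
  haveI : IsArtinianRing B := isArtinian_of_tower k inferInstance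
  have hpt : ∀ I : MaximalSpectrum B, ∃ φ : B →ₐ[k] k, RingHom.ker φ.toRingHom = I.asIdeal := by
    intro I
    haveI := I.isMaximal
    letI := Ideal.Quotient.field I.asIdeal
    have hb : Function.Bijective (algebraMap k (B ⧸ I.asIdeal)) :=
      ⟨(algebraMap k _).injective, IsAlgClosed.algebraMap_bijective_of_isIntegral.surjective⟩
    let e : k ≃ₐ[k] (B ⧸ I.asIdeal) := AlgEquiv.ofBijective (Algebra.ofId k _) hb
    refine ⟨e.symm.toAlgHom.comp (Ideal.Quotient.mkₐ k I.asIdeal), Ideal.ext fun x => ?_⟩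
    rw [RingHom.mem_ker]
    show e.symm (Ideal.Quotient.mk I.asIdeal x) = 0 ↔ _
    rw [map_eq_zero_iff _ e.symm.injective, Ideal.Quotient.eq_zero_iff_mem]
  choose φ hφ using hpt
  letI := Fintype.ofFinite (MaximalSpectrum B)
  let e := Fintype.equivFin (MaximalSpectrum B)
  let Φ := IsArtinianRing.equivPi B
  have hΦ : ∀ x I, Φ x I = Ideal.Quotient.mk I.asIdeal x := fun x I => rfl
  refine ⟨_, fun i => φ (e.symm i), fun x hx => ?_, fun c => ?_⟩
  · refine Φ.injective (funext fun I => ?_)
    rw [map_zero, Pi.zero_apply, hΦ, Ideal.Quotient.eq_zero_iff_mem, ← hφ, RingHom.mem_ker]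
    show φ I x = 0
    simpa using hx (e I)
  · refine ⟨Φ.symm fun I => algebraMap k _ (c (e I)), fun i => ?_⟩
    set I := e.symm i with hI
    set x := Φ.symm fun I => algebraMap k (B ⧸ I.asIdeal) (c (e I))
    have h : x - algebraMap k B (c (e I)) ∈ I.asIdeal := by
      rw [← Ideal.Quotient.eq, ← hΦ]
      simp [x]
    rw [← hφ, RingHom.mem_ker] at h
    change φ I (x - algebraMap k B (c (e I))) = 0 at h
    rw [map_sub, AlgHom.commutes, sub_eq_zero] at h
    simpa [hI] using h

/-- A product of subspaces as a product of spaces. -/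
def prodSubEquiv {R M N : Type*} [Semiring R] [AddCommMonoid M] [AddCommMonoid N] [Module R M]
    [Module R N] (p : Submodule R M) (p' : Submodule R N) : ↥(p.prod p') ≃ₗ[R] p × p' where
  toFun x := (⟨x.1.1, x.2.1⟩, ⟨x.1.2, x.2.2⟩)
  invFun y := ⟨(y.1, y.2), y.1.2, y.2.2⟩
  map_add' := fun _ _ => rfl
  map_smul' := fun _ _ => rfl
  left_inv := fun _ => rfl
  right_inv := fun _ => rfl

namespace Sheet

variable (S : Sheet π FC Fb F q)

/-- Functions regular off the poles of the coordinate. -/
def regular : Subalgebra k Fb where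
  carrier := {a | IntegralWrt k S.MC.xb a}
  mul_mem' := integralWrt_mul
  add_mem' := integralWrt_add
  algebraMap_mem' := integralWrt_algebraMap _

theorem mem_regular {a : Fb} : a ∈ S.regular ↔ IntegralWrt k S.MC.xb a := Iff.rfl

theorem regular_of_rimg {m : ℕ} {g : Fb × Fb} (hg : g ∈ S.rimg m) :
    g.1 ∈ S.regular ∧ g.2 ∈ S.regular :=
  ⟨(mem_rrSpace_poles.1 (S.rimg_le_targ m hg).1).1, (mem_rrSpace_poles.1 (S.rimg_le_targ m hg).2).1⟩

theorem V_mem_regular {a : Fb} (ha : a ∈ S.regular) : S.V a ∈ S.regular :=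
  integralWrt_trans (integralWrt_pow (integralWrt_self _) q)
    (S.V_xb ▸ integralWrt_map S.V S.MC.transcendental ha)

theorem regular_of_pow {a : Fb} (ha : a ^ q ∈ S.regular) : a ∈ S.regular := fun v hv => by
  rcases eq_or_ne a 0 with rfl | h0
  · exact ordGE_zero _ _
  have h := (ha v hv).le_ord (pow_ne_zero _ h0)
  rw [ord_pow] at h
  have := S.one_lt
  exact ordGE_of_le (by nlinarith)

/-- The points glued by the reductions of integral functions. -/
structure Nodes where
  n : ℕ
  s : Fin n → Fb →ₗ[k] k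
  m₀ : ℕ
  bound_le : ((rBound k Fb).toNat + (rBound L F).toNat) ≤ m₀
  s_one : ∀ i, s i 1 = 1
  s_mul : ∀ i a b, a ∈ S.regular → b ∈ S.regular → s i (a * b) = s i a * s i b
  s_V : ∀ i a, a ∈ S.regular → s i (S.V (S.V a)) = s i a
  surj : ∀ m, m₀ ≤ m → ∀ c : Fin n → k, ∃ a ∈ riemannRochSpace ((m : ℤ) • poleDiv k S.MC.xb),
    ∀ i, s i a = c i
  compat : ∀ m g, g ∈ S.rimg m → ∀ i, s i g.1 = s i (S.V g.2)
  char : ∀ m, m₀ ≤ m → ∀ g, g ∈ S.targ m → (∀ i, s i g.1 = s i (S.V g.2)) → g ∈ S.rimg m

variable {S} (hS : S.Good)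
include hS

theorem Good.finrank_rimg : ∃ m₀ : ℕ, ∀ m, m₀ ≤ m → (Module.finrank k (S.rimg m) : ℤ) =
    (m : ℤ) * ((q + 1) * Module.finrank k⟮S.MC.xb⟯ Fb : ℕ) + 1 - rGenus L F := by
  refine ⟨(rBound L F).toNat, fun m hm => ?_⟩
  have h := ell_poles (K := L) S.transcendental_X (m := m)
    (by have := Int.self_le_toNat (rBound L F); omega)
  rw [rimg, LRed.finrank_image S.orth_one S.MC.surj, h, ← S.MC.finrank_eq, ← S.finrank_eq]
  rfl

theorem Good.finiteDimensional_rimg (m : ℕ) : FiniteDimensional k (S.rimg m) :=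
  LRed.finiteDimensional_image S.orth_one S.MC.surj _

theorem finiteDimensional_targ (m : ℕ) : FiniteDimensional k (S.targ m) :=
  Module.Finite.equiv (prodSubEquiv _ _).symm

theorem Good.finrank_targ : ∃ m₀ : ℕ, ∀ m, m₀ ≤ m → (Module.finrank k (S.targ m) : ℤ) =
    (m : ℤ) * ((q + 1) * Module.finrank k⟮S.MC.xb⟯ Fb : ℕ) + 2 - 2 * rGenus k Fb := by
  refine ⟨(rBound k Fb).toNat, fun m hm => ?_⟩
  have hb := Int.self_le_toNat (rBound k Fb)
  have hq := S.one_lt
  have h1 := ell_poles (K := k) S.MC.transcendental (m := m) (by omega)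
  have h2 := ell_poles (K := k) S.MC.transcendental (m := q * m)
    (by have : m ≤ q * m := Nat.le_mul_of_pos_left _ (by omega); omega)
  rw [targ, (prodSubEquiv _ _).finrank_eq, Module.finrank_prod, Nat.cast_add, h1, h2]
  push_cast
  ring

set_option synthInstance.maxHeartbeats 200000 in
set_option maxHeartbeats 1000000 in
/-- Integral functions reduce onto a fibre product over finitely many points. -/
theorem Good.nonempty_nodes : Nonempty S.Nodes := by
  classical
  obtain ⟨c₁, hR⟩ := hS.finrank_rimg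
  obtain ⟨c₂, hT⟩ := hS.finrank_targ
  obtain ⟨c₃, hlift⟩ := hS.exists_lift
  obtain ⟨c₄, hfill⟩ := hS.fill
  set C := c₁ + c₂ + c₃ + c₄ + ((rBound k Fb).toNat + (rBound L F).toNat) + 1
  -- stabilisation
  have hstep : ∀ m, C ≤ m → S.rimg (m + 1) ⊓ S.targ m ≤ S.rimg m := by
    intro m hm
    have := hS.finiteDimensional_rimg (m + 1)
    have := finiteDimensional_targ hS m
    have hle : S.rimg m ≤ S.rimg (m + 1) ⊓ S.targ m :=
      le_inf (S.rimg_mono (Nat.le_succ m)) (S.rimg_le_targ m)
    haveI : FiniteDimensional k ↥(S.rimg (m + 1) ⊓ S.targ m) :=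
      Submodule.finiteDimensional_of_le inf_le_left
    refine (Submodule.eq_of_le_of_finrank_le hle ?_).ge
    have hsup : S.rimg (m + 1) ⊔ S.targ m = S.targ (m + 1) :=
      le_antisymm (sup_le (S.rimg_le_targ _) (S.targ_mono (Nat.le_succ m)))
        (by simpa using hfill (m + 1) (by omega))
    have h := Submodule.finrank_sup_add_finrank_inf_eq (S.rimg (m + 1)) (S.targ m)
    rw [hsup] at h
    have e1 := hR m (by omega)
    have e2 := hR (m + 1) (by omega)
    have e3 := hT m (by omega)
    have e4 := hT (m + 1) (by omega)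
    have h' : (Module.finrank k (S.targ (m + 1)) : ℤ) +
        Module.finrank k ↥(S.rimg (m + 1) ⊓ S.targ m) =
        Module.finrank k (S.rimg (m + 1)) + Module.finrank k (S.targ m) := by exact_mod_cast h
    rw [← Nat.cast_le (α := ℤ)]
    push_cast at e1 e2 e3 e4 h' ⊢
    linarith
  have hstab : ∀ m, C ≤ m → ∀ M, S.rimg M ⊓ S.targ m ≤ S.rimg m := by
    intro m hm M
    rcases le_total M m with h | h
    · exact inf_le_left.trans (S.rimg_mono h)
    induction M, h using Nat.le_induction with
    | base => exact inf_le_left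
    | succ M hM ih =>
        exact le_trans (le_inf (le_trans (inf_le_inf_left _ (S.targ_mono hM))
          (hstep M (hm.trans hM))) inf_le_right) ih
  -- the ideal
  have hαβ : ∀ a, a ∈ S.regular → ∃ m, (a, S.V a) ∈ S.rimg m ∧ (S.V a, a) ∈ S.rimg m := by
    intro a ha
    obtain ⟨m, hm⟩ := exists_mem_poles ha
    obtain ⟨h1, h2⟩ := hlift (max m c₃) (le_max_right _ _) a
      (poles_mono (le_max_left _ _) hm)
    have hq : max m c₃ ≤ q * max m c₃ := Nat.le_mul_of_pos_left _ (by have := S.one_lt; omega)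
    exact ⟨q * max m c₃, S.rimg_mono hq h1, h2⟩
  let I : Ideal S.regular :=
    { carrier := {a | ∃ m, ((a : Fb), (0 : Fb)) ∈ S.rimg m}
      zero_mem' := ⟨0, by simpa [Prod.mk_zero_zero] using (S.rimg 0).zero_mem⟩
      add_mem' := fun {a b} ⟨m, ha⟩ ⟨m', hb⟩ => ⟨max m m', by
        simpa using Submodule.add_mem _ (S.rimg_mono (le_max_left m m') ha)
          (S.rimg_mono (le_max_right m m') hb)⟩
      smul_mem' := fun c a ⟨m, ha⟩ => by
        obtain ⟨m', hc, -⟩ := hαβ c c.2
        exact ⟨m' + m, by simpa using S.rimg_mul hc ha⟩ }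
  have hI : ∀ a : S.regular, a ∈ I ↔ ∃ m, ((a : Fb), (0 : Fb)) ∈ S.rimg m := fun a => Iff.rfl
  have hmk : ∀ a b : Fb, b ∈ S.regular → ∀ m, (a, b) ∈ S.rimg m →
      ∃ m', (a - S.V b, (0 : Fb)) ∈ S.rimg m' := by
    intro a b hb m h
    obtain ⟨m', -, h'⟩ := hαβ b hb
    refine ⟨max m m', ?_⟩
    simpa using (S.rimg (max m m')).sub_mem
      (S.rimg_mono (le_max_left m m') h) (S.rimg_mono (le_max_right m m') h')
  have hmk' : ∀ a b : Fb, b ∈ S.regular → (∃ m, (a - S.V b, (0 : Fb)) ∈ S.rimg m) →
      ∃ m', (a, b) ∈ S.rimg m' := by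
    rintro a b hb ⟨m, h⟩
    obtain ⟨m', -, h'⟩ := hαβ b hb
    refine ⟨max m m', ?_⟩
    simpa using Submodule.add_mem _ (S.rimg_mono (le_max_left m m') h)
      (S.rimg_mono (le_max_right m m') h')
  have hVV : ∀ a : S.regular, a - ⟨S.V (S.V a), S.V_mem_regular (S.V_mem_regular a.2)⟩ ∈ I := by
    intro a
    obtain ⟨m, h, -⟩ := hαβ a a.2
    exact (hI _).2 (hmk a (S.V a) (S.V_mem_regular a.2) m h)
  -- finite
  let δ : ℤ := rGenus L F + 1 - 2 * rGenus k Fb
  haveI : Module.Free k (S.regular ⧸ I) := Module.Free.of_divisionRing k _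
  haveI hfin : Module.Finite k (S.regular ⧸ I) := by
    refine Module.rank_lt_aleph0_iff.1 (lt_of_le_of_lt (rank_le (n := δ.toNat) fun t ht => ?_)
      Cardinal.natCast_lt_aleph0)
    choose a ha using fun x : t => Ideal.Quotient.mk_surjective (x : S.regular ⧸ I)
    choose ma hma using fun x : t => exists_mem_poles (a x).2
    set m := max C (Finset.univ.sup ma)
    have := hS.finiteDimensional_rimg m
    have := finiteDimensional_targ hS m
    set P : Submodule k (S.targ m) := (S.rimg m).comap (S.targ m).subtype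
    let v : t → S.targ m := fun x => ⟨((a x : Fb), 0),
      poles_mono (le_max_of_le_right (Finset.le_sup (Finset.mem_univ x))) (hma x),
      Submodule.zero_mem _⟩
    have hind : LinearIndependent k fun x => P.mkQ (v x) := by
      rw [Fintype.linearIndependent_iff]
      intro c hc
      have hc' : P.mkQ (∑ x, c x • v x) = 0 := by
        rw [map_sum]
        simpa only [map_smul] using hc
      rw [Submodule.mkQ_apply, Submodule.Quotient.mk_eq_zero] at hc'
      have hmem : ∑ x, c x • a x ∈ I := (hI _).2 ⟨m, by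
        have h1 : ((∑ x, c x • v x : S.targ m) : Fb × Fb) =
            (((∑ x, c x • a x : S.regular) : Fb), (0 : Fb)) := by
          simp [v, Prod.ext_iff, Prod.fst_sum, Prod.snd_sum]
        have h2 : ((∑ x, c x • v x : S.targ m) : Fb × Fb) ∈ S.rimg m := hc'
        rwa [h1] at h2⟩
      refine Fintype.linearIndependent_iff.1 ht c ?_
      rw [← Ideal.Quotient.eq_zero_iff_mem, ← Ideal.Quotient.mkₐ_eq_mk k, map_sum] at hmem
      rw [← hmem]
      refine Finset.sum_congr rfl fun x _ => ?_
      rw [map_smul, Ideal.Quotient.mkₐ_eq_mk, ha]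
    have hcard := hind.fintype_card_le_finrank
    rw [Fintype.card_coe] at hcard
    have hP : Module.finrank k P = Module.finrank k (S.rimg m) :=
      (Submodule.comapSubtypeEquivOfLe (S.rimg_le_targ m)).finrank_eq
    have hsum := P.finrank_quotient_add_finrank
    have e1 := hR m (by omega)
    have e2 := hT m (by omega)
    have hsum' : (Module.finrank k (↥(S.targ m) ⧸ P) : ℤ) + Module.finrank k P =
        Module.finrank k (S.targ m) := by exact_mod_cast hsum
    have : (Module.finrank k (↥(S.targ m) ⧸ P) : ℤ) = δ := by rw [hP] at hsum'; linarith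
    omega
  -- reduced
  haveI : IsArtinianRing (S.regular ⧸ I) := isArtinian_of_tower k inferInstance
  haveI : IsReduced (S.regular ⧸ I) := by
    obtain ⟨K, hK⟩ := IsArtinianRing.isNilpotent_nilradical (R := S.regular ⧸ I)
    have key : ∀ j : ℕ, ∀ y : S.regular ⧸ I, IsNilpotent y → ∃ z, IsNilpotent z ∧ y = z ^ q ^ j := by
      intro j
      induction j with
      | zero => exact fun y hy => ⟨y, hy, by simp⟩
      | succ j ih =>
          intro y hy
          obtain ⟨z, hz, rfl⟩ := ih y hy
          obtain ⟨a, rfl⟩ := Ideal.Quotient.mk_surjective z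
          obtain ⟨ψ, hψ⟩ := hS.exists_root (S.V (a : Fb))
          have hψr : ψ ∈ S.regular :=
            S.regular_of_pow (hψ ▸ S.V_mem_regular (S.V_mem_regular a.2))
          have h : Ideal.Quotient.mk I a = Ideal.Quotient.mk I ⟨ψ, hψr⟩ ^ q := by
            rw [← map_pow, Ideal.Quotient.eq]
            convert hVV a using 2
            exact Subtype.ext hψ.symm
          obtain ⟨r, hr⟩ := hz
          refine ⟨_, ⟨q * r, by rw [pow_mul, ← h, hr]⟩, ?_⟩
          rw [h, ← pow_mul, ← pow_succ']
    refine ⟨fun y hy => ?_⟩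
    obtain ⟨z, hz, rfl⟩ := key K y hy
    have hmem : z ^ K ∈ nilradical (S.regular ⧸ I) ^ K := Ideal.pow_mem_pow hz K
    rw [hK] at hmem
    exact pow_eq_zero_of_le (Nat.lt_pow_self S.one_lt).le hmem
  obtain ⟨n, t, hinj, hsurj⟩ := exists_split (k := k) (S.regular ⧸ I)
  have hext : ∀ i, ∃ s : Fb →ₗ[k] k, ∀ a : S.regular, s a = t i (Ideal.Quotient.mk I a) := by
    intro i
    obtain ⟨s, hs⟩ := LinearMap.exists_extend (p := Subalgebra.toSubmodule S.regular)
      ((t i).comp (Ideal.Quotient.mkₐ k I)).toLinearMap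
    exact ⟨s, fun a => LinearMap.congr_fun hs a⟩
  choose s hs using hext
  have hmem_I : ∀ a : S.regular, a ∈ I ↔ ∀ i, s i a = 0 := fun a => by
    rw [← Ideal.Quotient.eq_zero_iff_mem]
    exact ⟨fun h i => by rw [hs, h, map_zero], fun h => hinj _ fun i => by rw [← hs]; exact h i⟩
  choose pre hpre using fun c : Fin n => hsurj (Pi.single c 1)
  choose lift hlift' using fun c => Ideal.Quotient.mk_surjective (pre c)
  choose md hmd using fun c => exists_mem_poles (lift c).2
  refine ⟨
    { n := n
      s := s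
      m₀ := max C (Finset.univ.sup md)
      bound_le := le_max_of_le_left (by omega)
      s_one := fun i => by simpa using hs i 1
      s_mul := fun i a b ha hb => by
        have := hs i (⟨a, ha⟩ * ⟨b, hb⟩)
        rw [map_mul, map_mul, ← hs, ← hs] at this
        exact this
      s_V := fun i a ha => by
        have := (hmem_I _).1 (hVV ⟨a, ha⟩) i
        rw [AddSubgroupClass.coe_sub, map_sub, sub_eq_zero] at this
        exact this.symm
      surj := fun m hm c => ?_
      compat := fun m g hg i => ?_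
      char := fun m hm g hgt h => ?_ }⟩
  · refine ⟨∑ j, c j • (lift j : Fb), Submodule.sum_mem _ fun j _ => Submodule.smul_mem _ _
      (poles_mono ((Finset.le_sup (Finset.mem_univ j)).trans ((le_max_right _ _).trans hm))
        (hmd j)), fun i => ?_⟩
    simp [map_sum, hs, hlift', hpre, Pi.single_apply]
  · obtain ⟨h1, h2⟩ := S.regular_of_rimg hg
    have hx := (hmem_I ⟨g.1 - S.V g.2, S.regular.sub_mem h1 (S.V_mem_regular h2)⟩).1
      ((hI _).2 (hmk g.1 g.2 h2 m hg)) i
    rwa [map_sub, sub_eq_zero] at hx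
  · have h1 : g.1 ∈ S.regular := (mem_rrSpace_poles.1 hgt.1).1
    have h2 : g.2 ∈ S.regular := (mem_rrSpace_poles.1 hgt.2).1
    obtain ⟨M, hM⟩ := hmk' g.1 g.2 h2 ((hI ⟨_, S.regular.sub_mem h1 (S.V_mem_regular h2)⟩).1
      ((hmem_I _).2 fun i => by simp [h i]))
    exact hstab m ((le_max_left _ _).trans hm) M ⟨hM, hgt⟩

end Sheet

end FLTAgent.BadRed
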