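import Fermat.Agent.BadRed.Galois
import Fermat.Agent.Kronecker.Cover
import Fermat.Prelude.Def_AlgebraicCurve_Correspondence

/-!
# Reduction of norms along the two maps to the curve below
-/

set_option autoImplicit false
set_option linter.style.haveILetI false
set_option linter.unusedSectionVars false

noncomputable section

namespace FLTAgent.BadRed

open AlgebraicCurve FLTAgent.Curves FLTAgent.Specialization Polynomial IntermediateField Matrix

variable {L k : Type*} [Field L] [Field k] {A : ValuationSubring L} {π : A →+* k}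
  {FC Fb F : Type*} [Field FC] [Field Fb] [Field F] [Algebra L FC]
  [Algebra k Fb] [Algebra L F] [IsAlgClosed L] [IsFunctionField L FC] [IsFunctionField L F]
  [IsAlgClosed k] [IsFunctionField k Fb] {q : ℕ}

namespace Sheet

variable (S : Sheet π FC Fb F q)

/-- The reductions of a separated basis over the field below. -/
def colRed : Unit ⊕ Fin q → Fb × Fb :=
  Sum.elim (fun _ => (1, 0)) fun i => (0, S.MC.xb ^ (i : ℕ))

/-- The pair of combinations with coefficients `c`. -/
def colComb (c : Unit ⊕ Fin q → Fb) : Fb × Fb :=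
  (c (Sum.inl ()), ∑ i : Fin q, S.MC.xb ^ (i : ℕ) * S.V (c (Sum.inr i)))

theorem colComb_eq_zero {c : Unit ⊕ Fin q → Fb} (h : S.colComb c = 0) : c = 0 := by
  have h2 := S.indepV (fun i => c (Sum.inr i)) (congrArg Prod.snd h)
  funext z
  rcases z with ⟨⟨⟩⟩ | i
  exacts [congrArg Prod.fst h, congrFun h2 i]

theorem colComb_injective : Function.Injective S.colComb := by
  intro c c' h
  refine sub_eq_zero.1 (S.colComb_eq_zero ?_)
  have h1 := congrArg Prod.fst h
  have h2 := congrArg Prod.snd h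
  simp only [colComb, Prod.ext_iff, Prod.fst_zero, Prod.snd_zero, Pi.sub_apply, map_sub, mul_sub,
    Finset.sum_sub_distrib] at h1 h2 ⊢
  exact ⟨sub_eq_zero.2 h1, sub_eq_zero.2 h2⟩

variable {S} {d : L} {v : Unit ⊕ Fin q → F}

theorem colComb_res (hv : ∀ z, (S.pair d).Res (v z) (S.colRed z)) {a : Unit ⊕ Fin q → FC}
    {c : Unit ⊕ Fin q → Fb} (hac : ∀ z, S.MC.Res (a z) (c z)) :
    (S.pair d).Res (∑ z, S.α (a z) * v z) (S.colComb c) := by
  convert S.pair_comb hv hac using 1
  simp [colComb, colRed, Fintype.sum_sum_type, mul_comm]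

theorem col_scale (hv : ∀ z, (S.pair d).Res (v z) (S.colRed z)) {a : Unit ⊕ Fin q → FC}
    (ha : a ≠ 0) : ∃ (s : FC) (c : Unit ⊕ Fin q → Fb), (∀ z, S.MC.Res (s * a z) (c z)) ∧
      S.colComb c ≠ 0 ∧ (S.pair d).Res (S.α s * ∑ z, S.α (a z) * v z) (S.colComb c) := by
  obtain ⟨s, j, hs, hj⟩ := S.MC.total.exists_scale_family ha
  choose c hc using fun z => S.MC.exists_res_of_mem (hs z)
  refine ⟨s, c, hc, fun h0 => ?_, ?_⟩
  · have h1 : S.MC.Res (s * a j) 1 := by rw [hj]; exact S.MC.res_one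
    exact one_ne_zero ((h1.unique (hc j)).trans (congrFun (S.colComb_eq_zero h0) j))
  · convert colComb_res hv hc using 1
    rw [Finset.mul_sum]
    exact Finset.sum_congr rfl fun z _ => by rw [map_mul, mul_assoc]

theorem col_coord (hv : ∀ z, (S.pair d).Res (v z) (S.colRed z)) {a : Unit ⊕ Fin q → FC}
    {g : Fb × Fb} (h : (S.pair d).Res (∑ z, S.α (a z) * v z) g) (z : Unit ⊕ Fin q) :
    a z ∈ S.MC.O := by
  by_cases ha : a = 0
  · simp [ha, zero_mem]
  obtain ⟨s, c, hc, hne, hres⟩ := col_scale hv ha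
  by_cases hs : S.MC.Res s 0
  · have h1 := S.pair_mul (S.pair_α hs) h
    rw [one_mul, map_zero, Prod.mk_zero_zero, zero_mul] at h1
    exact absurd ((S.pair d).unique hres h1) hne
  · have hs' := S.MC.total.inv_mem_of_not_res hs
    have hs0 : s ≠ 0 := fun h0 => hs (h0 ▸ S.MC.res_zero)
    rw [show a z = s⁻¹ * (s * a z) from (inv_mul_cancel_left₀ hs0 _).symm]
    exact mul_mem hs' (hc z).mem

variable (S)

/-- A family separating the sheets for the twist `d`, together with its rescaling. -/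
theorem exists_col_family {d : L} (hd : d ≠ 0) :
    ∃ v : Unit ⊕ Fin q → F, (∀ z, (S.pair 1).Res (v z) (S.colRed z)) ∧
      ∀ z, (S.pair d).Res (Sum.elim (fun _ => (1 : L)) (fun _ => d⁻¹) z • v z) (S.colRed z) := by
  obtain ⟨e₁, e₂, h₁, h₂, hs₁, hs₂⟩ := S.exists_sep
  obtain ⟨N₁, hN₁⟩ := hs₁ 1
  obtain ⟨N₁', hN₁'⟩ := hs₁ d
  obtain ⟨N₂, hN₂⟩ := hs₂ 1
  obtain ⟨N₂', hN₂'⟩ := hs₂ d⁻¹
  have a₁ : S.R₁.Res (e₁ ^ (N₁ + N₁')) 1 := by simpa using h₁.pow (N₁ + N₁')
  have a₂ := hN₁ (N₁ + N₁') le_self_add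
  have a₃ := hN₁' (N₁ + N₁') le_add_self
  have b₁ : S.R₂.Res (e₂ ^ (N₂ + N₂')) 1 := by simpa using h₂.pow (N₂ + N₂')
  have b₂ := hN₂ (N₂ + N₂') le_self_add
  have b₃ := hN₂' (N₂ + N₂') le_add_self
  rw [one_smul] at a₂ b₂
  refine ⟨Sum.elim (fun _ => e₁ ^ (N₁ + N₁'))
    (fun i => S.β S.MC.x ^ (i : ℕ) * e₂ ^ (N₂ + N₂')), ?_, ?_⟩
  · rintro (u | i)
    · exact ⟨a₁, by rw [one_smul]; exact a₂⟩
    · have h := S.pair_mul (S.pair_pow (S.pair_β S.MC.x_res) i)
        (show (S.pair 1).Res (e₂ ^ (N₂ + N₂')) (0, 1) from ⟨b₂, by rw [one_smul]; exact b₁⟩)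
      rw [one_pow, one_mul] at h
      convert h using 1
      · simp
      · simp [colRed]
  · rintro (u | i)
    · simp only [Sum.elim_inl, one_smul]
      exact ⟨a₁, a₃⟩
    · have h := S.pair_mul (S.pair_pow (S.pair_β S.MC.x_res) i)
        (show (S.pair d).Res (d⁻¹ • e₂ ^ (N₂ + N₂')) (0, 1) from
          ⟨b₃, by rw [smul_smul, mul_inv_cancel₀ hd, one_smul]; exact b₁⟩)
      rw [one_pow, one_mul] at h
      convert h using 1
      · simp
      · simp [colRed]

theorem finrankAlong_α : finrankAlong L S.α = q + 1 := by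
  letI := algebraAlong S.α
  haveI := isScalarTower_along S.α
  have h := Kronecker.finrank_adjoin_algebraMap (K := L) (F := FC) (F' := F) S.MC.x
  change Module.finrank L⟮S.α S.MC.x⟯ F = _ at h
  rw [S.finrank_eq, mul_comm] at h
  haveI := finiteDimensional_adjoin (K := L) S.MC.transcendental_x
  exact (Nat.eq_of_mul_eq_mul_left Module.finrank_pos h).symm

/-- The norm down along `α` reduces to the product of the two reductions. -/
theorem exists_norm_res (hinj : ∀ x y : Fb, x ^ q = y ^ q → x = y) {f : F} {c₁ c₂ : L}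
    {a₁ a₂ b : Fb} (ha₁ : a₁ ≠ 0) (ha₂ : a₂ ≠ 0) (r₁ : S.R₁.Res (c₁ • f) a₁)
    (r₂ : S.R₂.Res (c₂ • f) a₂) (hb : S.V b = a₂ ^ q) :
    S.MC.Res ((c₁ * c₂ ^ q) • @Algebra.norm FC F _ _ (algebraAlong S.α) f) (a₁ * b) := by
  classical
  have hc₁ : c₁ ≠ 0 := by
    rintro rfl
    rw [zero_smul] at r₁
    exact ha₁ (r₁.unique S.R₁.res_zero)
  have hc₂ : c₂ ≠ 0 := by
    rintro rfl
    rw [zero_smul] at r₂
    exact ha₂ (r₂.unique S.R₂.res_zero)
  set d := c₂ / c₁
  have hd : d ≠ 0 := div_ne_zero hc₂ hc₁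
  obtain ⟨v, hv, hv'⟩ := S.exists_col_family hd
  set f' := c₁ • f
  have hf' : (S.pair d).Res f' (a₁, a₂) :=
    ⟨r₁, by rw [smul_smul, div_mul_cancel₀ _ hc₁]; exact r₂⟩
  set e : Unit ⊕ Fin q → L := Sum.elim (fun _ => (1 : L)) fun _ => d⁻¹
  letI := algebraAlong S.α
  haveI := isScalarTower_along S.α
  haveI : Module.Finite FC F := Kronecker.moduleFinite_of_functionField L
  have hsmul : ∀ (a : FC) (y : F), a • y = S.α a * y := fun a y => rfl
  have hli : LinearIndependent FC v := by
    rw [Fintype.linearIndependent_iff]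
    intro a ha
    by_contra hne
    have hne' : a ≠ 0 := fun h => hne fun z => congrFun h z
    obtain ⟨s, c, -, hc, hres⟩ := col_scale hv hne'
    simp only [hsmul] at ha
    rw [ha, mul_zero] at hres
    exact hc ((S.pair 1).unique hres (S.pair 1).res_zero)
  have hcard : Fintype.card (Unit ⊕ Fin q) = Module.finrank FC F := by
    rw [show Module.finrank FC F = q + 1 from S.finrankAlong_α]
    simp [add_comm]
  let bas := basisOfLinearIndependentOfCardEqFinrank hli hcard
  have hbas : ∀ z, bas z = v z := fun z => by simp [bas]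
  set T := Algebra.leftMulMatrix bas f'
  let Mx : Matrix (Unit ⊕ Fin q) (Unit ⊕ Fin q) FC :=
    Matrix.of fun i j => algebraMap L FC (e i)⁻¹ * T i j
  have he : ∀ z, e z ≠ 0 := by rintro (u | i) <;> simp [e, hd]
  have hsum : ∀ j, f' * v j = ∑ i, S.α (Mx i j) * (e i • v i) := by
    intro j
    conv_lhs => rw [← hbas j, ← bas.sum_repr (f' * bas j)]
    refine Finset.sum_congr rfl fun i _ => ?_
    rw [hsmul, show bas.repr (f' * bas j) i = T i j from
      (Algebra.leftMulMatrix_eq_repr_mul bas f' i j).symm, hbas]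
    simp only [Mx, Matrix.of_apply, map_mul, AlgHom.commutes, Algebra.smul_def, map_inv₀, T]
    field_simp [map_ne_zero (algebraMap L F) |>.2 (he i)]
  have hres : ∀ j, (S.pair d).Res (∑ i, S.α (Mx i j) * (e i • v i)) ((a₁, a₂) * S.colRed j) :=
    fun j => by
      rw [← hsum]
      have := S.pair_mul hf' (hv j)
      rwa [mul_one] at this
  have hint : ∀ i j, Mx i j ∈ S.MC.O := fun i j => col_coord hv' (hres j) i
  let MO : Matrix (Unit ⊕ Fin q) (Unit ⊕ Fin q) S.MC.O := Matrix.of fun i j => ⟨Mx i j, hint i j⟩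
  let Mb := MO.map S.MC.red
  have hcol : ∀ j, S.colComb (fun i => Mb i j) = (a₁, a₂) * S.colRed j := fun j =>
    (S.pair d).unique (colComb_res hv' fun i => ⟨hint i j, rfl⟩) (hres j)
  have h11 : Mb (Sum.inl ()) (Sum.inl ()) = a₁ := by
    simpa [colComb, colRed] using congrArg Prod.fst (hcol (Sum.inl ()))
  have h12 : Mb.toBlocks₁₂ = 0 := by
    ext u i
    simpa [colComb, colRed, Matrix.toBlocks₁₂] using congrArg Prod.fst (hcol (Sum.inr i))
  let B := Mb.toBlocks₂₂
  have hB : ∀ i, ∑ l : Fin q, S.MC.xb ^ (l : ℕ) * S.V (B l i) = a₂ * S.MC.xb ^ (i : ℕ) := fun i => by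
    simpa [colComb, colRed, B, Matrix.toBlocks₂₂] using congrArg Prod.snd (hcol (Sum.inr i))
  have hdetB : B.det = b := by
    have hpow : ∀ (m : ℕ) i, ∑ l : Fin q, S.MC.xb ^ (l : ℕ) * S.V ((B ^ m) l i) =
        a₂ ^ m * S.MC.xb ^ (i : ℕ) := by
      intro m
      induction m with
      | zero =>
          intro i
          simp [Matrix.one_apply, apply_ite S.V, mul_ite, Finset.sum_ite_eq']
      | succ m ih =>
          intro i
          simp only [pow_succ B, Matrix.mul_apply, map_sum, map_mul, Finset.mul_sum]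
          rw [Finset.sum_comm]
          simp only [← mul_assoc, ← Finset.sum_mul, ih]
          simp only [mul_assoc, ← Finset.mul_sum, hB]
          ring
    have hq : B ^ q = b • (1 : Matrix (Fin q) (Fin q) Fb) := by
      ext l i
      refine sub_eq_zero.1 (congrFun (S.indepV (fun l => (B ^ q) l i - (b • (1 : Matrix _ _ Fb)) l i)
        ?_) l)
      simp only [map_sub, mul_sub, Finset.sum_sub_distrib, hpow, Matrix.smul_apply, smul_eq_mul,
        Matrix.one_apply, mul_ite, mul_one, mul_zero, apply_ite S.V, map_zero,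
        Finset.sum_ite_eq', Finset.mem_univ, if_true, hb]
      ring
    have h := congrArg Matrix.det hq
    rw [Matrix.det_pow, Matrix.det_smul, Matrix.det_one, mul_one, Fintype.card_fin] at h
    exact hinj _ _ h
  have hdet : Mb.det = a₁ * b := by
    rw [← Matrix.fromBlocks_toBlocks Mb, h12, Matrix.det_fromBlocks_zero₁₂, hdetB.symm]
    congr 1
    rw [Matrix.det_unique]
    exact h11
  have hM : S.MC.Res Mx.det (a₁ * b) := by
    refine ⟨?_, ?_⟩
    · have := (MO.det).2
      rwa [← S.MC.O.subtype_apply, RingHom.map_det] at this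
    · rw [← hdet, show Mb.det = S.MC.red MO.det from (S.MC.red.map_det MO).symm]
      exact congrArg S.MC.red (Subtype.ext (S.MC.O.subtype.map_det MO).symm)
  have hT : T = Matrix.diagonal (fun i => algebraMap L FC (e i)) * Mx := by
    ext i j
    rw [Matrix.diagonal_mul]
    simp [Mx, he i]
  have hnorm : Algebra.norm FC f' = algebraMap L FC (d⁻¹ ^ q) * Mx.det := by
    rw [Algebra.norm_eq_matrix_det bas, show Algebra.leftMulMatrix bas f' = T from rfl, hT,
      Matrix.det_mul, Matrix.det_diagonal, Fintype.prod_sum_type]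
    simp [e]
  have hnorm' : Algebra.norm FC f' = algebraMap L FC (c₁ ^ (q + 1)) * Algebra.norm FC f := by
    rw [show f' = algebraMap FC F (algebraMap L FC c₁) * f by
      rw [← IsScalarTower.algebraMap_apply, ← Algebra.smul_def], map_mul,
      Algebra.norm_algebraMap, show Module.finrank FC F = q + 1 from S.finrankAlong_α, map_pow]
  convert hM using 1
  have e1 := hnorm'.symm.trans hnorm
  have : algebraMap L FC (d ^ q) * (algebraMap L FC (d⁻¹ ^ q) * Mx.det) = Mx.det := by
    rw [← mul_assoc, ← map_mul, ← mul_pow, mul_inv_cancel₀ hd, one_pow, map_one, one_mul]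
  rw [← this, ← e1, ← mul_assoc, ← map_mul, Algebra.smul_def]
  congr 2
  simp only [d, div_pow, pow_succ]
  field_simp

/-- The sheets with the two maps exchanged. -/
def swap (h : finrankAlong L S.β = q + 1) : Sheet π FC Fb F q where
  MC := S.MC
  α := S.β
  β := S.α
  R₁ := S.R₂
  R₂ := S.R₁
  V := S.V
  α₁ := S.β₂
  α₂ := S.β₁
  β₁ := S.α₂
  β₂ := S.α₁
  V_xb := S.V_xb
  one_lt := S.one_lt
  indepV := S.indepV
  finrank_eq := by
    letI := algebraAlong S.β
    haveI := isScalarTower_along S.β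
    have h1 := Kronecker.finrank_adjoin_algebraMap (K := L) (F := FC) (F' := F) S.MC.x
    change Module.finrank L⟮S.β S.MC.x⟯ F = _ at h1
    change Module.finrank FC F = q + 1 at h
    rw [h1, h, mul_comm]
  arch := S.arch
  exists_nonunit := S.exists_nonunit

end Sheet

end FLTAgent.BadRed
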