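import Fermat.Agent.BadRed.Linear
import Fermat.Agent.BadRed.Integral
import Fermat.Agent.Specialization.Model

/-!
# Two reductions over a model of degree `q + 1`

`F` contains two copies `α, β` of a function field with good reduction; two reductions of `F` see
these as `(id, V)` and `(V, id)`, with `V` purely inseparable of degree `q`.
-/

set_option autoImplicit false
set_option linter.style.haveILetI false
set_option linter.unusedSectionVars false

noncomputable section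

namespace FLTAgent.BadRed

open AlgebraicCurve FLTAgent.Curves FLTAgent.Specialization Polynomial IntermediateField

variable {L k : Type*} [Field L] [Field k] {A : ValuationSubring L}

/-- The data of the two sheets. -/
structure Sheet (π : A →+* k) (FC Fb F : Type*) [Field FC] [Field Fb] [Field F] [Algebra L FC]
    [Algebra k Fb] [Algebra L F] (q : ℕ) where
  MC : Model π FC Fb
  α : FC →ₐ[L] F
  β : FC →ₐ[L] F
  R₁ : Reduction π F Fb
  R₂ : Reduction π F Fb
  V : Fb →ₐ[k] Fb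
  α₁ : ∀ f g, MC.Res f g → R₁.Res (α f) g
  α₂ : ∀ f g, MC.Res f g → R₂.Res (α f) (V g)
  β₁ : ∀ f g, MC.Res f g → R₁.Res (β f) (V g)
  β₂ : ∀ f g, MC.Res f g → R₂.Res (β f) g
  V_xb : V MC.xb = MC.xb ^ q
  one_lt : 1 < q
  indepV : ∀ c : Fin q → Fb, ∑ i : Fin q, MC.xb ^ (i : ℕ) * V (c i) = 0 → c = 0
  finrank_eq : Module.finrank L⟮α MC.x⟯ F = (q + 1) * Module.finrank L⟮MC.x⟯ FC
  arch : ∀ (t : A) (c : L), π t = 0 →
    ∃ (N : ℕ) (h : c * (t : L) ^ N ∈ A), π ⟨_, h⟩ = 0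
  exists_nonunit : ∃ t : A, π t = 0 ∧ (t : L) ≠ 0

namespace Sheet

variable {π : A →+* k} {FC Fb F : Type*} [Field FC] [Field Fb] [Field F] [Algebra L FC]
  [Algebra k Fb] [Algebra L F] {q : ℕ} (S : Sheet π FC Fb F q)

/-- The coordinate upstairs. -/
def X : F := S.α S.MC.x

/-- The twisted pair of reductions. -/
def pair (d : L) : LRed π F (Fb × Fb) where
  Res f g := S.R₁.Res f g.1 ∧ S.R₂.Res (d • f) g.2
  unique h h' := Prod.ext (h.1.unique h'.1) (h.2.unique h'.2)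
  res_zero := ⟨S.R₁.res_zero, by rw [smul_zero]; exact S.R₂.res_zero⟩
  res_add h h' := ⟨h.1.add h'.1, by rw [smul_add]; exact h.2.add h'.2⟩
  res_smul := fun a {_ _} h => ⟨h.1.smul a, by rw [smul_comm]; exact h.2.smul a⟩

theorem pair_res {d : L} {f : F} {g : Fb × Fb} :
    (S.pair d).Res f g ↔ S.R₁.Res f g.1 ∧ S.R₂.Res (d • f) g.2 := Iff.rfl

theorem pair_mul {d d' : L} {f f' : F} {g g' : Fb × Fb} (h : (S.pair d).Res f g)
    (h' : (S.pair d').Res f' g') : (S.pair (d * d')).Res (f * f') (g * g') :=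
  ⟨h.1.mul h'.1, by rw [← smul_mul_smul_comm]; exact h.2.mul h'.2⟩

theorem pair_one : (S.pair 1).Res 1 1 := ⟨S.R₁.res_one, by rw [one_smul]; exact S.R₂.res_one⟩

theorem pair_pow {d : L} {f : F} {g : Fb × Fb} (h : (S.pair d).Res f g) (n : ℕ) :
    (S.pair (d ^ n)).Res (f ^ n) (g ^ n) := by
  induction n with
  | zero => simpa using S.pair_one
  | succ n ih => rw [pow_succ, pow_succ, pow_succ]; exact S.pair_mul ih h

theorem pair_α {a : FC} {c : Fb} (h : S.MC.Res a c) : (S.pair 1).Res (S.α a) (c, S.V c) :=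
  ⟨S.α₁ _ _ h, by rw [one_smul]; exact S.α₂ _ _ h⟩

theorem pair_β {a : FC} {c : Fb} (h : S.MC.Res a c) : (S.pair 1).Res (S.β a) (S.V c, c) :=
  ⟨S.β₁ _ _ h, by rw [one_smul]; exact S.β₂ _ _ h⟩

theorem V_injective : Function.Injective S.V := S.V.toRingHom.injective

theorem xb_ne_zero : S.MC.xb ≠ 0 := ne_zero_of_transcendental S.MC.transcendental

theorem pair_X : (S.pair 1).Res S.X (S.MC.xb, S.MC.xb ^ q) := by
  rw [← S.V_xb]; exact S.pair_α S.MC.x_res

theorem xb_pow_inj {a b : ℕ} (h : S.MC.xb ^ a = S.MC.xb ^ b) : a = b := by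
  by_contra hne
  refine S.MC.transcendental ⟨(Polynomial.X : k[X]) ^ a - Polynomial.X ^ b, ?_, by simp [h]⟩
  refine fun h0 => hne ?_
  have := congrArg Polynomial.natDegree (sub_eq_zero.mp h0)
  simpa using this

theorem exists_idempotent : ∃ e : F, (S.pair 1).Res e (1, 0) := by
  have hb := S.pair_β S.MC.x_res
  rw [S.V_xb] at hb
  have hn := LRed.res_sub hb (S.pair_pow S.pair_X q |> fun h => by rwa [one_pow] at h)
  have hd := LRed.res_sub hb (S.pair_pow hb (q ^ 2) |> fun h => by rwa [one_pow] at h)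
  set D := S.β S.MC.x - (S.β S.MC.x) ^ q ^ 2
  have hq := S.one_lt
  have h1 : (S.MC.xb ^ q - (S.MC.xb ^ q) ^ q ^ 2 : Fb) ≠ 0 := by
    rw [sub_ne_zero, ← pow_mul]
    exact fun h => absurd (S.xb_pow_inj h) (by nlinarith)
  have h2 : (S.MC.xb - S.MC.xb ^ q ^ 2 : Fb) ≠ 0 := by
    rw [sub_ne_zero]
    intro h
    have := S.xb_pow_inj (a := 1) (b := q ^ 2) (by rwa [pow_one])
    nlinarith
  obtain ⟨hd1, hd2⟩ := hd
  obtain ⟨hn1, hn2⟩ := hn
  simp only [one_smul, Prod.fst_sub, Prod.snd_sub, Prod.pow_fst, Prod.pow_snd] at hd1 hd2 hn1 hn2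
  refine ⟨1 - (S.β S.MC.x - S.X ^ q) / D, ?_, ?_⟩
  · have := S.R₁.res_one.sub (hn1.div hd1 h1)
    simpa using this
  · have := S.R₂.res_one.sub (hn2.div hd2 h2)
    rw [one_smul]
    rw [show ((S.MC.xb ^ q) ^ q : Fb) = S.MC.xb ^ q ^ 2 by rw [← pow_mul, sq], div_self h2,
      sub_self] at this
    exact this

theorem pair_comb {d : L} {ι : Type*} [Fintype ι] {v : ι → F} {w : ι → Fb × Fb}
    (hvw : ∀ i, (S.pair d).Res (v i) (w i)) {a : ι → FC} {c : ι → Fb}
    (hac : ∀ i, S.MC.Res (a i) (c i)) :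
    (S.pair d).Res (∑ i, S.α (a i) * v i) (∑ i, c i * (w i).1, ∑ i, S.V (c i) * (w i).2) := by
  have h := LRed.res_sum (R := S.pair d) (s := Finset.univ) fun i _ =>
    show (S.pair d).Res (S.α (a i) * v i) (c i * (w i).1, S.V (c i) * (w i).2) by
      have := S.pair_mul (S.pair_α (hac i)) (hvw i)
      rwa [one_mul] at this
  convert h using 1
  exact Prod.ext (by rw [Prod.fst_sum]) (by rw [Prod.snd_sum])

/-- A family which stays independent after reduction, over the rational subfield. -/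
def KIndep {ι : Type*} [Fintype ι] (w : ι → Fb × Fb) : Prop :=
  ∀ c : ι → Fb, (∀ i, c i ∈ k⟮S.MC.xb⟯) → ∑ i, c i * (w i).1 = 0 →
    ∑ i, S.V (c i) * (w i).2 = 0 → c = 0

/-- A basis with independent twisted reductions. -/
def IsGoodBasis (d : L) {ι : Type*} [Fintype ι] (v : ι → F) (w : ι → Fb × Fb) : Prop :=
  (∀ i, (S.pair d).Res (v i) (w i)) ∧ S.KIndep w ∧
    Fintype.card ι = (q + 1) * Module.finrank L⟮S.MC.x⟯ FC

section Good

variable {d : L} {ι : Type*} [Fintype ι] {v : ι → F} {w : ι → Fb × Fb}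

theorem IsGoodBasis.exists_scale (hG : S.IsGoodBasis d v w) {a : ι → L⟮S.MC.x⟯} (ha : a ≠ 0) :
    ∃ (s : L⟮S.MC.x⟯) (c : ι → Fb) (j : ι), (s * a j : L⟮S.MC.x⟯) = 1 ∧
      (∀ i, S.MC.Res ((s * a i : L⟮S.MC.x⟯) : FC) (c i)) ∧
      ((∑ i, c i * (w i).1, ∑ i, S.V (c i) * (w i).2) : Fb × Fb) ≠ 0 ∧
      (S.pair d).Res (S.α s * ∑ i, S.α (a i) * v i)
        (∑ i, c i * (w i).1, ∑ i, S.V (c i) * (w i).2) := by
  set R₀ := Reduction.lineReduction S.MC.x_res S.MC.transcendental S.MC.surj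
  obtain ⟨s, j, hs, hj⟩ := (Reduction.lineReduction_total S.MC.x_res S.MC.transcendental
    S.MC.surj).exists_scale_family ha
  choose c hc using fun i => R₀.exists_res_of_mem (hs i)
  have hc' : ∀ i, S.MC.Res ((s * a i : L⟮S.MC.x⟯) : FC) (c i : Fb) := fun i =>
    Reduction.restrict_res_iff.1 (hc i)
  refine ⟨s, fun i => c i, j, hj, hc', fun h0 => ?_, ?_⟩
  · have hz := hG.2.1 (fun i => c i) (fun i => (c i).2) (congrArg Prod.fst h0)
      (congrArg Prod.snd h0)
    have h1 : S.MC.Res ((s * a j : L⟮S.MC.x⟯) : FC) 1 := by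
      rw [hj]; exact S.MC.res_one
    exact one_ne_zero ((h1.unique (hc' j)).trans (congrFun hz j))
  · have h := S.pair_comb hG.1 hc'
    convert h using 1
    rw [Finset.mul_sum]
    exact Finset.sum_congr rfl fun i _ => by
      rw [MulMemClass.coe_mul, map_mul, mul_assoc]

theorem IsGoodBasis.coord_mem (hG : S.IsGoodBasis d v w) {a : ι → L⟮S.MC.x⟯}
    (h : (S.pair d).Integral (∑ i, S.α (a i) * v i)) (i : ι) : (a i : FC) ∈ S.MC.O := by
  by_cases ha : a = 0
  · simp [ha, zero_mem]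
  obtain ⟨s, c, j, hj, hc, hne, hres⟩ := hG.exists_scale S ha
  obtain ⟨g, hg⟩ := h
  by_cases hs : S.MC.Res (s : FC) 0
  · exfalso
    have h1 := S.pair_mul (S.pair_α hs) hg
    rw [one_mul, map_zero] at h1
    refine hne ((S.pair d).unique hres ?_)
    convert h1 using 1
    exact Prod.ext (by simp) (by simp)
  · have hT := S.MC.toReduction
    have hs' : (s : FC)⁻¹ ∈ S.MC.O := by
      have := (Reduction.lineReduction_total S.MC.x_res S.MC.transcendental
        S.MC.surj).inv_mem_of_not_res (f := s) (fun h0 => hs (Reduction.restrict_res_iff.1 h0))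
      exact this
    have hs0 : s ≠ 0 := left_ne_zero_of_mul_eq_one hj
    have : (a i : FC) = (s : FC)⁻¹ * ((s * a i : L⟮S.MC.x⟯) : FC) := by
      rw [MulMemClass.coe_mul, ← mul_assoc, inv_mul_cancel₀ (by simpa using hs0), one_mul]
    rw [this]
    exact mul_mem hs' (hc i).mem

variable [IsAlgClosed L] [IsFunctionField L FC] [IsFunctionField L F] [IsAlgClosed k]
  [IsFunctionField k Fb]

theorem transcendental_X : Transcendental L S.X :=
  transcendental_map S.α S.MC.transcendental_x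

theorem mem_adjoin_X {r : F} :
    r ∈ L⟮S.X⟯ ↔ ∃ a : L⟮S.MC.x⟯, S.α a = r := by
  have h : L⟮S.X⟯ = L⟮S.MC.x⟯.map S.α := by
    rw [IntermediateField.adjoin_map, Set.image_singleton]; rfl
  rw [h, IntermediateField.mem_map]
  exact ⟨fun ⟨a, ha, h⟩ => ⟨⟨a, ha⟩, h⟩, fun ⟨a, h⟩ => ⟨a, a.2, h⟩⟩

theorem IsGoodBasis.linearIndependent (hG : S.IsGoodBasis d v w) :
    LinearIndependent L⟮S.X⟯ v := by
  rw [Fintype.linearIndependent_iff]
  intro r hr
  choose a ha using fun i => (S.mem_adjoin_X).1 (r i).2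
  by_contra hne
  have ha0 : a ≠ 0 := fun h => hne fun i => Subtype.ext (by rw [← ha i, h]; simp)
  obtain ⟨s, c, j, -, -, hne', hres⟩ := hG.exists_scale S ha0
  have h0 : ∑ i, S.α (a i) * v i = 0 := by
    simpa [ha, IntermediateField.smul_def] using hr
  rw [h0, mul_zero] at hres
  exact hne' ((S.pair d).unique hres (S.pair d).res_zero)

theorem IsGoodBasis.span_eq_top (hG : S.IsGoodBasis d v w) :
    Submodule.span L⟮S.X⟯ (Set.range v) = ⊤ := by
  haveI := finiteDimensional_adjoin (K := L) (F := F) S.transcendental_X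
  haveI := finiteDimensional_adjoin (K := L) (F := FC) S.MC.transcendental_x
  haveI : Nonempty ι := Fintype.card_pos_iff.1 (by rw [hG.2.2]; exact Nat.mul_pos (Nat.succ_pos q) Module.finrank_pos)
  exact (hG.linearIndependent S).span_eq_top_of_card_eq_finrank
    (hG.2.2.trans S.finrank_eq.symm)

theorem IsGoodBasis.exists_coord (hG : S.IsGoodBasis d v w) (f : F) :
    ∃ a : ι → L⟮S.MC.x⟯, f = ∑ i, S.α (a i) * v i := by
  obtain ⟨r, hr⟩ := (Submodule.mem_span_range_iff_exists_fun _).1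
    ((hG.span_eq_top S).symm ▸ Submodule.mem_top : f ∈ Submodule.span L⟮S.X⟯ (Set.range v))
  choose a ha using fun i => (S.mem_adjoin_X).1 (r i).2
  exact ⟨a, by simp [← hr, ha, IntermediateField.smul_def]⟩

theorem IsGoodBasis.orth (hG : S.IsGoodBasis d v w) : (S.pair d).Orth := by
  classical
  intro U hU
  obtain ⟨Q, N, hQ0, hQ⟩ := Reduction.exists_common_denominator (hG.span_eq_top S)
    S.transcendental_X U
  obtain ⟨c, Qb, hc, hQb, hres⟩ :=
    Reduction.exists_scale_aeval S.MC.x_res S.MC.transcendental S.MC.surj hQ0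
  have hd : aeval S.MC.xb Qb ≠ 0 := fun h => S.MC.transcendental ⟨_, hQb, h⟩
  let e : Fin (N + 1) × ι → F := fun z => S.X ^ (z.1 : ℕ) * v z.2
  let eb : Fin (N + 1) × ι → Fb × Fb := fun z =>
    (S.MC.xb, S.MC.xb ^ q) ^ (z.1 : ℕ) * w z.2
  have hee : ∀ z, (S.pair d).Res (e z) (eb z) := fun z => by
    have := S.pair_mul (S.pair_pow S.pair_X z.1) (hG.1 z.2)
    rwa [one_pow, one_mul] at this
  have heb : LinearIndependent k eb := by
    rw [Fintype.linearIndependent_iff]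
    intro C hC
    have hmem : ∀ j, ∑ a : Fin (N + 1), C (a, j) • S.MC.xb ^ (a : ℕ) ∈ k⟮S.MC.xb⟯ := fun j =>
      sum_mem fun a _ => IntermediateField.smul_mem _ (pow_mem (mem_adjoin_simple_self k _) _)
    have hV : ∀ j, S.V (∑ a : Fin (N + 1), C (a, j) • S.MC.xb ^ (a : ℕ)) =
        ∑ a : Fin (N + 1), C (a, j) • (S.MC.xb ^ q) ^ (a : ℕ) := fun j => by
      simp [map_sum, S.V_xb]
    have hz := hG.2.1 (fun j => ∑ a : Fin (N + 1), C (a, j) • S.MC.xb ^ (a : ℕ)) hmem
      (by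
        have := congrArg Prod.fst hC
        rw [Prod.fst_sum, Fintype.sum_prod_type_right] at this
        simpa [eb, Finset.sum_mul] using this)
      (by
        have := congrArg Prod.snd hC
        rw [Prod.snd_sum, Fintype.sum_prod_type_right] at this
        simpa [eb, hV, Finset.sum_mul] using this)
    intro z
    exact Fintype.linearIndependent_iff.1
      (Reduction.linearIndependent_pow_res S.MC.transcendental (N + 1)) (fun a => C (a, z.2))
      (congrFun hz z.2) z.1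
  set μ : F := S.α (c • aeval S.MC.x Q)
  have hμX : μ = c • aeval S.X Q := by simp [μ, X, aeval_algHom_apply]
  have hμ0 : μ ≠ 0 := (S.α₁ _ _ hres).ne_zero hd
  have hmul : Function.Injective (LinearMap.mulLeft L μ) := mul_right_injective₀ hμ0
  obtain ⟨u, z, hu, huz, hz⟩ := LRed.exists_orth_of_le S.MC.surj hee heb
    (U := U.map (LinearMap.mulLeft L μ)) (by
      rintro _ ⟨f, hf, rfl⟩
      rw [LinearMap.mulLeft_apply, hμX, smul_mul_assoc]
      exact Submodule.smul_mem _ _ (hQ f hf))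
  have hn : Module.finrank L (U.map (LinearMap.mulLeft L μ)) = Module.finrank L U :=
    (Submodule.equivMapOfInjective _ hmul U).finrank_eq.symm
  choose f hf hfe using fun i => hu i
  have hinv := S.pair_α (hres.inv hd)
  refine ⟨fun i => f (Fin.cast hn.symm i),
    fun i => ((aeval S.MC.xb Qb)⁻¹, S.V (aeval S.MC.xb Qb)⁻¹) * z (Fin.cast hn.symm i),
    fun i => hf _, fun i => ?_, ?_⟩
  · have := S.pair_mul hinv (huz (Fin.cast hn.symm i))
    rw [one_mul, ← hfe (Fin.cast hn.symm i), LinearMap.mulLeft_apply, ← mul_assoc, map_inv₀,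
      inv_mul_cancel₀ hμ0, one_mul] at this
    exact this
  · refine (hz.map' (LinearMap.mulLeft k
      (((aeval S.MC.xb Qb)⁻¹, S.V (aeval S.MC.xb Qb)⁻¹) : Fb × Fb)) ?_).comp _
      (Fin.cast_injective _)
    rw [LinearMap.ker_eq_bot]
    intro a b hab
    simp only [LinearMap.mulLeft_apply, Prod.ext_iff, Prod.fst_mul, Prod.snd_mul] at hab
    exact Prod.ext (mul_left_cancel₀ (inv_ne_zero hd) hab.1) (mul_left_cancel₀
      ((map_ne_zero S.V).2 (inv_ne_zero hd)) hab.2)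

end Good

variable [IsAlgClosed L] [IsFunctionField L FC] [IsFunctionField L F] [IsAlgClosed k]
  [IsFunctionField k Fb]

/-- The index type of the good bases. -/
abbrev Idx : Type := Fin (Module.finrank k⟮S.MC.xb⟯ Fb) ⊕
  (Fin q × Fin (Module.finrank k⟮S.MC.xb⟯ Fb))

/-- A good basis from a pair of elements separating the two reductions. -/
theorem exists_goodBasis_of {d : L} {e₁ e₂ : F} (h₁ : (S.pair d).Res e₁ (1, 0))
    (h₂ : (S.pair d).Res e₂ (0, 1)) :
    ∃ (v : S.Idx → F) (w : S.Idx → Fb × Fb), S.IsGoodBasis d v w := by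
  obtain ⟨u, w, huw, hw, -, -⟩ := S.MC.exists_basis
  refine ⟨Sum.elim (fun j => S.α (u j) * e₁) (fun z => S.α (u z.2) * S.β S.MC.x ^ (z.1 : ℕ) * e₂),
    Sum.elim (fun j => (w j, 0)) (fun z => (0, S.MC.xb ^ (z.1 : ℕ) * S.V (w z.2))), ?_, ?_, ?_⟩
  · rintro (j | ⟨i, j⟩)
    · have h := S.pair_mul (S.pair_α (huw j)) h₁
      rw [one_mul] at h
      convert h using 1
      exacts [rfl, Prod.ext (by simp) (by simp)]
    · have h := S.pair_mul (S.pair_mul (S.pair_α (huw j))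
        (S.pair_pow (S.pair_β S.MC.x_res) i)) h₂
      rw [one_pow, one_mul, one_mul] at h
      convert h using 1
      exacts [rfl, Prod.ext (by simp) (by simp [mul_comm])]
  · intro c hc h1 h2
    simp only [Fintype.sum_sum_type, Sum.elim_inl, Sum.elim_inr, mul_zero, Finset.sum_const_zero,
      add_zero, zero_add, Fintype.sum_prod_type] at h1 h2
    have hli := Fintype.linearIndependent_iff.1 hw
    have hI : ∀ j, c (Sum.inl j) = 0 := fun j => congrArg Subtype.val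
      (hli (fun j => ⟨c (Sum.inl j), hc _⟩) (by simpa [IntermediateField.smul_def] using h1) j)
    have hII : ∀ i j, c (Sum.inr (i, j)) = 0 := by
      have h3 := S.indepV (fun i => ∑ j, c (Sum.inr (i, j)) * w j) (by
        simp only [map_sum, map_mul, Finset.mul_sum]
        rw [← h2]
        exact Finset.sum_congr rfl fun i _ => Finset.sum_congr rfl fun j _ => by ring)
      exact fun i j => congrArg Subtype.val (hli (fun j => ⟨c (Sum.inr (i, j)), hc _⟩)
        (by simpa [IntermediateField.smul_def] using congrFun h3 i) j)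
    funext z
    rcases z with j | ⟨i, j⟩
    exacts [hI j, hII i j]
  · simp only [Idx, Fintype.card_sum, Fintype.card_prod, Fintype.card_fin, ← S.MC.finrank_eq]
    ring

theorem orth_one : (S.pair 1).Orth := by
  obtain ⟨e, he⟩ := S.exists_idempotent
  have he' : (S.pair 1).Res (1 - e) (0, 1) := by
    have := LRed.res_sub S.pair_one he
    convert this using 1
    exact Prod.ext (by simp) (by simp)
  obtain ⟨v, w, hG⟩ := S.exists_goodBasis_of he he'
  exact hG.orth S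

/-- Separating elements which are arbitrarily small on the other sheet. -/
theorem exists_sep : ∃ (e₁ e₂ : F), S.R₁.Res e₁ 1 ∧ S.R₂.Res e₂ 1 ∧
    (∀ c : L, ∃ N₀, ∀ N, N₀ ≤ N → S.R₂.Res (c • e₁ ^ N) 0) ∧
    (∀ c : L, ∃ N₀, ∀ N, N₀ ≤ N → S.R₁.Res (c • e₂ ^ N) 0) := by
  obtain ⟨e, he⟩ := S.exists_idempotent
  have he₁ : S.R₁.Res e 1 := he.1
  have he₂ : S.R₂.Res e 0 := by simpa using he.2
  have hf₁ : S.R₁.Res (1 - e) 0 := by simpa using S.R₁.res_one.sub he₁
  have hf₂ : S.R₂.Res (1 - e) 1 := by simpa using S.R₂.res_one.sub he₂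
  have h0 : (S.pair 1).Res (e * (1 - e)) 0 := ⟨by simpa using he₁.mul hf₁,
    by rw [one_smul]; simpa using he₂.mul hf₂⟩
  obtain ⟨t₀, ht₀, ht₀'⟩ := S.exists_nonunit
  obtain ⟨t, ht, -, y, ⟨g, hy1, hy2⟩, hy⟩ := LRed.exists_small S.orth_one S.MC.surj h0 ht₀ ht₀'
  rw [one_smul] at hy2
  have key : ∀ (R : Reduction π F Fb) (a b : F) (g : Fb), R.Res b 1 → R.Res y g →
      a * b = (t : L) • y → ∀ c : L, ∃ N₀, ∀ N, N₀ ≤ N → R.Res (c • a ^ N) 0 := by
    intro R a b g hb hg hab c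
    obtain ⟨N₀, hN₀, hπ⟩ := S.arch t c ht
    refine ⟨N₀, fun N hN => ?_⟩
    have ha : a = (t : L) • (y * b⁻¹) := by
      rw [← smul_mul_assoc, ← hab, mul_assoc, mul_inv_cancel₀ (hb.ne_zero one_ne_zero), mul_one]
    obtain ⟨l, rfl⟩ := Nat.exists_eq_add_of_le hN
    have h := ((hg.mul (hb.inv one_ne_zero)).pow (N₀ + l)).smul (⟨_, hN₀⟩ * t ^ l)
    rw [map_mul, hπ, zero_mul, zero_smul] at h
    rw [ha, _root_.smul_pow, smul_smul]
    convert h using 2
    push_cast
    ring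
  exact ⟨e, 1 - e, he₁, hf₂, key S.R₂ e (1 - e) _ hf₂ hy2 hy,
    key S.R₁ (1 - e) e _ he₁ hy1 (by rw [mul_comm]; exact hy)⟩

/-- Every twist has good bases, hence orthonormal bases. -/
theorem exists_goodBasis {d : L} (hd : d ≠ 0) :
    ∃ (v : S.Idx → F) (w : S.Idx → Fb × Fb), S.IsGoodBasis d v w := by
  obtain ⟨e₁, e₂, h₁, h₂, hs₁, hs₂⟩ := S.exists_sep
  obtain ⟨N₁, hN₁⟩ := hs₁ d
  obtain ⟨N₂, hN₂⟩ := hs₂ d⁻¹
  refine S.exists_goodBasis_of (e₁ := e₁ ^ N₁) (e₂ := d⁻¹ • e₂ ^ N₂) ⟨?_, hN₁ N₁ le_rfl⟩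
    ⟨hN₂ N₂ le_rfl, ?_⟩
  · simpa using h₁.pow N₁
  · rw [smul_smul, mul_inv_cancel₀ hd, one_smul]
    simpa using h₂.pow N₂

theorem orth {d : L} (hd : d ≠ 0) : (S.pair d).Orth := by
  obtain ⟨v, w, hG⟩ := S.exists_goodBasis hd
  exact hG.orth S

theorem exists_bounded {f : F} (hf : f ≠ 0) : ∃ c : L, c ≠ 0 ∧ c • f ∈ S.R₁.O ∧ c • f ∈ S.R₂.O := by
  obtain ⟨c, g, hg, h1, h2⟩ := LRed.exists_scale S.orth_one S.MC.surj hf
  rw [one_smul] at h2
  refine ⟨c, ?_, h1.mem, h2.mem⟩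
  rintro rfl
  rw [zero_smul] at h1 h2
  exact hg (Prod.ext (h1.unique S.R₁.res_zero) (h2.unique S.R₂.res_zero))

/-- A reduction extending that of `L(x)` has no infinitely divisible nonzero element. -/
theorem exists_notMem (R : Reduction π F Fb)
    (hR : ∀ a c, S.MC.Res a c → ∃ c', (c ≠ 0 → c' ≠ 0) ∧ R.Res (S.α a) c')
    (hbdd : ∀ g : F, g ≠ 0 → ∃ c : L, c ≠ 0 ∧ c • g ∈ R.O) {f : F} (hf : f ≠ 0) :
    ∃ c : L, c • f ∉ R.O := by
  classical
  by_contra hall
  simp only [not_exists, not_not] at hall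
  haveI := finiteDimensional_adjoin (K := L) (F := F) S.transcendental_X
  have hint : IsIntegral L⟮S.X⟯ f := Algebra.IsIntegral.isIntegral f
  set P := minpoly L⟮S.X⟯ f
  have h0 : P.coeff 0 ≠ 0 := minpoly.coeff_zero_ne_zero hint hf
  set T : F := ∑ i ∈ Finset.range P.natDegree, (P.coeff (i + 1) : F) * f ^ i
  have hsum : (P.coeff 0 : F) = -(f * T) := by
    have h := minpoly.aeval L⟮S.X⟯ f
    rw [aeval_eq_sum_range, Finset.sum_range_succ'] at h
    simp only [IntermediateField.smul_def, smul_eq_mul, pow_zero, mul_one] at h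
    rw [eq_neg_iff_add_eq_zero, ← h, add_comm, Finset.mul_sum]
    congr 1
    exact Finset.sum_congr rfl fun i _ => by rw [pow_succ]; ring
  have hT : T ≠ 0 := fun hT => h0 (Subtype.ext (by simp [hsum, hT]))
  obtain ⟨s, hs, hsT⟩ := hbdd T hT
  obtain ⟨a, ha⟩ := (S.mem_adjoin_X).1 (P.coeff 0).2
  have ha0 : (a : FC) ≠ 0 := fun h => h0 (Subtype.ext (by simp [← ha, h]))
  obtain ⟨c, g, hg, hgr⟩ := S.MC.scaled _ ha0
  obtain ⟨g', hg', hgr'⟩ := hR _ _ hgr
  rw [map_smul, ha, hsum] at hgr'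
  obtain ⟨t, ht, ht'⟩ := S.exists_nonunit
  have hmem : ((t : L)⁻¹ * c) • (-(f * T)) ∈ R.O := by
    have h := neg_mem (mul_mem (hall ((t : L)⁻¹ * c * s⁻¹)) hsT)
    rw [smul_mul_smul_comm, mul_assoc ((t : L)⁻¹ * c), inv_mul_cancel₀ hs, mul_one, ← smul_neg] at h
    exact h
  obtain ⟨g'', hg''⟩ := R.exists_res_of_mem hmem
  have := hg''.smul t
  rw [ht, zero_smul, smul_smul, ← mul_assoc, mul_inv_cancel₀ ht', one_mul] at this
  exact hg' hg (hgr'.unique this)

theorem scaled_aux (R R' : Reduction π F Fb)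
    (hR : ∀ a c, S.MC.Res a c → ∃ c', (c ≠ 0 → c' ≠ 0) ∧ R.Res (S.α a) c')
    (hboth : ∀ g : F, g ≠ 0 → ∃ (c : L) (a b : Fb), (a ≠ 0 ∨ b ≠ 0) ∧ R.Res (c • g) a ∧
      R'.Res (c • g) b)
    {e : F} (he : R.Res e 1) (hs : ∀ c : L, ∃ N₀, ∀ N, N₀ ≤ N → R'.Res (c • e ^ N) 0) :
    R.Scaled := by
  intro f hf
  have hbdd : ∀ g : F, g ≠ 0 → ∃ c : L, c ≠ 0 ∧ c • g ∈ R.O ∧ c • g ∈ R'.O := by
    intro g hg
    obtain ⟨c, a, b, hne, ha, hb⟩ := hboth g hg
    refine ⟨c, ?_, ha.mem, hb.mem⟩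
    rintro rfl
    rw [zero_smul] at ha hb
    exact hne.elim (fun h => h (ha.unique R.res_zero)) fun h => h (hb.unique R'.res_zero)
  obtain ⟨c₀, hc₀⟩ := S.exists_notMem R hR
    (fun g hg => (hbdd g hg).imp fun c h => ⟨h.1, h.2.1⟩) hf
  obtain ⟨c₁, hc₁, -, hc₁'⟩ := hbdd f hf
  obtain ⟨b₁, hb₁⟩ := R'.exists_res_of_mem hc₁'
  obtain ⟨N, hN⟩ := hs (c₀ / c₁)
  have heN : R.Res (e ^ N) 1 := by simpa using he.pow N
  have hz : R'.Res ((c₀ • f) * e ^ N) 0 := by
    have h := hb₁.mul (hN N le_rfl)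
    rwa [mul_zero, smul_mul_smul_comm, mul_div_cancel₀ _ hc₁, ← smul_mul_assoc] at h
  have hnot : (c₀ • f) * e ^ N ∉ R.O := fun hm => hc₀ (by
    have := mul_mem hm (heN.inv one_ne_zero).mem
    rwa [mul_assoc, mul_inv_cancel₀ (heN.ne_zero one_ne_zero), mul_one] at this)
  have hne : (c₀ • f) * e ^ N ≠ 0 := fun h => hnot (h ▸ zero_mem _)
  obtain ⟨c, a, b, hab, ha, hb⟩ := hboth _ hne
  have hc0 : c ≠ 0 := by
    rintro rfl
    rw [zero_smul] at ha hb
    exact hab.elim (fun h => h (ha.unique R.res_zero)) fun h => h (hb.unique R'.res_zero)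
  have hcinv : c⁻¹ ∉ A := fun hm => hnot (by
    have := (ha.smul ⟨c⁻¹, hm⟩).mem
    rwa [smul_smul, inv_mul_cancel₀ hc0, one_smul] at this)
  have hcA : c ∈ A := (A.mem_or_inv_mem c).resolve_right hcinv
  have hb0 : b = 0 := hb.unique (by
    have := hz.smul ⟨c, hcA⟩
    rwa [smul_zero] at this)
  have ha0 : a ≠ 0 := hab.resolve_right (by simp [hb0])
  refine ⟨c * c₀, a, ha0, ?_⟩
  have h := ha.mul (heN.inv one_ne_zero)
  rw [inv_one, mul_one] at h
  convert h using 1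
  rw [← smul_mul_assoc c, mul_assoc, mul_inv_cancel₀ (heN.ne_zero one_ne_zero), mul_one, smul_smul]

theorem scaled₁ : S.R₁.Scaled := by
  obtain ⟨e₁, -, h₁, -, hs₁, -⟩ := S.exists_sep
  refine S.scaled_aux S.R₁ S.R₂ (fun a c h => ⟨c, id, S.α₁ _ _ h⟩) (fun g hg => ?_) h₁ hs₁
  obtain ⟨c, w, hw, h1, h2⟩ := LRed.exists_scale S.orth_one S.MC.surj hg
  rw [one_smul] at h2
  exact ⟨c, w.1, w.2, by by_contra! h; exact hw (Prod.ext h.1 h.2), h1, h2⟩

theorem scaled₂ : S.R₂.Scaled := by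
  obtain ⟨-, e₂, -, h₂, -, hs₂⟩ := S.exists_sep
  refine S.scaled_aux S.R₂ S.R₁
    (fun a c h => ⟨S.V c, (map_ne_zero S.V).2, S.α₂ _ _ h⟩) (fun g hg => ?_) h₂ hs₂
  obtain ⟨c, w, hw, h1, h2⟩ := LRed.exists_scale S.orth_one S.MC.surj hg
  rw [one_smul] at h2
  exact ⟨c, w.2, w.1, by by_contra! h; exact hw (Prod.ext h.2 h.1), h2, h1⟩

/-- Reductions of functions regular off the poles of `X` are regular off the poles of `x̄`. -/
theorem integralWrt_res {f : F} {g : Fb × Fb} (hf : IntegralWrt L S.X f)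
    (h : (S.pair 1).Res f g) :
    IntegralWrt k S.MC.xb g.1 ∧ IntegralWrt k S.MC.xb g.2 := by
  classical
  obtain ⟨e, he⟩ := S.exists_idempotent
  have he' : (S.pair 1).Res (1 - e) (0, 1) := by
    have := LRed.res_sub S.pair_one he
    convert this using 1
    exact Prod.ext (by simp) (by simp)
  obtain ⟨v, w, hG⟩ := S.exists_goodBasis_of he he'
  have hxL := S.transcendental_X
  haveI := finiteDimensional_adjoin (K := L) (F := F) hxL
  obtain ⟨B⟩ := nonempty_reducedBasis (K := L) hxL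
  let b : Module.Basis S.Idx L⟮S.X⟯ F :=
    Module.Basis.mk (hG.linearIndependent S) (hG.span_eq_top S).ge
  let T : F →ₗ[L⟮S.X⟯] F := Algebra.lmul L⟮S.X⟯ F f
  let φα : L⟮S.MC.x⟯ →+* L⟮S.X⟯ := RingHom.codRestrict
    (S.α.toRingHom.comp (algebraMap L⟮S.MC.x⟯ FC)) L⟮S.X⟯ fun a => (S.mem_adjoin_X).2 ⟨a, rfl⟩
  have hent : ∀ i j, ∃ a : L⟮S.MC.x⟯, (a : FC) ∈ S.MC.O ∧
      LinearMap.toMatrix b b T i j = φα a := by
    intro i j
    choose a ha using fun l => (S.mem_adjoin_X).1 (b.repr (T (b j)) l).2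
    refine ⟨a i, hG.coord_mem S ?_ i, Subtype.ext ?_⟩
    · have hsum : ∑ l, S.α (a l) * v l = f * v j := by
        have := b.sum_repr (T (b j))
        simpa [ha, b, T, IntermediateField.smul_def] using this
      rw [hsum]
      have := S.pair_mul h (hG.1 j)
      rw [one_mul] at this
      exact ⟨_, this⟩
    · rw [LinearMap.toMatrix_apply]; exact (ha i).symm
  choose M₀ hM₀ hM using hent
  set O₀ : Subring L⟮S.MC.x⟯ := S.MC.O.comap (algebraMap L⟮S.MC.x⟯ FC)
  let M₁ : Matrix S.Idx S.Idx O₀ := Matrix.of fun i j => ⟨M₀ i j, hM₀ i j⟩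
  set χ := T.charpoly with hχdef
  have hχ : χ = M₁.charpoly.map (φα.comp O₀.subtype) := by
    rw [hχdef, ← LinearMap.charpoly_toMatrix T b, ← Matrix.charpoly_map]
    exact congrArg Matrix.charpoly (Matrix.ext hM)
  let φ : L[X] →ₐ[L] L⟮S.X⟯ := aeval (AdjoinSimple.gen L S.X)
  have hpoly : ∀ i, ∃ p : L[X], (χ.coeff i : F) = aeval S.X p := by
    have hp : ∀ i j, ∃ p : L[X],
        (LinearMap.toMatrix (B.wBasis hxL) (B.wBasis hxL) T) i j = φ p := by
      intro i j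
      obtain ⟨p, hp⟩ := B.exists_polynomial_coord hxL (f := f * B.w j) fun v hv => by
        simpa using (hf v hv).mul (B.integral j v hv)
      refine ⟨p i, Subtype.ext ?_⟩
      rw [LinearMap.toMatrix_apply, ReducedBasis.coe_wBasis]
      have h2 : (φ (p i) : F) = aeval S.X (p i) := by
        simpa [φ] using (aeval_algHom_apply L⟮S.X⟯.val (AdjoinSimple.gen L S.X) (p i)).symm
      rw [h2, ← hp i]
      rfl
    choose p hp using hp
    intro i
    refine ⟨(Matrix.of p).charpoly.coeff i, ?_⟩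
    rw [hχdef, ← LinearMap.charpoly_toMatrix T (B.wBasis hxL),
      show LinearMap.toMatrix (B.wBasis hxL) (B.wBasis hxL) T = (Matrix.of p).map φ.toRingHom from
        Matrix.ext hp, Matrix.charpoly_map, coeff_map]
    simpa [φ] using (aeval_algHom_apply L⟮S.X⟯.val (AdjoinSimple.gen L S.X) _).symm
  have hq : ∀ i, ∃ p : k[X],
      (S.pair 1).Res (χ.coeff i : F) (aeval S.MC.xb p, aeval (S.MC.xb ^ q) p) := fun i => by
    obtain ⟨p, hp⟩ := hpoly i
    set a := M₁.charpoly.coeff i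
    have h1 : (χ.coeff i : F) = S.α ((a : L⟮S.MC.x⟯) : FC) := by rw [hχ, coeff_map]; rfl
    have h2 : ((a : L⟮S.MC.x⟯) : FC) = aeval S.MC.x p :=
      S.α.toRingHom.injective (show S.α _ = S.α _ by
        rw [← h1, hp, X, aeval_algHom_apply])
    have hm : aeval S.MC.x p ∈ S.MC.O := h2 ▸ a.2
    obtain ⟨p', -, hp'⟩ :=
      Reduction.res_of_aeval_mem S.MC.x_res S.MC.transcendental S.MC.surj hm
    refine ⟨p', ?_⟩
    rw [h1, h2, ← S.V_xb, aeval_algHom_apply]
    exact S.pair_α hp'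
  choose p hp using hq
  have hCH : aeval f χ = 0 := by
    have h1 : Algebra.lmul L⟮S.X⟯ F (aeval f χ) = 0 := by
      rw [← aeval_algHom_apply, hχdef]
      exact LinearMap.aeval_self_charpoly T
    simpa using LinearMap.congr_fun h1 1
  have hlc : (χ.coeff χ.natDegree : F) = 1 := by
    rw [show χ.coeff χ.natDegree = 1 from (LinearMap.charpoly_monic T).coeff_natDegree]; rfl
  rw [aeval_eq_sum_range, Finset.sum_range_succ] at hCH
  simp only [IntermediateField.smul_def, smul_eq_mul, hlc, one_mul] at hCH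
  set n := χ.natDegree
  have hpow : ∀ i, (S.pair 1).Res (f ^ i) (g ^ i) := fun i => by
    simpa using S.pair_pow h i
  have hsum := (S.pair 1).res_add (LRed.res_sum (R := S.pair 1) (s := Finset.range n) fun i _ =>
    show (S.pair 1).Res ((χ.coeff i : F) * f ^ i)
      ((aeval S.MC.xb (p i), aeval (S.MC.xb ^ q) (p i)) * g ^ i) by
      simpa using S.pair_mul (hp i) (hpow i)) (hpow n)
  rw [hCH] at hsum
  have hg := (S.pair 1).unique hsum (S.pair 1).res_zero
  have hg1 := congrArg Prod.fst hg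
  have hg2 := congrArg Prod.snd hg
  simp only [Prod.fst_add, Prod.snd_add, Prod.fst_sum, Prod.snd_sum, Prod.fst_mul, Prod.snd_mul,
    Prod.pow_fst, Prod.pow_snd, Prod.fst_zero, Prod.snd_zero] at hg1 hg2
  refine ⟨integralWrt_of_relation (n := n) (p := p) (by rw [add_comm]; exact hg1),
    integralWrt_trans (integralWrt_pow (integralWrt_self _) q)
      (integralWrt_of_relation (n := n) (p := p) (by rw [add_comm]; exact hg2))⟩

/-- The sheet with the inverse coordinate. -/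
def withInv : Sheet π FC Fb F q where
  MC := S.MC.withInv
  α := S.α
  β := S.β
  R₁ := S.R₁
  R₂ := S.R₂
  V := S.V
  α₁ := S.α₁
  α₂ := S.α₂
  β₁ := S.β₁
  β₂ := S.β₂
  V_xb := show S.V S.MC.xb⁻¹ = S.MC.xb⁻¹ ^ q by rw [map_inv₀, S.V_xb, inv_pow]
  one_lt := S.one_lt
  indepV := fun c hc => by
    change ∑ i : Fin q, S.MC.xb⁻¹ ^ (i : ℕ) * S.V (c i) = 0 at hc
    have h := congrArg (fun z => S.MC.xb ^ (q - 1) * z) hc
    simp only [mul_zero, Finset.mul_sum] at h
    have hrev := S.indepV (fun i => c i.rev) (by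
      rw [← h, ← Equiv.sum_comp Fin.revPerm (fun i => S.MC.xb ^ (i : ℕ) * S.V (c i.rev))]
      refine Finset.sum_congr rfl fun i _ => ?_
      simp only [Fin.revPerm_apply, Fin.rev_rev, Fin.val_rev]
      rw [← mul_assoc]
      congr 1
      rw [inv_pow, eq_mul_inv_iff_mul_eq₀ (pow_ne_zero _ S.xb_ne_zero), ← pow_add]
      congr 1
      omega)
    funext i
    simpa using congrFun hrev i.rev
  finrank_eq := show Module.finrank L⟮S.α S.MC.x⁻¹⟯ F = (q + 1) * Module.finrank L⟮S.MC.x⁻¹⟯ FC by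
    rw [map_inv₀, finrank_adjoin_inv, finrank_adjoin_inv, S.finrank_eq]
  arch := S.arch
  exists_nonunit := S.exists_nonunit

theorem withInv_X : S.withInv.X = S.X⁻¹ := map_inv₀ S.α _

/-- Reduction respects the bound on the poles. -/
theorem res_mem_poles {m : ℕ} {f : F} {g : Fb × Fb}
    (hf : f ∈ riemannRochSpace ((m : ℤ) • poleDiv L S.X)) (h : (S.pair 1).Res f g) :
    g.1 ∈ riemannRochSpace ((m : ℤ) • poleDiv k S.MC.xb) ∧
      g.2 ∈ riemannRochSpace (((q * m : ℕ) : ℤ) • poleDiv k S.MC.xb) := by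
  have hX : S.X ≠ 0 := ne_zero_of_transcendental S.transcendental_X
  rw [mem_poles_iff hX] at hf
  obtain ⟨h1, h2⟩ := S.integralWrt_res hf.1 h
  have hinv : (S.pair 1).Res S.X⁻¹ (S.MC.xb⁻¹, (S.MC.xb ^ q)⁻¹) :=
    ⟨S.pair_X.1.inv S.xb_ne_zero, by
      rw [one_smul]
      have := S.pair_X.2
      rw [one_smul] at this
      exact this.inv (pow_ne_zero _ S.xb_ne_zero)⟩
  have h' : (S.pair 1).Res (f * S.X⁻¹ ^ m)
      (g * (S.MC.xb⁻¹, (S.MC.xb ^ q)⁻¹) ^ m) := by
    simpa using S.pair_mul h (S.pair_pow hinv m)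
  obtain ⟨h3, h4⟩ := S.withInv.integralWrt_res (f := f * S.X⁻¹ ^ m)
    (by rw [withInv_X]; exact hf.2) h'
  change IntegralWrt k S.MC.xb⁻¹ _ at h3 h4
  rw [mem_poles_iff S.xb_ne_zero, mem_poles_iff S.xb_ne_zero]
  refine ⟨⟨h1, by simpa using h3⟩, h2, ?_⟩
  simpa [← inv_pow, ← pow_mul] using h4

end Sheet

end FLTAgent.BadRed
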