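import Fermat.Agent.BadRed.Modular
import Fermat.Agent.Specialization.Valuation
import Fermat.Agent.Kronecker.Galois

/-!
# Decomposition elements act on the two sheets of `X₀(Mq)` at `q`
-/

set_option autoImplicit false
set_option linter.style.haveILetI false
set_option linter.unusedSectionVars false
set_option synthInstance.maxHeartbeats 400000
set_option maxHeartbeats 1000000

noncomputable section

open AlgebraicCurve ModularCurve IntermediateField IsLocalRing

namespace FLTAgent.BadRed

open FLTAgent.Curves FLTAgent.Specialization

local notation "QA" => AlgebraicClosure ℚ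
local notation "GG" => (AlgebraicClosure ℚ ≃ₐ[ℚ] AlgebraicClosure ℚ)

theorem galois_smul_jEl (N : ℕ) [NeZero N] (σ : GG) :
    arithmeticGalois (modularFunctionFieldFull N) σ • Kronecker.jEl N = Kronecker.jEl N :=
  Subtype.ext <| by
    rw [coe_arithmeticGalois_smul]
    exact coeffMap_jqModC _

theorem galois_smul_jNEl (N : ℕ) [NeZero N] (σ : GG) :
    arithmeticGalois (modularFunctionFieldFull N) σ • Kronecker.jNEl N = Kronecker.jNEl N :=
  Subtype.ext <| by
    rw [coe_arithmeticGalois_smul]
    show coeffMap _ (qExpand QA N (jqModC QA)) = qExpand QA N (jqModC QA)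
    exact coeffMap_gen _ N

variable {M q : ℕ} [NeZero M] [Fact q.Prime] [NeZero q] [NeZero (M * q)]

theorem galois_smul_alpha (σ : GG) (h : X0Bar M) :
    arithmeticGalois (modularFunctionFieldFull (M * q)) σ • heckeAlphaBar QA M q h =
      heckeAlphaBar QA M q (arithmeticGalois (modularFunctionFieldFull M) σ • h) :=
  Subtype.ext <| by
    rw [coe_arithmeticGalois_smul, coe_heckeAlphaBar, coe_heckeAlphaBar,
      coe_arithmeticGalois_smul]

theorem galois_smul_beta (σ : GG) (h : X0Bar M) :
    arithmeticGalois (modularFunctionFieldFull (M * q)) σ • heckeBetaBar QA M q h =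
      heckeBetaBar QA M q (arithmeticGalois (modularFunctionFieldFull M) σ • h) :=
  Subtype.ext <| by
    rw [coe_arithmeticGalois_smul, coe_heckeBetaBar, coe_heckeBetaBar,
      coe_arithmeticGalois_smul, coeffMap_qExpand]

variable (hqM : ¬ q ∣ M)

include hqM in
theorem swapEnd_galois_smul (σ : GG) (z : X0Bar (M * q)) :
    swapEnd hqM (arithmeticGalois (modularFunctionFieldFull (M * q)) σ • z) =
      arithmeticGalois (modularFunctionFieldFull (M * q)) σ • swapEnd hqM z := by
  set S := arithmeticGalois (modularFunctionFieldFull (M * q)) σ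
  refine congrArg (fun f : X0Bar (M * q) →+* X0Bar (M * q) => f z) (Kronecker.ringHom_ext (M * q)
    ((swapEnd hqM).toRingHom.comp (SemilinearAut.toRingAut S).toRingHom)
    ((SemilinearAut.toRingAut S).toRingHom.comp (swapEnd hqM).toRingHom) (fun c => ?_) ?_ ?_)
  · show swapEnd hqM (S • algebraMap QA _ c) = S • swapEnd hqM (algebraMap QA _ c)
    rw [AlgHom.commutes, SemilinearAut.smul_algebraMap, AlgHom.commutes]
  · show swapEnd hqM (S • _) = S • swapEnd hqM _
    rw [galois_smul_jEl, jEl_eq_alpha, swapEnd_alpha, galois_smul_beta, galois_smul_jEl]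
  · show swapEnd hqM (S • _) = S • swapEnd hqM _
    rw [galois_smul_jNEl, jNEl_eq_beta, swapEnd_beta, galois_smul_alpha, galois_smul_jNEl]

variable {A : ValuationSubring QA} [IsAlgClosed (ResidueField A)] [CharP (ResidueField A) q]
  [IsFunctionField (ResidueField A) (modularFunctionFieldFullC (ResidueField A) M)]
  (hA : A.LiesOverPrime q)

local notation "kk" => ResidueField A

theorem res_galois (N : ℕ) (g : A.decompositionSubgroup ℚ) {f : X0Bar N} {y : LaurentSeries kk}
    (h : (laurentReduction (residue A) (X0Bar N)).Res f y) :
    (laurentReduction (residue A) (X0Bar N)).Res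
      (arithmeticGalois (modularFunctionFieldFull N) (g : GG) • f)
      (coeffMap (Kronecker.residueAut A g).toRingHom y) := by
  refine laurentReduction_map
    (φA := coeffMap (MulSemiringAction.toRingHom (A.decompositionSubgroup ℚ) A g))
    (φL := coeffMap ((g : GG) : QA →+* QA)) (fun z => ?_) (fun z => ?_) h
    (coe_arithmeticGalois_smul _ _ _)
  · rw [coeffMap_coeffMap, coeffMap_coeffMap]
    exact coeffMap_congr (RingHom.ext fun a => rfl) _
  · rw [coeffMap_coeffMap, coeffMap_coeffMap]
    exact coeffMap_congr (RingHom.ext fun a => rfl) _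

/-- The two sheets at a place above `q`. -/
abbrev sheetAt : Sheet (residue A) (X0Bar M) (modularFunctionFieldFullC kk M) (X0Bar (M * q)) q :=
  modularSheet hqM residue_surjective (rankOne_residue hA)

/-- The action of a decomposition element. -/
def symAt (g : A.decompositionSubgroup ℚ) : (sheetAt hqM hA).Sym where
  σ := arithmeticGalois (modularFunctionFieldFull (M * q)) (g : GG)
  σb := (SemilinearAut.toRingAut (Kronecker.specialAut M (Kronecker.residueAut A g))).toRingHom
  σX := by
    show _ • heckeAlphaBar QA M q
        (modularModel (π := residue A) residue_surjective M (natCast_ne_zero hqM kk)).x =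
      heckeAlphaBar QA M q
        (modularModel (π := residue A) residue_surjective M (natCast_ne_zero hqM kk)).x
    rw [modelX_eq, galois_smul_alpha, galois_smul_jEl]
  res₁ f y h := (PreSheet.sheet_res₁ (modularPre hqM residue_surjective (rankOne_residue hA))).2
    (res_galois (M * q) g
      ((PreSheet.sheet_res₁ (modularPre hqM residue_surjective (rankOne_residue hA))).1 h))
  res₂ f y h := (PreSheet.sheet_res₂ (modularPre hqM residue_surjective (rankOne_residue hA))).2 <| by
    have h2 : (laurentReduction (residue A) (X0Bar (M * q))).Res (swapEnd hqM f)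
        (y : LaurentSeries kk) :=
      comapReduction_res.1
        ((PreSheet.sheet_res₂ (modularPre hqM residue_surjective (rankOne_residue hA))).1 h)
    refine comapReduction_res.2 ?_
    rw [swapEnd_galois_smul]
    exact res_galois (M * q) g h2

theorem symAt_inertia {g : A.decompositionSubgroup ℚ} (hg : g ∈ A.inertiaSubgroup ℚ) :
    (symAt hqM hA g).σb = RingHom.id _ := by
  have hid : Kronecker.residueAut A g = RingEquiv.refl kk := RingEquiv.ext fun z => by
    have h1 : MulSemiringAction.toRingAut (A.decompositionSubgroup ℚ) kk g = 1 := hg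
    exact DFunLike.congr_fun h1 z
  refine RingHom.ext fun y => Subtype.ext ?_
  show coeffMap (Kronecker.residueAut A g).toRingHom (y : LaurentSeries kk) = _
  rw [hid]
  exact coeffMap_id _

theorem symAt_frobenius {g : A.decompositionSubgroup ℚ}
    (hg : ∀ z : kk, Kronecker.residueAut A g z = z ^ q) (y : modularFunctionFieldFullC kk M) :
    (sheetAt hqM hA).V ((symAt hqM hA g).σb y) = y ^ q := by
  show specialV kk M q _ = y ^ q
  rw [← specialV_coeffMap M q y]
  congr 1
  refine Subtype.ext ?_
  show coeffMap (Kronecker.residueAut A g).toRingHom (y : LaurentSeries kk) = _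
  exact coeffMap_congr (RingHom.ext fun z => hg z) _

end FLTAgent.BadRed
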