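import Fermat.Agent.BadRed.Norm

/-!
# The two theorems on torsion classes
-/

set_option autoImplicit false
set_option linter.style.haveILetI false
set_option linter.unusedSectionVars false

noncomputable section

namespace FLTAgent.BadRed

open AlgebraicCurve FLTAgent.Curves FLTAgent.Specialization Polynomial IntermediateField

section General

variable {L F : Type*} [Field L] [Field F] [Algebra L F] [IsAlgClosed L] [IsFunctionField L F]

theorem exists_torsion_rep {n : ℕ} {x : Pic0 L F} (hx : x ∈ Pic0.torsion L F n) :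
    ∃ (D : Divisor.degZero (K := L) (F := F)) (f : F), Pic0.mk D = x ∧ f ≠ 0 ∧
      ∀ v : Place L F, v.ord f = (n : ℤ) * (D : Divisor L F) v := by
  obtain ⟨D, rfl⟩ := Pic0.mk_surjective x
  rw [Pic0.mem_torsion] at hx
  have h : ((n : ℤ) • D : Divisor.degZero (K := L) (F := F)) ∈
      (Divisor.principal (K := L) (F := F)).addSubgroupOf (Divisor.degZero (K := L) (F := F)) := by
    rw [← QuotientAddGroup.eq_zero_iff]
    rw [← hx]
    exact QuotientAddGroup.mk_zsmul _ D (n : ℤ)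
  obtain ⟨f, hf, hD⟩ := AddSubgroup.mem_addSubgroupOf.1 h
  exact ⟨D, f, rfl, hf, fun v => by rw [← hD v]; simp⟩

/-- A class is determined by a function up to `n`-th powers. -/
theorem mk_eq_of_ord {n : ℕ} (hn : n ≠ 0) {D E : Divisor.degZero (K := L) (F := F)} {h : F}
    (hh : h ≠ 0) (H : ∀ v : Place L F,
      (n : ℤ) * (D : Divisor L F) v = n * (E : Divisor L F) v + n * v.ord h) :
    Pic0.mk D = Pic0.mk E := by
  refine (QuotientAddGroup.eq_iff_sub_mem.2 (AddSubgroup.mem_addSubgroupOf.2 ⟨h, hh, fun v => ?_⟩))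
  refine mul_left_cancel₀ (Int.natCast_ne_zero.2 hn) ?_
  simp only [AddSubgroupClass.coe_sub, Finsupp.sub_apply, mul_sub]
  rw [H v]; ring

theorem ord_smul' (σ : SemilinearAut L F) (f : F) (v : Place L F) :
    v.ord (σ • f) = (σ⁻¹ • v).ord f := by
  have e := SemilinearAut.ord_smul σ (σ⁻¹ • v) f
  rwa [smul_inv_smul] at e

/-- An identity between functions gives one between classes. -/
theorem smul_smul_of_eq (σ : SemilinearAut L F) {n m : ℕ} (hn : n ≠ 0)
    {D : Divisor.degZero (K := L) (F := F)} {f : F} (hf : f ≠ 0)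
    (hD : ∀ v : Place L F, v.ord f = (n : ℤ) * (D : Divisor L F) v) {c : L} (hc : c ≠ 0) {h : F}
    (hh : σ • (σ • f / f) = c • ((σ • f / f) ^ m * h ^ n)) :
    σ • (σ • Pic0.mk D) - σ • Pic0.mk D = m • (σ • Pic0.mk D - Pic0.mk D) := by
  have hσf : σ • f ≠ 0 := (smul_ne_zero_iff_ne σ).2 hf
  have hh0 : h ≠ 0 := by
    rintro rfl
    rw [zero_pow hn, mul_zero, smul_zero, smul_eq_zero_iff_eq] at hh
    exact div_ne_zero hσf hf hh
  simp only [SemilinearAut.pic0_smul_mk]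
  change Pic0.mk _ - Pic0.mk _ = m • (Pic0.mk _ - Pic0.mk _)
  refine (QuotientAddGroup.mk_sub _ _ _).symm.trans ((mk_eq_of_ord hn hh0 fun v => ?_).trans
    ((QuotientAddGroup.mk_nsmul _ _ _).trans (congrArg _ (QuotientAddGroup.mk_sub _ _ _))))
  have hp := pow_ne_zero m (div_ne_zero hσf hf)
  have e := congrArg v.ord hh
  rw [ord_smul', ord_div _ hσf hf, ord_smul', Algebra.smul_def,
    v.ord_mul (by simpa using hc) (mul_ne_zero hp (pow_ne_zero _ hh0)),
    ord_algebraMap, zero_add, v.ord_mul hp (pow_ne_zero _ hh0), ord_pow,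
    ord_div _ hσf hf, ord_smul', ord_pow, hD, hD, hD] at e
  simp only [AddSubgroupClass.coe_sub, SemilinearAut.coe_degZeroSMulHom, Finsupp.sub_apply,
    SemilinearAut.divisor_smul_apply, AddSubgroupClass.coe_nsmul, Finsupp.smul_apply, nsmul_eq_mul]
  linarith

end General

variable {L k : Type*} [Field L] [Field k] {A : ValuationSubring L} {π : A →+* k}
  {FC Fb F : Type*} [Field FC] [Field Fb] [Field F] [Algebra L FC]
  [Algebra k Fb] [Algebra L F] [IsAlgClosed L] [IsFunctionField L FC] [IsFunctionField L F]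
  [IsAlgClosed k] [IsFunctionField k Fb] {q : ℕ}

namespace Sheet

variable {S : Sheet π FC Fb F q} (hS : S.Good)
include hS

/-- **Unipotence**: an automorphism trivial on both reductions satisfies `(σ - 1)² = 0` on
torsion of order invertible in the residue field. -/
theorem Sym.smul_smul_torsion (P : S.Sym) (hb : P.σb = RingHom.id Fb) {n : ℕ}
    (hn : (n : k) ≠ 0) {x : Pic0 L F} (hx : x ∈ Pic0.torsion L F n) :
    P.σ • (P.σ • x) - P.σ • x = P.σ • x - x := by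
  obtain ⟨N⟩ := hS.nonempty_nodes
  obtain ⟨D, f, rfl, hf, hD⟩ := exists_torsion_rep hx
  have hne : n ≠ 0 := fun h => hn (by rw [h, Nat.cast_zero])
  obtain ⟨c, h, hc, hh⟩ := P.exists_unipotent hS N hb hn hf (fun v => Dvd.intro _ (hD v).symm)
  rw [← pow_one (P.σ • f / f)] at hh
  simpa using smul_smul_of_eq P.σ hne hf hD hc (m := 1) (by simpa using hh)

omit hS in
/-- A class killed by the pushforward has norm a power up to constants. -/
theorem exists_norm_eq {φ : FC →ₐ[L] F} (hφ : φ.toRingHom.IsIntegral) (hfin : FiniteAlong L φ)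
    (hN : NormFormulaAlong L φ hfin) {n : ℕ} {D : Divisor.degZero (K := L) (F := F)} {f : F}
    (hf : f ≠ 0) (hD : ∀ v : Place L F, v.ord f = (n : ℤ) * (D : Divisor L F) v)
    (hp : (Divisor.pushforwardAlong φ hφ (D : Divisor L F)).IsPrincipal) :
    ∃ (c : L) (h : FC), c ≠ 0 ∧ h ≠ 0 ∧
      @Algebra.norm FC F _ _ (algebraAlong φ) f = c • h ^ n := by
  letI := algebraAlong φ
  haveI := isScalarTower_along φ
  haveI := isIntegral_along φ hφ
  haveI : Module.Finite FC F := hfin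
  obtain ⟨h, hh, hhv⟩ := hp
  have hnf : Algebra.norm FC f ≠ 0 := Algebra.norm_ne_zero_iff.2 hf
  have hv : ∀ v : Place L FC, v.ord (Algebra.norm FC f) = (n : ℤ) * v.ord h := by
    intro v
    have h1 := hN f hf ((n : ℤ) • (D : Divisor L F)) (fun w => by simp [hD w]) v
    rw [← h1, map_zsmul, Finsupp.smul_apply, smul_eq_mul, ← hhv v]
    rfl
  obtain ⟨c, hc⟩ := eq_algebraMap_of_forall_ord_nonneg (K := L)
    (f := Algebra.norm FC f / h ^ n) fun v => by
      rw [ord_div v hnf (pow_ne_zero _ hh), ord_pow, hv, sub_self]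
  refine ⟨c, h, fun h0 => div_ne_zero hnf (pow_ne_zero _ hh) (by rw [hc, h0, map_zero]), hh, ?_⟩
  rw [Algebra.smul_def, ← hc, div_mul_cancel₀ _ (pow_ne_zero _ hh)]

omit hS in
theorem exists_pow_eq (hinj : ∀ x y : Fb, x ^ q = y ^ q → x = y)
    {σb : Fb →+* Fb} (hV : ∀ g, S.V (σb g) = g ^ q) {n : ℕ} (hn : (n : k) ≠ 0) {f : F}
    {c : L} {h : FC} (hh : h ≠ 0)
    (he : @Algebra.norm FC F _ _ (algebraAlong S.α) f = c • h ^ n)
    {c₁ c₂ : L} {a₁ a₂ : Fb} (ha₁ : a₁ ≠ 0) (ha₂ : a₂ ≠ 0) (r₁ : S.R₁.Res (c₁ • f) a₁)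
    (r₂ : S.R₂.Res (c₂ • f) a₂) : ∃ g : Fb, a₁ * σb a₂ = g ^ n := by
  have hne : n ≠ 0 := fun h => hn (by rw [h, Nat.cast_zero])
  have hr := S.exists_norm_res hinj ha₁ ha₂ r₁ r₂ (hV a₂)
  rw [he, smul_smul] at hr
  obtain ⟨e, g, hg, heg⟩ := S.MC.scaled h hh
  have he0 : e ≠ 0 := by
    rintro rfl
    rw [zero_smul] at heg
    exact hg (heg.unique S.MC.res_zero)
  set s := c₁ * c₂ ^ q * c / e ^ n
  have hs : s • (e • h) ^ n = (c₁ * c₂ ^ q * c) • h ^ n := by
    rw [_root_.smul_pow, smul_smul, div_mul_cancel₀ _ (pow_ne_zero _ he0)]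
  rw [← hs] at hr
  have hb : a₁ * σb a₂ ≠ 0 := mul_ne_zero ha₁ ((map_ne_zero σb).2 ha₂)
  have hgn := pow_ne_zero n hg
  have h1 := hr.div (heg.pow n) hgn
  have hne' : (e • h) ^ n ≠ 0 := (heg.pow n).ne_zero hgn
  rw [Algebra.smul_def, mul_div_assoc, div_self hne', mul_one] at h1
  have hsA : s ∈ A := by
    by_contra hsn
    have hinv : s⁻¹ ∈ A := (A.mem_or_inv_mem s).resolve_left hsn
    have hs0 : s ≠ 0 := fun h0 => hsn (h0 ▸ A.zero_mem)
    have hπ : π ⟨s⁻¹, hinv⟩ = 0 := Reduction.map_eq_zero_of_inv_notMem S.MC.surj (by simpa)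
    have h2 := (S.MC.res_algebraMap ⟨s⁻¹, hinv⟩).mul h1
    rw [← map_mul, inv_mul_cancel₀ hs0, map_one, hπ, map_zero, zero_mul] at h2
    exact one_ne_zero (S.MC.res_one.unique h2)
  have h3 := h1.unique (S.MC.res_algebraMap ⟨s, hsA⟩)
  obtain ⟨r, hr'⟩ := IsAlgClosed.exists_pow_nat_eq (π ⟨s, hsA⟩) (Nat.pos_of_ne_zero hne)
  refine ⟨algebraMap k Fb r * g, ?_⟩
  rw [mul_pow, ← map_pow, hr', ← h3, div_mul_cancel₀ _ hgn]

/-- **Frobenius**: for a function whose norms to both levels below are powers up to constants,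
`σ²` acts on `σ² f / f` as the `q²`-th power. -/
theorem Sym.exists_pow_rel (P : S.Sym) (hV : ∀ g, S.V (P.σb g) = g ^ q)
    (hinj : ∀ x y : Fb, x ^ q = y ^ q → x = y) (hβdeg : finrankAlong L S.β = q + 1) {n : ℕ}
    (hn : (n : k) ≠ 0) {f : F} (hf : f ≠ 0) (hdvd : ∀ v : Place L F, (n : ℤ) ∣ v.ord f)
    {cα cβ : L} {hα hβ : FC} (hhα : hα ≠ 0) (hhβ : hβ ≠ 0)
    (eα : @Algebra.norm FC F _ _ (algebraAlong S.α) f = cα • hα ^ n)
    (eβ : @Algebra.norm FC F _ _ (algebraAlong S.β) f = cβ • hβ ^ n) :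
    ∃ (c : L) (h : F), c ≠ 0 ∧
      P.sq.σ • (P.sq.σ • f / f) = c • ((P.sq.σ • f / f) ^ (q * q) * h ^ n) := by
  obtain ⟨N⟩ := hS.nonempty_nodes
  obtain ⟨c₁, a₁, ha₁, r₁⟩ := S.scaled₁ f hf
  obtain ⟨c₂, a₂, ha₂, r₂⟩ := S.scaled₂ f hf
  obtain ⟨g₁, hg₁⟩ := exists_pow_eq hinj hV hn hhα eα ha₁ ha₂ r₁ r₂
  obtain ⟨g₂, hg₂⟩ := exists_pow_eq (S := S.swap hβdeg) hinj hV hn hhβ eβ ha₂ ha₁ r₂ r₁
  rw [mul_comm] at hg₂
  exact P.exists_frobenius hS N hV hn hf hdvd ha₁ ha₂ r₁ r₂ hg₁ hg₂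

end Sheet

end FLTAgent.BadRed
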